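import Fermat.Agent.S14.An.Defs

/-!
# S14, analytic block (An-EP1): the Euler product over prime ideals

For a completely multiplicative, absolutely summable function `f` on the nonzero ideals of a
Dedekind domain, `∏_{v ∈ T} (1 - f v)⁻¹ → ∑_I f I` along finite sets `T` of primes.
-/

set_option autoImplicit false

namespace Fermat.Agent.S14.An

open NumberField IsDedekindDomain Filter Topology
open scoped nonZeroDivisors

section general

variable {R : Type*} [CommRing R] [IsDedekindDomain R]

/-- A maximal ideal as an element of `(Ideal R)⁰`. -/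
def hNZ (v : HeightOneSpectrum R) : (Ideal R)⁰ :=
  ⟨v.asIdeal, mem_nonZeroDivisors_of_ne_zero v.ne_bot⟩

@[simp] lemma coe_hNZ (v : HeightOneSpectrum R) : ((hNZ v : (Ideal R)⁰) : Ideal R) = v.asIdeal :=
  rfl

/-- The nonzero ideals all of whose prime factors lie in `T`. -/
def suppOn (T : Finset (HeightOneSpectrum R)) : Set (Ideal R)⁰ :=
  {I | ∀ v : HeightOneSpectrum R, v.asIdeal ∣ (I : Ideal R) → v ∈ T}

omit [IsDedekindDomain R] in
lemma mem_suppOn {T : Finset (HeightOneSpectrum R)} {I : (Ideal R)⁰} :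
    I ∈ suppOn T ↔ ∀ v : HeightOneSpectrum R, v.asIdeal ∣ (I : Ideal R) → v ∈ T := Iff.rfl

lemma asIdeal_dvd_asIdeal_iff {v w : HeightOneSpectrum R} : w.asIdeal ∣ v.asIdeal ↔ w = v := by
  constructor
  · intro h
    have h1 : v.asIdeal ≤ w.asIdeal := Ideal.le_of_dvd h
    have h2 : v.asIdeal = w.asIdeal := v.isMaximal.eq_of_le w.isPrime.ne_top h1
    exact (HeightOneSpectrum.ext h2).symm
  · rintro rfl; exact dvd_rfl

lemma not_isUnit_asIdeal (v : HeightOneSpectrum R) : ¬ IsUnit v.asIdeal := v.prime.not_isUnit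

lemma suppOn_empty : suppOn (∅ : Finset (HeightOneSpectrum R)) = {1} := by
  ext I
  simp only [mem_suppOn, Finset.notMem_empty, imp_false, Set.mem_singleton_iff]
  constructor
  · intro h
    by_contra hI
    have hI' : (I : Ideal R) ≠ ⊤ := by
      intro h1; apply hI; ext1; simpa using h1
    obtain ⟨m, hm, hle⟩ := Ideal.exists_le_maximal _ hI'
    have hm0 : m ≠ ⊥ := by
      rintro rfl
      exact (nonZeroDivisors.coe_ne_zero I) (le_bot_iff.mp hle)
    exact h ⟨m, hm.isPrime, hm0⟩ (Ideal.dvd_iff_le.mpr hle)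
  · rintro rfl v hv
    exact not_isUnit_asIdeal v (isUnit_of_dvd_one (by simpa using hv))

/-- the map `(k, J) ↦ v ^ k * J`. -/
def powMul (v : HeightOneSpectrum R) (T : Finset (HeightOneSpectrum R)) :
    ℕ × suppOn T → (Ideal R)⁰ := fun x => hNZ v ^ x.1 * (x.2 : (Ideal R)⁰)

lemma powMul_injective {v : HeightOneSpectrum R} {T : Finset (HeightOneSpectrum R)}
    (hv : v ∉ T) : Function.Injective (powMul v T) := by
  have key : ∀ (k l : ℕ) (J J' : suppOn T), k ≤ l →
      hNZ v ^ k * (J : (Ideal R)⁰) = hNZ v ^ l * (J' : (Ideal R)⁰) → k = l ∧ J = J' := by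
    intro k l J J' hkl h
    obtain ⟨d, rfl⟩ := Nat.exists_eq_add_of_le hkl
    rw [pow_add, mul_assoc] at h
    have h1 : (J : (Ideal R)⁰) = hNZ v ^ d * (J' : (Ideal R)⁰) := mul_left_cancel h
    rcases Nat.eq_zero_or_pos d with rfl | hd
    · refine ⟨rfl, ?_⟩
      ext1; simpa using h1
    · exfalso
      apply hv
      apply J.2 v
      rw [h1]
      simp only [Submonoid.coe_mul, SubmonoidClass.coe_pow, coe_hNZ]
      exact Dvd.dvd.mul_right (dvd_pow_self _ hd.ne') _
  rintro ⟨k, J⟩ ⟨l, J'⟩ h
  simp only [powMul] at h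
  rcases le_total k l with hkl | hkl
  · obtain ⟨rfl, rfl⟩ := key k l J J' hkl h; rfl
  · obtain ⟨rfl, rfl⟩ := key l k J' J hkl h.symm; rfl

lemma range_powMul {v : HeightOneSpectrum R} {T : Finset (HeightOneSpectrum R)}
    (hv : v ∉ T) [DecidableEq (HeightOneSpectrum R)] :
    Set.range (powMul v T) = suppOn (insert v T) := by
  ext I
  constructor
  · rintro ⟨⟨k, J⟩, rfl⟩ w hw
    simp only [powMul, Submonoid.coe_mul, SubmonoidClass.coe_pow, coe_hNZ] at hw
    rcases w.prime.dvd_or_dvd hw with h | h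
    · have := w.prime.dvd_of_dvd_pow h
      rw [asIdeal_dvd_asIdeal_iff] at this
      simp [this]
    · exact Finset.mem_insert_of_mem (J.2 w h)
  · intro hI
    have hfin : FiniteMultiplicity v.asIdeal (I : Ideal R) :=
      FiniteMultiplicity.of_not_isUnit (not_isUnit_asIdeal v) (nonZeroDivisors.coe_ne_zero I)
    obtain ⟨J, hJ, hvJ⟩ := hfin.exists_eq_pow_mul_and_not_dvd
    have hJ0 : J ≠ 0 := by
      rintro rfl
      exact (nonZeroDivisors.coe_ne_zero I) (by simpa using hJ)
    have hJs : (⟨J, mem_nonZeroDivisors_of_ne_zero hJ0⟩ : (Ideal R)⁰) ∈ suppOn T := by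
      intro w hw
      have h1 : w ∈ insert v T := hI w (by rw [hJ]; exact Dvd.dvd.mul_left hw _)
      rcases Finset.mem_insert.mp h1 with rfl | h
      · exact absurd hw hvJ
      · exact h
    refine ⟨(multiplicity v.asIdeal (I : Ideal R), ⟨_, hJs⟩), ?_⟩
    ext1
    simp only [powMul, Submonoid.coe_mul, SubmonoidClass.coe_pow, coe_hNZ]
    exact hJ.symm

variable (f : (Ideal R)⁰ →* ℂ) (hf : Summable fun I => ‖f I‖)

include hf in
lemma norm_hNZ_lt_one (v : HeightOneSpectrum R) : ‖f (hNZ v)‖ < 1 := by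
  have hinj : Function.Injective fun k : ℕ => hNZ v ^ k := by
    intro k l h
    have h' : v.asIdeal ^ k = v.asIdeal ^ l := by
      have := congrArg (fun I : (Ideal R)⁰ => (I : Ideal R)) h
      simpa using this
    exact pow_injective_of_not_isUnit (not_isUnit_asIdeal v) v.ne_bot h'
  have h1 : Summable fun k : ℕ => ‖f (hNZ v)‖ ^ k := by
    have := hf.comp_injective hinj
    simpa [Function.comp_def] using this
  have := summable_geometric_iff_norm_lt_one.mp h1
  simpa using this

include hf in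
lemma hasSum_suppOn (T : Finset (HeightOneSpectrum R)) :
    HasSum (fun I : suppOn T => f (I : (Ideal R)⁰)) (∏ v ∈ T, (1 - f (hNZ v))⁻¹) := by
  classical
  induction T using Finset.induction_on with
  | empty =>
    rw [Finset.prod_empty, suppOn_empty]
    have : (fun I : ({1} : Set (Ideal R)⁰) => f (I : (Ideal R)⁰)) = fun _ => 1 := by
      funext I
      have : (I : (Ideal R)⁰) = 1 := I.2
      rw [this, map_one]
    rw [this]
    convert hasSum_fintype (fun _ : ({1} : Set (Ideal R)⁰) => (1 : ℂ)) using 1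
    simp
  | insert v T hv ih =>
    rw [Finset.prod_insert hv]
    have hgeo : HasSum (fun k : ℕ => f (hNZ v) ^ k) (1 - f (hNZ v))⁻¹ :=
      hasSum_geometric_of_norm_lt_one (norm_hNZ_lt_one f hf v)
    have hsn1 : Summable fun k : ℕ => ‖f (hNZ v) ^ k‖ := by
      simpa using summable_geometric_of_lt_one (norm_nonneg _) (norm_hNZ_lt_one f hf v)
    have hsn2 : Summable fun I : suppOn T => ‖f (I : (Ideal R)⁰)‖ :=
      hf.comp_injective Subtype.val_injective
    have hprod : HasSum (fun x : ℕ × suppOn T => f (hNZ v) ^ x.1 * f (x.2 : (Ideal R)⁰))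
        ((1 - f (hNZ v))⁻¹ * ∏ v ∈ T, (1 - f (hNZ v))⁻¹) :=
      HasSum.mul (f := fun k : ℕ => f (hNZ v) ^ k) (g := fun I : suppOn T => f (I : (Ideal R)⁰))
        hgeo ih (summable_mul_of_summable_norm (f := fun k : ℕ => f (hNZ v) ^ k)
          (g := fun I : suppOn T => f (I : (Ideal R)⁰)) hsn1 hsn2)
    have h2 : HasSum ((suppOn (insert v T)).indicator f)
        ((1 - f (hNZ v))⁻¹ * ∏ v ∈ T, (1 - f (hNZ v))⁻¹) := by
      rw [← (powMul_injective hv).hasSum_iff]
      · convert hprod using 1
        funext x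
        have hx : powMul v T x ∈ suppOn (insert v T) := by
          rw [← range_powMul hv]; exact ⟨x, rfl⟩
        simp only [Function.comp_apply, Set.indicator_of_mem hx]
        simp [powMul]
      · intro I hI
        rw [range_powMul hv] at hI
        exact Set.indicator_of_notMem hI _
    exact (hasSum_subtype_iff_indicator).mpr h2

include hf in
theorem eulerProduct_tendsto_general :
    Tendsto (fun T : Finset (HeightOneSpectrum R) => ∏ v ∈ T, (1 - f (hNZ v))⁻¹) atTop
      (𝓝 (∑' I, f I)) := by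
  classical
  have h1 : ∀ T : Finset (HeightOneSpectrum R),
      ∏ v ∈ T, (1 - f (hNZ v))⁻¹ = ∑' I, (suppOn T).indicator f I := by
    intro T
    exact ((hasSum_subtype_iff_indicator).mp (hasSum_suppOn f hf T)).tsum_eq.symm
  simp_rw [h1]
  refine tendsto_tsum_of_dominated_convergence hf ?_ ?_
  · intro I
    have hfin : {v : HeightOneSpectrum R | v.asIdeal ∣ (I : Ideal R)}.Finite :=
      Ideal.finite_factors (nonZeroDivisors.coe_ne_zero I)
    refine tendsto_const_nhds.congr' ?_
    filter_upwards [eventually_ge_atTop hfin.toFinset] with T hT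
    have : I ∈ suppOn T := fun v hv => hT (by simpa using hv)
    rw [Set.indicator_of_mem this]
  · refine Eventually.of_forall fun T I => ?_
    by_cases h : I ∈ suppOn T
    · rw [Set.indicator_of_mem h]
    · rw [Set.indicator_of_notMem h]; simp

end general

variable {K : Type*} [Field K] [NumberField K]

theorem eulerProduct_tendsto (f : (Ideal (𝓞 K))⁰ →* ℂ) (hf : Summable fun I => ‖f I‖) :
    Tendsto (fun T : Finset (HeightOneSpectrum (𝓞 K)) => ∏ v ∈ T, (1 - f (primeNZ v))⁻¹) atTop
      (𝓝 (∑' I, f I)) :=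
  eulerProduct_tendsto_general f hf

end Fermat.Agent.S14.An
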