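import Fermat.Agent.S14.An.Defs

/-!
# S14, analytic block (An-Z): the Dedekind zeta function as a sum over ideals
-/

set_option autoImplicit false

namespace Fermat.Agent.S14.An

open NumberField IsDedekindDomain Filter Topology
open scoped nonZeroDivisors

variable {K : Type*} [Field K] [NumberField K]

namespace ZetaAux

variable (K) in
/-- the number of ideals of norm `n`. -/
noncomputable def cnt (n : ℕ) : ℝ := (Nat.card {I : Ideal (𝓞 K) // Ideal.absNorm I = n} : ℝ)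

theorem cnt_nonneg (n : ℕ) : 0 ≤ cnt K n := Nat.cast_nonneg _

variable (K) in
theorem tendsto_sum_cnt :
    Tendsto (fun n : ℕ => (∑ k ∈ Finset.Icc 1 n, cnt K k) / (n : ℝ)) atTop
      (𝓝 (dedekindZeta_residue K)) := by
  refine ((Ideal.tendsto_norm_le_div_atTop₀ K).comp tendsto_natCast_atTop_atTop).congr fun n ↦ ?_
  simp only [Function.comp_apply, Nat.cast_le, cnt, ← Nat.cast_sum]
  congr
  rw [← add_left_inj 1, ← Ideal.card_norm_le_eq_card_norm_le_add_one,
    show Finset.Icc 1 n = Finset.Ioc 0 n from Finset.Icc_succ_left_eq_Ioc _ _,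
    show 1 = Nat.card {I : Ideal (𝓞 K) // Ideal.absNorm I = 0} by simp [Ideal.absNorm_eq_zero_iff],
    Finset.sum_Ioc_add_eq_sum_Icc (n.zero_le),
    ← Finset.card_preimage_eq_sum_card_image_eq (fun k _ ↦ Ideal.finite_setOfPred_absNorm_eq k)]
  simp [Set.coe_eq_subtype]

theorem lseriesSummable {s : ℝ} (hs : 1 < s) :
    LSeriesSummable (fun n => (cnt K n : ℂ)) (s : ℂ) := by
  refine LSeriesSummable_of_sum_norm_bigO_and_nonneg ?_ (fun _ => cnt_nonneg _) zero_le_one
    (by simpa using hs)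
  exact Asymptotics.isBigO_atTop_natCast_rpow_of_tendsto_div_rpow (by simpa using tendsto_sum_cnt K)

theorem term_eq {s : ℝ} (hs : 1 < s) (n : ℕ) :
    LSeries.term (fun n => (cnt K n : ℂ)) (s : ℂ) n = ((cnt K n * (n : ℝ) ^ (-s) : ℝ) : ℂ) := by
  rcases eq_or_ne n 0 with rfl | hn
  · have : -s ≠ 0 := by linarith
    simp [Real.zero_rpow this]
  · rw [LSeries.term_of_ne_zero hn, Real.rpow_neg (Nat.cast_nonneg n), Complex.ofReal_mul,
      Complex.ofReal_inv, Complex.ofReal_cpow (Nat.cast_nonneg n), div_eq_mul_inv]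
    simp

theorem summable_cnt {s : ℝ} (hs : 1 < s) : Summable fun n : ℕ => cnt K n * (n : ℝ) ^ (-s) := by
  have h := lseriesSummable (K := K) hs
  unfold LSeriesSummable at h
  rw [← Complex.summable_ofReal]
  exact h.congr fun n => term_eq hs n

/-- the fibre of the norm over `n`, in the nonzero ideals. -/
abbrev Fib (K : Type*) [Field K] [NumberField K] (n : ℕ) : Type _ :=
  {I : (Ideal (𝓞 K))⁰ // Ideal.absNorm (I : Ideal (𝓞 K)) = n}

/-- for `n ≠ 0` every ideal of norm `n` is nonzero. -/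
def fibEquiv {n : ℕ} (hn : n ≠ 0) : Fib K n ≃ {I : Ideal (𝓞 K) // Ideal.absNorm I = n} where
  toFun I := ⟨I.1.1, I.2⟩
  invFun I := ⟨⟨I.1, mem_nonZeroDivisors_of_ne_zero (by
    intro h
    have h2 := I.2
    rw [h] at h2
    simp at h2
    exact hn h2.symm)⟩, I.2⟩
  left_inv _ := rfl
  right_inv _ := rfl

instance finite_Fib (n : ℕ) : Finite (Fib K n) := by
  have h : Finite {I : Ideal (𝓞 K) // Ideal.absNorm I = n} :=
    (Ideal.finite_setOfPred_absNorm_eq (S := 𝓞 K) n).to_subtype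
  exact Finite.of_injective (fun I : Fib K n => (⟨I.1.1, I.2⟩ : {I : Ideal (𝓞 K) // Ideal.absNorm I = n}))
    (fun a b hab => Subtype.ext (Subtype.ext (congrArg (fun x => x.1) hab)))

theorem card_Fib_mul {s : ℝ} (hs : 1 < s) (n : ℕ) :
    (Nat.card (Fib K n) : ℝ) * (n : ℝ) ^ (-s) = cnt K n * (n : ℝ) ^ (-s) := by
  rcases eq_or_ne n 0 with rfl | hn
  · have : -s ≠ 0 := by linarith
    simp [Real.zero_rpow this]
  · rw [Nat.card_congr (fibEquiv hn)]; rfl

variable (K) in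
/-- nonzero ideals, sorted by their norm. -/
noncomputable def sig : (Σ n : ℕ, Fib K n) ≃ (Ideal (𝓞 K))⁰ :=
  Equiv.sigmaFiberEquiv fun I : (Ideal (𝓞 K))⁰ => Ideal.absNorm (I : Ideal (𝓞 K))

theorem nrm_sig (s : ℝ) (x : Σ n : ℕ, Fib K n) :
    nrm K s (sig K x : Ideal (𝓞 K)) = (x.1 : ℝ) ^ (-s) := by
  obtain ⟨n, I, hI⟩ := x
  show ((Ideal.absNorm (I : Ideal (𝓞 K)) : ℕ) : ℝ) ^ (-s) = _
  rw [hI]

theorem tsum_fib {s : ℝ} (hs : 1 < s) (n : ℕ) :
    ∑' y : Fib K n, nrm K s (sig K ⟨n, y⟩ : Ideal (𝓞 K)) = cnt K n * (n : ℝ) ^ (-s) := by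
  simp only [nrm_sig]
  rw [tsum_const, nsmul_eq_mul, card_Fib_mul hs]

theorem nrm_nonneg (s : ℝ) (I : Ideal (𝓞 K)) : 0 ≤ nrm K s I :=
  Real.rpow_nonneg (Nat.cast_nonneg _) _

theorem summable_sig {s : ℝ} (hs : 1 < s) :
    Summable fun x : Σ n : ℕ, Fib K n => nrm K s (sig K x : Ideal (𝓞 K)) := by
  rw [summable_sigma_of_nonneg fun x => nrm_nonneg _ _]
  refine ⟨fun n => Summable.of_finite, ?_⟩
  simp only [tsum_fib hs]
  exact summable_cnt hs

end ZetaAux

open ZetaAux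

theorem summable_nrm {s : ℝ} (hs : 1 < s) :
    Summable fun I : (Ideal (𝓞 K))⁰ => nrm K s (I : Ideal (𝓞 K)) :=
  (sig K).summable_iff.mp (summable_sig hs)

namespace ZetaAux

theorem idealZeta_eq_tsum {s : ℝ} (hs : 1 < s) :
    idealZeta K s = ∑' n : ℕ, cnt K n * (n : ℝ) ^ (-s) := by
  unfold idealZeta
  rw [← (sig K).tsum_eq, (summable_sig hs).tsum_sigma]
  simp only [tsum_fib hs]

theorem dedekindZeta_eq {s : ℝ} (hs : 1 < s) : dedekindZeta K s = ((idealZeta K s : ℝ) : ℂ) := by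
  rw [idealZeta_eq_tsum hs, Complex.ofReal_tsum]
  unfold dedekindZeta LSeries
  refine tsum_congr fun n => ?_
  rw [← term_eq hs]
  simp [cnt]

variable (K) in
theorem tendsto_idealZeta :
    Tendsto (fun s : ℝ => (s - 1) * idealZeta K s) (𝓝[>] 1) (𝓝 (dedekindZeta_residue K)) := by
  rw [← tendsto_ofReal_iff]
  refine (tendsto_sub_one_mul_dedekindZeta_nhdsGT K).congr' ?_
  filter_upwards [self_mem_nhdsWithin] with s hs
  rw [dedekindZeta_eq hs]
  push_cast
  rfl

end ZetaAux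

namespace ZetaAux

theorem one_le_absNorm (I : (Ideal (𝓞 K))⁰) : (1 : ℝ) ≤ (Ideal.absNorm (I : Ideal (𝓞 K)) : ℝ) := by
  have h := Ideal.absNorm_ne_zero_of_nonZeroDivisors I
  exact_mod_cast Nat.one_le_iff_ne_zero.mpr h

theorem one_le_idealZeta {s : ℝ} (hs : 1 < s) : 1 ≤ idealZeta K s := by
  have h := (summable_nrm (K := K) hs).le_tsum (1 : (Ideal (𝓞 K))⁰) (fun j _ => nrm_nonneg _ _)
  simpa [nrm, idealZeta, Ideal.one_eq_top] using h

theorem idealZeta_anti {s t : ℝ} (hs : 1 < s) (hst : s ≤ t) : idealZeta K t ≤ idealZeta K s := by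
  refine Summable.tsum_le_tsum (fun I => ?_) (summable_nrm (hs.trans_le hst)) (summable_nrm hs)
  exact Real.rpow_le_rpow_of_exponent_le (one_le_absNorm I) (by linarith)

end ZetaAux

variable (K) in
theorem idealZeta_bounds : ∃ c C : ℝ, 0 < c ∧ 0 < C ∧ ∀ s : ℝ, 1 < s → s ≤ 2 →
    c / (s - 1) ≤ idealZeta K s ∧ idealZeta K s ≤ C / (s - 1) := by
  set ρ := dedekindZeta_residue K with hρdef
  have hρ : 0 < ρ := dedekindZeta_residue_pos K
  have h1 : ∀ᶠ s in 𝓝[>] (1 : ℝ), (s - 1) * idealZeta K s ∈ Set.Ioo (ρ / 2) (2 * ρ) :=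
    (tendsto_idealZeta K).eventually (Ioo_mem_nhds (by linarith) (by linarith))
  rw [eventually_nhdsWithin_iff, Metric.eventually_nhds_iff] at h1
  obtain ⟨δ, hδ, h⟩ := h1
  have hs₀ : (1 : ℝ) < 1 + δ / 2 := by linarith
  have hz₀ : 1 ≤ idealZeta K (1 + δ / 2) := one_le_idealZeta hs₀
  refine ⟨min (ρ / 2) (δ / 2), max (2 * ρ) (idealZeta K (1 + δ / 2)), by positivity,
    by positivity, ?_⟩
  intro s hs hs2
  have hs1 : 0 < s - 1 := by linarith
  by_cases hcase : s < 1 + δ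
  · have h2 := h (y := s) (by rw [Real.dist_eq, abs_of_pos hs1]; linarith) hs
    constructor
    · rw [div_le_iff₀ hs1]
      calc min (ρ / 2) (δ / 2) ≤ ρ / 2 := min_le_left _ _
        _ ≤ idealZeta K s * (s - 1) := by linarith [h2.1]
    · rw [le_div_iff₀ hs1]
      calc idealZeta K s * (s - 1) ≤ 2 * ρ := by linarith [h2.2]
        _ ≤ max (2 * ρ) (idealZeta K (1 + δ / 2)) := le_max_left _ _
  · push Not at hcase
    constructor
    · rw [div_le_iff₀ hs1]
      calc min (ρ / 2) (δ / 2) ≤ δ / 2 := min_le_right _ _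
        _ ≤ 1 * (s - 1) := by linarith
        _ ≤ idealZeta K s * (s - 1) :=
          mul_le_mul_of_nonneg_right (one_le_idealZeta hs) hs1.le
    · rw [le_div_iff₀ hs1]
      have h3 : idealZeta K s ≤ idealZeta K (1 + δ / 2) := idealZeta_anti hs₀ (by linarith)
      have h4 : 0 ≤ idealZeta K s := by linarith [one_le_idealZeta (K := K) hs]
      calc idealZeta K s * (s - 1) ≤ idealZeta K s * 1 :=
            mul_le_mul_of_nonneg_left (by linarith) h4
        _ ≤ idealZeta K (1 + δ / 2) := by linarith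
        _ ≤ max (2 * ρ) (idealZeta K (1 + δ / 2)) := le_max_right _ _

end Fermat.Agent.S14.An
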