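import Fermat.Agent.S14.An.EP2Core
import Fermat.Agent.S14.An.Zeta
import Fermat.Agent.S14.An.EulerProduct

/-!
# S14, analytic block (An-EP2): consequences of the Euler product (final statements)
-/

set_option autoImplicit false

namespace Fermat.Agent.S14.An

open NumberField IsDedekindDomain Filter Topology
open scoped nonZeroDivisors

variable {K : Type*} [Field K] [NumberField K]

namespace EP2

variable (K) in
lemma summableNrm : SummableNrm K := fun _ hs => summable_nrm hs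

variable (K) in
lemma eulerProd : EulerProd K := fun f hf => eulerProduct_tendsto f hf

end EP2

/-- consequence 1: lower bound for `‖L‖`. -/
theorem exp_primeSum_le_norm_LChar : ∃ C : ℝ, ∀ (χ : ClassGroup (𝓞 K) →* ℂˣ), (∀ c, ‖((χ c : ℂˣ) : ℂ)‖ = 1) →
    ∀ s : ℝ, 1 < s → s ≤ 2 →
    Real.exp ((∑' v : HeightOneSpectrum (𝓞 K),
      (((χ (ClassGroup.mk0 (primeNZ v)) : ℂˣ) : ℂ)).re * nrm K s v.asIdeal) - C) ≤ ‖LChar χ s‖ :=
  EP2.exp_primeSum_le_norm_LChar_of (EP2.summableNrm K) (EP2.eulerProd K)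

variable (K) in
/-- consequence 2: `log ζ_K(s) ≤ ∑_𝔭 N𝔭^(-s) + C`. -/
theorem log_idealZeta_le : ∃ C : ℝ, ∀ s : ℝ, 1 < s → s ≤ 2 →
    Real.log (idealZeta K s) ≤ primeSum (Set.univ : Set (HeightOneSpectrum (𝓞 K))) s + C :=
  EP2.log_idealZeta_le_of (EP2.summableNrm K) (EP2.eulerProd K)

/-- consequence 3: `∑_{𝔭 ∈ S} N𝔭^(-s) ≤ log ζ_K(s)`. -/
theorem primeSum_le_log_idealZeta (S : Set (HeightOneSpectrum (𝓞 K))) {s : ℝ} (hs : 1 < s) :
    primeSum S s ≤ Real.log (idealZeta K s) :=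
  EP2.primeSum_le_log_idealZeta_of (EP2.summableNrm K) (EP2.eulerProd K) S hs

end Fermat.Agent.S14.An
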