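import Fermat.Agent.S14.An.Defs

/-!
# S14, analytic block (An-Deg): primes of degree `≥ 2` are negligible
-/

set_option autoImplicit false
set_option linter.deprecated false
set_option linter.unusedSectionVars false

namespace Fermat.Agent.S14.An

open NumberField IsDedekindDomain
open scoped nonZeroDivisors

variable {K : Type*} [Field K] [NumberField K]

/-- the rational prime below `v`. -/
noncomputable def degUnder (v : HeightOneSpectrum (𝓞 K)) : ℕ :=
  Ideal.absNorm (Ideal.under ℤ v.asIdeal)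

theorem degUnder_prime (v : HeightOneSpectrum (𝓞 K)) : (degUnder v).Prime := by
  have : NeZero v.asIdeal := ⟨v.ne_bot⟩
  exact Nat.absNorm_under_prime v.asIdeal

theorem degUnder_liesOver (v : HeightOneSpectrum (𝓞 K)) :
    v.asIdeal.LiesOver (Ideal.span {((degUnder v : ℕ) : ℤ)}) :=
  Int.liesOver_span_absNorm _

theorem degUnder_sq_le (v : HeightOneSpectrum (𝓞 K)) (hv : ¬ (Ideal.absNorm v.asIdeal).Prime) :
    (degUnder v) ^ 2 ≤ Ideal.absNorm v.asIdeal := by
  have := degUnder_liesOver v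
  have h := Ideal.absNorm_eq_pow_inertiaDeg' (p := degUnder v) v.asIdeal (degUnder_prime v)
  rw [h]
  refine Nat.pow_le_pow_right (degUnder_prime v).pos ?_
  by_contra hlt
  have hlt' : (Ideal.span {((degUnder v : ℕ) : ℤ)}).inertiaDeg' v.asIdeal < 2 := not_le.mp hlt
  interval_cases hf : (Ideal.span {((degUnder v : ℕ) : ℤ)}).inertiaDeg' v.asIdeal
  · rw [pow_zero, Ideal.absNorm_eq_one_iff] at h
    exact v.isPrime.ne_top h
  · rw [pow_one] at h
    exact hv (h ▸ degUnder_prime v)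

theorem degUnder_fiber_card_le {S : Set (HeightOneSpectrum (𝓞 K))} (u : Finset S) (b : ℕ) :
    (u.filter (fun v : S => degUnder (v : HeightOneSpectrum (𝓞 K)) = b)).card ≤
      Module.finrank ℚ K := by
  classical
  by_cases hb : b.Prime
  · have : Fact b.Prime := ⟨hb⟩
    have hp0 : Ideal.span {(b : ℤ)} ≠ ⊥ := by
      simpa using hb.ne_zero
    have : (Ideal.span {(b : ℤ)}).IsMaximal := Int.ideal_span_isMaximal_of_prime b
    refine le_trans ?_ (Ideal.card_primesOverFinset_le_finrank (𝓞 K) ℚ K hp0)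
    refine Finset.card_le_card_of_injOn (fun v : S => (v : HeightOneSpectrum (𝓞 K)).asIdeal) ?_ ?_
    · intro v hv
      have hv' : degUnder (v : HeightOneSpectrum (𝓞 K)) = b := by
        simpa using (Finset.mem_filter.mp (Finset.mem_coe.mp hv)).2
      rw [Finset.mem_coe, IsDedekindDomain.mem_primesOverFinset_iff hp0]
      refine ⟨(v : HeightOneSpectrum (𝓞 K)).isPrime, ?_⟩
      rw [← hv']
      exact degUnder_liesOver _
    · intro v _ w _ h
      exact Subtype.ext (HeightOneSpectrum.ext h)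
  · have : u.filter (fun v : S => degUnder (v : HeightOneSpectrum (𝓞 K)) = b) = ∅ := by
      apply Finset.filter_eq_empty_iff.mpr
      intro v _ h
      exact hb (h ▸ degUnder_prime _)
    rw [this]; simp

variable (K) in
/-- primes of degree `≥ 2` do not matter. -/
theorem primeSum_not_prime_norm_le : ∃ C : ℝ, ∀ s : ℝ, 1 < s →
    primeSum {v : HeightOneSpectrum (𝓞 K) | ¬ (Ideal.absNorm v.asIdeal).Prime} s ≤ C := by
  classical
  have hsum : Summable (fun m : ℕ => 1 / (m : ℝ) ^ 2) :=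
    Real.summable_one_div_nat_pow.mpr one_lt_two
  refine ⟨(Module.finrank ℚ K : ℝ) * ∑' m : ℕ, 1 / (m : ℝ) ^ 2, fun s hs => ?_⟩
  unfold primeSum
  refine Real.tsum_le_of_sum_le (fun v => Real.rpow_nonneg (Nat.cast_nonneg _) _) (fun u => ?_)
  have h1 : ∀ v ∈ u, nrm K s (v : HeightOneSpectrum (𝓞 K)).asIdeal ≤
      1 / ((degUnder (v : HeightOneSpectrum (𝓞 K)) : ℕ) : ℝ) ^ 2 := by
    intro v _
    have hv : ¬ (Ideal.absNorm (v : HeightOneSpectrum (𝓞 K)).asIdeal).Prime := v.2
    have h2 := degUnder_sq_le _ hv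
    have hpos : (0 : ℝ) < ((degUnder (v : HeightOneSpectrum (𝓞 K)) : ℕ) : ℝ) ^ 2 := by
      have := (degUnder_prime (v : HeightOneSpectrum (𝓞 K))).pos
      positivity
    have h3 : ((degUnder (v : HeightOneSpectrum (𝓞 K)) : ℕ) : ℝ) ^ 2 ≤
        (Ideal.absNorm (v : HeightOneSpectrum (𝓞 K)).asIdeal : ℝ) := by
      exact_mod_cast h2
    have h4 : (1 : ℝ) ≤ (Ideal.absNorm (v : HeightOneSpectrum (𝓞 K)).asIdeal : ℝ) := by
      refine le_trans ?_ h3
      have := (degUnder_prime (v : HeightOneSpectrum (𝓞 K))).one_le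
      have h5 : (1 : ℝ) ≤ ((degUnder (v : HeightOneSpectrum (𝓞 K)) : ℕ) : ℝ) := by exact_mod_cast this
      nlinarith
    unfold nrm
    calc (Ideal.absNorm (v : HeightOneSpectrum (𝓞 K)).asIdeal : ℝ) ^ (-s)
        ≤ (Ideal.absNorm (v : HeightOneSpectrum (𝓞 K)).asIdeal : ℝ) ^ (-1 : ℝ) :=
          Real.rpow_le_rpow_of_exponent_le h4 (by linarith)
      _ = 1 / (Ideal.absNorm (v : HeightOneSpectrum (𝓞 K)).asIdeal : ℝ) := by
          rw [Real.rpow_neg_one, one_div]
      _ ≤ 1 / ((degUnder (v : HeightOneSpectrum (𝓞 K)) : ℕ) : ℝ) ^ 2 :=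
          one_div_le_one_div_of_le hpos h3
  refine (Finset.sum_le_sum h1).trans ?_
  rw [Finset.sum_comp (fun m : ℕ => 1 / (m : ℝ) ^ 2)
    (fun v : {v : HeightOneSpectrum (𝓞 K) | ¬ (Ideal.absNorm v.asIdeal).Prime} =>
      degUnder (v : HeightOneSpectrum (𝓞 K)))]
  have h6 : ∀ b ∈ u.image (fun v : {v : HeightOneSpectrum (𝓞 K) |
      ¬ (Ideal.absNorm v.asIdeal).Prime} => degUnder (v : HeightOneSpectrum (𝓞 K))),
      (u.filter (fun v : {v : HeightOneSpectrum (𝓞 K) | ¬ (Ideal.absNorm v.asIdeal).Prime} =>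
        degUnder (v : HeightOneSpectrum (𝓞 K)) = b)).card • (1 / (b : ℝ) ^ 2) ≤
        (Module.finrank ℚ K : ℝ) * (1 / (b : ℝ) ^ 2) := by
    intro b _
    rw [nsmul_eq_mul]
    refine mul_le_mul_of_nonneg_right ?_ (by positivity)
    exact_mod_cast degUnder_fiber_card_le u b
  refine (Finset.sum_le_sum h6).trans ?_
  rw [← Finset.mul_sum]
  refine mul_le_mul_of_nonneg_left ?_ (Nat.cast_nonneg _)
  exact hsum.sum_le_tsum _ (fun _ _ => by positivity)

end Fermat.Agent.S14.An
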