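import Fermat.Agent.S14.An.D2Defs

/-!
# S14, block (An-D2), package D2-c: orbit decomposition

`T(J,s) = w_K N(J)^(-s) ζ(s, [J]⁻¹)`.  The two black boxes (`hasSum_units_wt`, `summable_nrm`) enter as
explicit hypotheses in `Tsum_eq_of`.
-/

set_option autoImplicit false

namespace Fermat.Agent.S14.An

open NumberField IsDedekindDomain Module
open scoped nonZeroDivisors

variable {K : Type*} [Field K] [NumberField K]

theorem orb_tent_nonneg (u : ℝ) : 0 ≤ tent u := le_max_left _ _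

theorem orb_wt_nonneg (c : Coef K) (x : K) : 0 ≤ wt c x :=
  Finset.prod_nonneg fun _ _ => orb_tent_nonneg _

theorem orb_Fs_nonneg (c : Coef K) (s : ℝ) (x : K) : 0 ≤ Fs c s x :=
  mul_nonneg (Real.rpow_nonneg (abs_nonneg _) _) (orb_wt_nonneg c x)

theorem orb_Fs_zero (c : Coef K) {s : ℝ} (hs : s ≠ 0) : Fs c s (0 : K) = 0 := by
  unfold Fs
  rw [Algebra.norm_zero, Rat.cast_zero, abs_zero, Real.zero_rpow (neg_ne_zero.mpr hs), zero_mul]

/-- `|N β| = N((β))`. -/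
theorem orb_abs_norm (β : 𝓞 K) :
    |(Algebra.norm ℚ (β : K) : ℝ)| = (Ideal.absNorm (Ideal.span {β}) : ℝ) := by
  rw [Ideal.absNorm_span_singleton, Nat.cast_natAbs, ← Algebra.coe_norm_int]
  push_cast
  rfl

theorem orb_Fs_eq (c : Coef K) (s : ℝ) (β : 𝓞 K) :
    Fs c s (β : K) = nrm K s (Ideal.span {β}) * wt c (β : K) := by
  unfold Fs nrm
  rw [orb_abs_norm]

theorem orb_nrm_mul (s : ℝ) (I J : Ideal (𝓞 K)) : nrm K s (I * J) = nrm K s I * nrm K s J := by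
  unfold nrm
  rw [map_mul, Nat.cast_mul, Real.mul_rpow (Nat.cast_nonneg _) (Nat.cast_nonneg _)]

/-- for `I` in the class `[J]⁻¹` the ideal `J I` is principal. -/
theorem orb_exists_gen (J I : (Ideal (𝓞 K))⁰) (h : ClassGroup.mk0 I = (ClassGroup.mk0 J)⁻¹) :
    ∃ g : 𝓞 K, g ≠ 0 ∧ Ideal.span {g} = (J : Ideal (𝓞 K)) * (I : Ideal (𝓞 K)) := by
  have h1 : ClassGroup.mk0 (J * I) = 1 := by rw [map_mul, h, mul_inv_cancel]
  have h2 : ((J * I : (Ideal (𝓞 K))⁰) : Ideal (𝓞 K)).IsPrincipal :=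
    (ClassGroup.mk0_eq_one_iff (J * I).2).mp h1
  obtain ⟨g, hg⟩ := h2.principal
  refine ⟨g, ?_, ?_⟩
  · rintro rfl
    have h3 : ((J * I : (Ideal (𝓞 K))⁰) : Ideal (𝓞 K)) = ⊥ := by
      rw [hg]; simp
    exact nonZeroDivisors.coe_ne_zero (J * I) h3
  · have : Ideal.span {g} = ((J * I : (Ideal (𝓞 K))⁰) : Ideal (𝓞 K)) := by
      rw [hg]
    rw [this]; rfl

/-- the index set: ideals in the class `[J]⁻¹`. -/
abbrev OrbIdx (J : (Ideal (𝓞 K))⁰) : Type _ :=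
  {I : (Ideal (𝓞 K))⁰ // ClassGroup.mk0 I = (ClassGroup.mk0 J)⁻¹}

/-- a chosen generator of `J I`. -/
noncomputable def orbGen (J : (Ideal (𝓞 K))⁰) (I : OrbIdx J) : 𝓞 K :=
  (orb_exists_gen J I.1 I.2).choose

theorem orbGen_ne_zero (J : (Ideal (𝓞 K))⁰) (I : OrbIdx J) : orbGen J I ≠ 0 :=
  (orb_exists_gen J I.1 I.2).choose_spec.1

theorem span_orbGen (J : (Ideal (𝓞 K))⁰) (I : OrbIdx J) :
    Ideal.span {orbGen J I} = (J : Ideal (𝓞 K)) * ((I : (Ideal (𝓞 K))⁰) : Ideal (𝓞 K)) :=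
  (orb_exists_gen J I.1 I.2).choose_spec.2

theorem span_unit_mul_orbGen (J : (Ideal (𝓞 K))⁰) (I : OrbIdx J) (u : (𝓞 K)ˣ) :
    Ideal.span {(u : 𝓞 K) * orbGen J I} =
      (J : Ideal (𝓞 K)) * ((I : (Ideal (𝓞 K))⁰) : Ideal (𝓞 K)) := by
  rw [← span_orbGen, Ideal.span_singleton_eq_span_singleton]
  exact (associated_unit_mul_left _ _ u.isUnit)

theorem unit_mul_orbGen_mem (J : (Ideal (𝓞 K))⁰) (I : OrbIdx J) (u : (𝓞 K)ˣ) :
    (u : 𝓞 K) * orbGen J I ∈ (J : Ideal (𝓞 K)) := by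
  have h : (u : 𝓞 K) * orbGen J I ∈ Ideal.span {(u : 𝓞 K) * orbGen J I} :=
    Ideal.mem_span_singleton_self _
  rw [span_unit_mul_orbGen] at h
  exact Ideal.mul_le_left h

/-- the parametrisation of the nonzero elements of `J`. -/
noncomputable def orbMap (J : (Ideal (𝓞 K))⁰) (x : OrbIdx J × (𝓞 K)ˣ) : (J : Ideal (𝓞 K)) :=
  ⟨(x.2 : 𝓞 K) * orbGen J x.1, unit_mul_orbGen_mem J x.1 x.2⟩

theorem orbMap_injective (J : (Ideal (𝓞 K))⁰) : Function.Injective (orbMap J) := by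
  rintro ⟨I, u⟩ ⟨I', u'⟩ h
  have h1 : (u : 𝓞 K) * orbGen J I = (u' : 𝓞 K) * orbGen J I' := congrArg Subtype.val h
  have h2 : (J : Ideal (𝓞 K)) * ((I : (Ideal (𝓞 K))⁰) : Ideal (𝓞 K)) =
      (J : Ideal (𝓞 K)) * ((I' : (Ideal (𝓞 K))⁰) : Ideal (𝓞 K)) := by
    rw [← span_unit_mul_orbGen J I u, ← span_unit_mul_orbGen J I' u', h1]
  have h3 : ((I : (Ideal (𝓞 K))⁰) : Ideal (𝓞 K)) = ((I' : (Ideal (𝓞 K))⁰) : Ideal (𝓞 K)) :=
    mul_left_cancel₀ (nonZeroDivisors.coe_ne_zero J) h2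
  have h4 : I = I' := Subtype.ext (Subtype.ext h3)
  subst h4
  have h5 : (u : 𝓞 K) = u' := mul_right_cancel₀ (orbGen_ne_zero J I) h1
  rw [Units.ext h5]

theorem mem_range_orbMap (J : (Ideal (𝓞 K))⁰) (β : (J : Ideal (𝓞 K))) (hβ : (β : 𝓞 K) ≠ 0) :
    β ∈ Set.range (orbMap J) := by
  obtain ⟨I, hI⟩ : (J : Ideal (𝓞 K)) ∣ Ideal.span {(β : 𝓞 K)} :=
    Ideal.dvd_span_singleton.mpr β.2
  have hI0 : I ≠ 0 := by
    rintro rfl
    rw [mul_zero] at hI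
    exact hβ (Ideal.span_singleton_eq_bot.mp hI)
  let I' : (Ideal (𝓞 K))⁰ := ⟨I, mem_nonZeroDivisors_of_ne_zero hI0⟩
  have hcl : ClassGroup.mk0 I' = (ClassGroup.mk0 J)⁻¹ := by
    rw [eq_inv_iff_mul_eq_one, mul_comm, ← map_mul]
    refine (ClassGroup.mk0_eq_one_iff (J * I').2).mpr ?_
    refine ⟨⟨(β : 𝓞 K), ?_⟩⟩
    show (J : Ideal (𝓞 K)) * I = _
    rw [← hI]
  have hass : Associated (orbGen J ⟨I', hcl⟩) (β : 𝓞 K) := by
    rw [← Ideal.span_singleton_eq_span_singleton, span_orbGen, hI]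
  obtain ⟨u, hu⟩ := hass
  refine ⟨(⟨I', hcl⟩, u), Subtype.ext ?_⟩
  show (u : 𝓞 K) * orbGen J ⟨I', hcl⟩ = β
  rw [mul_comm, hu]

/-- (D2-c) with the black boxes as hypotheses. -/
theorem Tsum_eq_of (c : Coef K)
    (hwt : ∀ x : K, x ≠ 0 →
      HasSum (fun u : (𝓞 K)ˣ => wt c (((u : 𝓞 K) : K) * x)) (Units.torsionOrder K))
    (J : (Ideal (𝓞 K))⁰) {s : ℝ} (hs : s ≠ 0)
    (hsum : Summable fun I : (Ideal (𝓞 K))⁰ => nrm K s (I : Ideal (𝓞 K))) :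
    Tsum c (J : Ideal (𝓞 K)) s =
      (Units.torsionOrder K : ℝ) * nrm K s (J : Ideal (𝓞 K)) *
        partialZeta K (ClassGroup.mk0 J)⁻¹ s := by
  classical
  set f : ↥(J : Ideal (𝓞 K)) → ℝ := fun β => Fs c s ((β : 𝓞 K) : K) with hf
  have hsupp : Function.support f ⊆ Set.range (orbMap J) := by
    intro β hβ
    apply mem_range_orbMap
    intro h0
    apply hβ
    show Fs c s ((β : 𝓞 K) : K) = 0
    rw [h0]
    exact orb_Fs_zero c hs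
  have h1 : Tsum c (J : Ideal (𝓞 K)) s = ∑' x : OrbIdx J × (𝓞 K)ˣ, f (orbMap J x) :=
    ((orbMap_injective J).tsum_eq hsupp).symm
  have hval : ∀ (I : OrbIdx J) (u : (𝓞 K)ˣ), f (orbMap J (I, u)) =
      (nrm K s (J : Ideal (𝓞 K)) * nrm K s ((I : (Ideal (𝓞 K))⁰) : Ideal (𝓞 K))) *
        wt c (((u : 𝓞 K) : K) * ((orbGen J I : 𝓞 K) : K)) := by
    intro I u
    show Fs c s ((((u : 𝓞 K) * orbGen J I : 𝓞 K)) : K) = _
    rw [orb_Fs_eq, span_unit_mul_orbGen, orb_nrm_mul]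
    rfl
  have hg0 : ∀ I : OrbIdx J, ((orbGen J I : 𝓞 K) : K) ≠ 0 := fun I => by
    have := orbGen_ne_zero J I
    exact_mod_cast this
  have hfib : ∀ I : OrbIdx J, HasSum (fun u : (𝓞 K)ˣ => f (orbMap J (I, u)))
      ((nrm K s (J : Ideal (𝓞 K)) * nrm K s ((I : (Ideal (𝓞 K))⁰) : Ideal (𝓞 K))) *
        (Units.torsionOrder K : ℝ)) := by
    intro I
    simp only [hval]
    exact (hwt _ (hg0 I)).mul_left _
  have hsumI : Summable fun I : OrbIdx J => nrm K s ((I : (Ideal (𝓞 K))⁰) : Ideal (𝓞 K)) :=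
    hsum.subtype _
  have hsummable : Summable fun x : OrbIdx J × (𝓞 K)ˣ => f (orbMap J x) := by
    rw [summable_prod_of_nonneg (fun x => orb_Fs_nonneg c s _)]
    refine ⟨fun I => (hfib I).summable, ?_⟩
    have : (fun I : OrbIdx J => ∑' u : (𝓞 K)ˣ, f (orbMap J (I, u))) = fun I : OrbIdx J =>
        (nrm K s (J : Ideal (𝓞 K)) * nrm K s ((I : (Ideal (𝓞 K))⁰) : Ideal (𝓞 K))) *
          (Units.torsionOrder K : ℝ) := funext fun I => (hfib I).tsum_eq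
    rw [this]
    exact (hsumI.mul_left _).mul_right _
  rw [h1, hsummable.tsum_prod, tsum_congr fun I => (hfib I).tsum_eq]
  unfold partialZeta
  rw [tsum_mul_right, tsum_mul_left]
  ring

end Fermat.Agent.S14.An
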