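import Fermat.Agent.S14.An.D2Defs

/-!
# S14, block (An-D2-d): shift invariance of the smoothed lattice sums
-/

set_option autoImplicit false

namespace Fermat.Agent.S14.An

open NumberField IsDedekindDomain Filter Topology Module
open scoped nonZeroDivisors Classical

variable {K : Type*} [Field K] [NumberField K]

namespace Shift

/-- the sup norm `max_w w(y)`. -/
noncomputable def nn (y : K) : ℝ := ‖mixedEmbedding K y‖

theorem nn_nonneg (y : K) : 0 ≤ nn y := norm_nonneg _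

theorem place_le_nn (w : InfinitePlace K) (y : K) : w y ≤ nn y := by
  classical
  unfold nn
  rw [mixedEmbedding.norm_eq_sup'_normAtPlace]
  have := Finset.le_sup' (fun w => mixedEmbedding.normAtPlace w (mixedEmbedding K y))
    (Finset.mem_univ w)
  rwa [mixedEmbedding.normAtPlace_apply] at this

theorem exists_place_eq_nn (y : K) : ∃ w : InfinitePlace K, w y = nn y := by
  classical
  unfold nn
  rw [mixedEmbedding.norm_eq_sup'_normAtPlace]
  obtain ⟨w, -, hw⟩ := Finset.exists_mem_eq_sup' Finset.univ_nonempty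
    (fun w => mixedEmbedding.normAtPlace w (mixedEmbedding K y))
  exact ⟨w, by rw [hw, mixedEmbedding.normAtPlace_apply]⟩

theorem nn_add_le (y x : K) : nn (y + x) ≤ nn y + nn x := by
  unfold nn; rw [map_add]; exact norm_add_le _ _

theorem nn_neg (y : K) : nn (-y) = nn y := by
  unfold nn; rw [map_neg, norm_neg]

theorem nn_eq_zero_iff (y : K) : nn y = 0 ↔ y = 0 := by
  unfold nn
  rw [norm_eq_zero, map_eq_zero_iff _ (mixedEmbedding_injective K)]

theorem nn_pos {y : K} (hy : y ≠ 0) : 0 < nn y :=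
  lt_of_le_of_ne (nn_nonneg y) (fun h => hy ((nn_eq_zero_iff y).mp h.symm))

theorem finrank_integerLattice :
    finrank ℤ (mixedEmbedding.integerLattice K) = finrank ℚ K := by
  rw [ZLattice.rank ℝ, mixedEmbedding.finrank]

theorem summable_lattice (r : ℝ) (hr : r < -(finrank ℚ K : ℝ)) :
    Summable fun z : mixedEmbedding.integerLattice K => ‖z‖ ^ r :=
  ZLattice.summable_norm_rpow (mixedEmbedding.integerLattice K) r
    (by rw [finrank_integerLattice]; exact hr)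

theorem mem_integerLattice (y : 𝓞 K) :
    mixedEmbedding K (y : K) ∈ mixedEmbedding.integerLattice K := ⟨y, rfl⟩

theorem toLattice_injective : Function.Injective (fun y : 𝓞 K =>
    (⟨mixedEmbedding K (y : K), mem_integerLattice y⟩ : mixedEmbedding.integerLattice K)) := by
  intro a b hab
  have h3 : mixedEmbedding K (a : K) = mixedEmbedding K (b : K) := congrArg Subtype.val hab
  exact RingOfIntegers.ext (mixedEmbedding_injective K h3)

/-- Lemma A: lattice summability. -/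
theorem summable_nn_rpow (r : ℝ) (hr : r < -(finrank ℚ K : ℝ)) :
    Summable fun y : 𝓞 K => nn (y : K) ^ r := by
  have h := (summable_lattice r hr).comp_injective (toLattice_injective (K := K))
  exact h


attribute [irreducible] nn

/-! ### elementary facts -/

theorem tent_nonneg' (u : ℝ) : 0 ≤ tent u := le_max_left _ _

theorem tent_le_one' (u : ℝ) : tent u ≤ 1 := by
  unfold tent
  exact max_le zero_le_one (by linarith [abs_nonneg u])

theorem abs_le_one_of_tent_ne_zero {u : ℝ} (h : tent u ≠ 0) : |u| ≤ 1 := by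
  by_contra hu
  apply h
  unfold tent
  exact max_eq_left (by linarith)

theorem tent_lip (u v : ℝ) : |tent u - tent v| ≤ |u - v| := by
  unfold tent
  calc |max 0 (1 - |u|) - max 0 (1 - |v|)| ≤ |(1 - |u|) - (1 - |v|)| := by
        rw [max_comm 0, max_comm 0]
        exact abs_max_sub_max_le_abs _ _ _
    _ = |(|v| - |u|)| := by congr 1; ring
    _ ≤ |v - u| := abs_abs_sub_abs_le _ _
    _ = |u - v| := abs_sub_comm _ _

theorem abs_prod_sub_prod_le {ι : Type*} (T : Finset ι) (a b : ι → ℝ)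
    (ha : ∀ i, 0 ≤ a i ∧ a i ≤ 1) (hb : ∀ i, 0 ≤ b i ∧ b i ≤ 1) :
    |∏ i ∈ T, a i - ∏ i ∈ T, b i| ≤ ∑ i ∈ T, |a i - b i| := by
  induction T using Finset.induction_on with
  | empty => simp
  | insert j T hj ih =>
    rw [Finset.prod_insert hj, Finset.prod_insert hj, Finset.sum_insert hj]
    have h1 : a j * ∏ i ∈ T, a i - b j * ∏ i ∈ T, b i =
        (a j - b j) * ∏ i ∈ T, a i + b j * (∏ i ∈ T, a i - ∏ i ∈ T, b i) := by ring
    have h2 : 0 ≤ ∏ i ∈ T, a i := Finset.prod_nonneg fun i _ => (ha i).1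
    have h3 : ∏ i ∈ T, a i ≤ 1 := Finset.prod_le_one (fun i _ => (ha i).1) fun i _ => (ha i).2
    rw [h1]
    calc |(a j - b j) * ∏ i ∈ T, a i + b j * (∏ i ∈ T, a i - ∏ i ∈ T, b i)|
        ≤ |(a j - b j) * ∏ i ∈ T, a i| + |b j * (∏ i ∈ T, a i - ∏ i ∈ T, b i)| := abs_add_le _ _
      _ = |a j - b j| * ∏ i ∈ T, a i + b j * |∏ i ∈ T, a i - ∏ i ∈ T, b i| := by
          rw [abs_mul, abs_mul, abs_of_nonneg h2, abs_of_nonneg (hb j).1]
      _ ≤ |a j - b j| * 1 + 1 * ∑ i ∈ T, |a i - b i| := by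
          gcongr
          · exact (hb j).2
      _ = _ := by ring

theorem abs_log_sub_log_le {a b δ : ℝ} (hb : 0 < b) (hδ : δ ≤ 1 / 2)
    (h : |a - b| ≤ δ * b) : 0 < a ∧ |Real.log a - Real.log b| ≤ 2 * δ := by
  have hδ0 : 0 ≤ δ := by
    by_contra hneg
    have : δ * b < 0 := mul_neg_of_neg_of_pos (not_le.mp hneg) hb
    linarith [abs_nonneg (a - b)]
  obtain ⟨h1, h2⟩ := abs_le.mp h
  have ha' : (1 - δ) * b ≤ a := by linarith
  have ha : 0 < a := lt_of_lt_of_le (mul_pos (by linarith) hb) ha'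
  refine ⟨ha, ?_⟩
  rw [← Real.log_div ha.ne' hb.ne']
  have hq : 0 < a / b := div_pos ha hb
  have hq1 : a / b ≤ 1 + δ := by rw [div_le_iff₀ hb]; linarith
  have hq2 : 1 - δ ≤ a / b := by rw [le_div_iff₀ hb]; linarith
  rw [abs_le]
  constructor
  · have h3 := Real.one_sub_inv_le_log_of_pos hq
    have h4 : (a / b)⁻¹ ≤ (1 - δ)⁻¹ := inv_anti₀ (by linarith) hq2
    have h5 : (1 - δ)⁻¹ ≤ 1 + 2 * δ := by
      rw [inv_le_iff_one_le_mul₀ (by linarith)]
      nlinarith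
    linarith
  · have h3 := Real.log_le_sub_one_of_pos hq
    linarith

theorem abs_place_add_sub (w : InfinitePlace K) (y x : K) : |w (y + x) - w y| ≤ w x := by
  have := AbsoluteValue.abs_abv_sub_le_abv_sub w.1 (y + x) y
  rwa [add_sub_cancel_left] at this


/-! ### the norm -/

/-- `log |N y|`. -/
noncomputable def LN (y : K) : ℝ := Real.log |(Algebra.norm ℚ y : ℝ)|

theorem absN_eq_prod (y : K) :
    |(Algebra.norm ℚ y : ℝ)| = ∏ w : InfinitePlace K, w y ^ w.mult := by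
  rw [InfinitePlace.prod_eq_abs_norm y]
  push_cast
  rfl

theorem absN_pos {y : K} (hy : y ≠ 0) : 0 < |(Algebra.norm ℚ y : ℝ)| := by
  rw [abs_pos]
  exact_mod_cast (Algebra.norm_ne_zero_iff.mpr hy)

theorem LN_eq {y : K} (hy : y ≠ 0) :
    LN y = ∑ w : InfinitePlace K, (w.mult : ℝ) * Real.log (w y) := by
  unfold LN
  rw [absN_eq_prod, Real.log_prod]
  · simp [Real.log_pow]
  · intro w _
    exact pow_ne_zero _ (InfinitePlace.pos_iff.mpr hy).ne'

theorem absN_rpow {y : K} (hy : y ≠ 0) (s : ℝ) :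
    |(Algebra.norm ℚ y : ℝ)| ^ (-s) = Real.exp (-s * LN y) := by
  rw [Real.rpow_def_of_pos (absN_pos hy)]
  unfold LN
  ring_nf

theorem sum_mult_real : ∑ w : InfinitePlace K, (w.mult : ℝ) = (finrank ℚ K : ℝ) := by
  exact_mod_cast congrArg (Nat.cast (R := ℝ)) (InfinitePlace.sum_mult_eq (K := K))

theorem finrank_pos_real : (0 : ℝ) < (finrank ℚ K : ℝ) := by
  exact_mod_cast (finrank_pos (R := ℚ) (M := K))

/-! ### the weight -/

theorem wt_nonneg (c : Coef K) (y : K) : 0 ≤ wt c y :=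
  Finset.prod_nonneg fun _ _ => tent_nonneg' _

theorem wt_le_one (c : Coef K) (y : K) : wt c y ≤ 1 :=
  Finset.prod_le_one (fun _ _ => tent_nonneg' _) fun _ _ => tent_le_one' _

theorem abs_ell_le_one_of_wt_ne_zero {c : Coef K} {y : K} (h : wt c y ≠ 0)
    (i : Fin (Units.rank K)) : |ell c i y| ≤ 1 :=
  abs_le_one_of_tent_ne_zero fun h0 => h (Finset.prod_eq_zero (Finset.mem_univ i) h0)

theorem B_nonneg {c : Coef K} {B : ℝ} (hB : IsBalanced c B) : 0 ≤ B := by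
  obtain ⟨w⟩ : Nonempty (InfinitePlace K) := inferInstance
  have h := hB 1 one_ne_zero (fun i => by simp [ell]) w
  exact le_trans (abs_nonneg _) h

theorem balanced_of_wt {c : Coef K} {B : ℝ} (hB : IsBalanced c B) {y : K} (hy : y ≠ 0)
    (hw : wt c y ≠ 0) (w : InfinitePlace K) :
    |Real.log (w y) - (1 / (finrank ℚ K : ℝ)) * LN y| ≤ B :=
  hB y hy (abs_ell_le_one_of_wt_ne_zero hw) w

theorem nn_le_exp_mul_place {c : Coef K} {B : ℝ} (hB : IsBalanced c B) {y : K} (hy : y ≠ 0)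
    (hw : wt c y ≠ 0) (w : InfinitePlace K) : nn y ≤ Real.exp (2 * B) * w y := by
  obtain ⟨w₁, hw₁⟩ := exists_place_eq_nn y
  have h1 := (abs_le.mp (balanced_of_wt hB hy hw w₁)).2
  have h2 := (abs_le.mp (balanced_of_wt hB hy hw w)).1
  have hpos : 0 < w y := InfinitePlace.pos_iff.mpr hy
  have hpos₁ : 0 < w₁ y := InfinitePlace.pos_iff.mpr hy
  calc nn y = Real.exp (Real.log (w₁ y)) := by rw [Real.exp_log hpos₁, hw₁]
    _ ≤ Real.exp (2 * B + Real.log (w y)) := Real.exp_le_exp.mpr (by linarith)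
    _ = Real.exp (2 * B) * w y := by rw [Real.exp_add, Real.exp_log hpos]

theorem absN_rpow_le {c : Coef K} {B : ℝ} (hB : IsBalanced c B) {y : K} (hy : y ≠ 0)
    (hw : wt c y ≠ 0) {s : ℝ} (hs : 0 ≤ s) :
    |(Algebra.norm ℚ y : ℝ)| ^ (-s) ≤
      Real.exp (s * (finrank ℚ K : ℝ) * B) * nn y ^ (-(s * (finrank ℚ K : ℝ))) := by
  obtain ⟨w₁, hw₁⟩ := exists_place_eq_nn y
  have h1 := (abs_le.mp (balanced_of_wt hB hy hw w₁)).2
  have hn := finrank_pos_real (K := K)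
  rw [hw₁] at h1
  have h2 : (finrank ℚ K : ℝ) * (Real.log (nn y) - B) ≤ LN y := by
    have : (finrank ℚ K : ℝ) * ((1 / (finrank ℚ K : ℝ)) * LN y) = LN y := by
      field_simp
    nlinarith
  rw [absN_rpow hy, Real.rpow_def_of_pos (nn_pos hy), ← Real.exp_add]
  apply Real.exp_le_exp.mpr
  nlinarith


/-! ### the key estimate -/

theorem final_real {P e W W' δ n A M : ℝ} (hP0 : 0 ≤ P) (hW0 : 0 ≤ W) (hW1 : W ≤ 1)
    (he : |e - 1| ≤ 8 * n * δ) (hWW : |W - W'| ≤ A * (2 * δ)) (hPM : P ≤ M) (hδ0 : 0 ≤ δ)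
    (hn : 0 ≤ n) (hA : 0 ≤ A) :
    |P * ((e - 1) * W + (W - W'))| ≤ M * (δ * (8 * n + 2 * A)) := by
  have h8 : |(e - 1) * W + (W - W')| ≤ δ * (8 * n + 2 * A) := by
    calc |(e - 1) * W + (W - W')| ≤ |(e - 1) * W| + |W - W'| := abs_add_le _ _
      _ = |e - 1| * W + |W - W'| := by rw [abs_mul, abs_of_nonneg hW0]
      _ ≤ 8 * n * δ * 1 + A * (2 * δ) := by gcongr
      _ = δ * (8 * n + 2 * A) := by ring
  rw [abs_mul, abs_of_nonneg hP0]
  exact mul_le_mul hPM h8 (abs_nonneg _) (hP0.trans hPM)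

theorem key_estimate (c : Coef K) (B : ℝ) (hB : IsBalanced c B) (x : K) :
    ∃ R C : ℝ, 1 ≤ R ∧ 0 ≤ C ∧ ∀ y : K, y ≠ 0 → wt c y ≠ 0 → R ≤ nn y →
      ∀ s : ℝ, 1 ≤ s → s ≤ 2 →
      |Fs c s (y + x) - Fs c s y| ≤ C * nn y ^ (-(finrank ℚ K : ℝ) - 1) := by
  have hn0 := finrank_pos_real (K := K)
  have hn1 : (1 : ℝ) ≤ (finrank ℚ K : ℝ) := by
    exact_mod_cast (finrank_pos (R := ℚ) (M := K))
  have hB0 := B_nonneg hB
  set n : ℝ := (finrank ℚ K : ℝ) with hn
  set E : ℝ := Real.exp (2 * B) with hE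
  have hE0 : 0 < E := Real.exp_pos _
  set X : ℝ := nn x with hX
  have hX0 : 0 ≤ X := nn_nonneg x
  set A : ℝ := ∑ i, ∑ w, |c i w| with hA
  have hA0 : 0 ≤ A := Finset.sum_nonneg fun i _ => Finset.sum_nonneg fun w _ => abs_nonneg _
  refine ⟨max 1 (4 * n * E * X), Real.exp (2 * n * B) * (E * X) * (8 * n + 2 * A),
    le_max_left _ _, by positivity, ?_⟩
  intro y hy hw hR s hs1 hs2
  have hny : 0 < nn y := nn_pos hy
  have hny1 : 1 ≤ nn y := le_trans (le_max_left _ _) hR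
  have hny2 : 4 * n * E * X ≤ nn y := le_trans (le_max_right _ _) hR
  set δ : ℝ := E * X / nn y with hδ
  have hδ0 : 0 ≤ δ := by positivity
  have hδ1 : 4 * n * δ ≤ 1 := by
    rw [hδ, ← mul_div_assoc, div_le_one hny]
    linarith
  have hδ2 : δ ≤ 1 / 2 := by nlinarith
  have h1 : ∀ w : InfinitePlace K,
      0 < w (y + x) ∧ |Real.log (w (y + x)) - Real.log (w y)| ≤ 2 * δ := by
    intro w
    apply abs_log_sub_log_le (InfinitePlace.pos_iff.mpr hy) hδ2
    calc |w (y + x) - w y| ≤ w x := abs_place_add_sub w y x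
      _ ≤ X := place_le_nn w x
      _ = δ * (nn y / E) := by rw [hδ]; field_simp
      _ ≤ δ * w y := by
          gcongr
          rw [div_le_iff₀' hE0]
          exact nn_le_exp_mul_place hB hy hw w
  obtain ⟨w₀⟩ : Nonempty (InfinitePlace K) := inferInstance
  have hyx : y + x ≠ 0 := InfinitePlace.pos_iff.mp (h1 w₀).1
  have h2 : ∀ i, |ell c i (y + x) - ell c i y| ≤ (∑ w, |c i w|) * (2 * δ) := by
    intro i
    unfold ell
    rw [← Finset.sum_sub_distrib, Finset.sum_mul]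
    refine (Finset.abs_sum_le_sum_abs _ _).trans (Finset.sum_le_sum fun w _ => ?_)
    rw [← mul_sub, abs_mul]
    gcongr
    exact (h1 w).2
  have h3 : |wt c (y + x) - wt c y| ≤ A * (2 * δ) := by
    unfold wt
    refine (abs_prod_sub_prod_le _ _ _ (fun i => ⟨tent_nonneg' _, tent_le_one' _⟩)
      (fun i => ⟨tent_nonneg' _, tent_le_one' _⟩)).trans ?_
    rw [hA, Finset.sum_mul]
    exact Finset.sum_le_sum fun i _ => (tent_lip _ _).trans (h2 i)
  have h4 : |LN (y + x) - LN y| ≤ n * (2 * δ) := by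
    rw [LN_eq hyx, LN_eq hy, ← Finset.sum_sub_distrib, hn, ← sum_mult_real, Finset.sum_mul]
    refine (Finset.abs_sum_le_sum_abs _ _).trans (Finset.sum_le_sum fun w _ => ?_)
    rw [← mul_sub, abs_mul, abs_of_nonneg (Nat.cast_nonneg _)]
    gcongr
    exact (h1 w).2
  set t : ℝ := -s * (LN (y + x) - LN y) with ht_def
  have ht : |t| ≤ 4 * n * δ := by
    rw [ht_def, abs_mul, abs_neg, abs_of_nonneg (by linarith : (0 : ℝ) ≤ s)]
    calc s * |LN (y + x) - LN y| ≤ 2 * (n * (2 * δ)) := by gcongr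
      _ = 4 * n * δ := by ring
  have h5 : |Real.exp t - 1| ≤ 8 * n * δ :=
    (Real.abs_exp_sub_one_le (ht.trans hδ1)).trans (by linarith)
  set P : ℝ := |(Algebra.norm ℚ y : ℝ)| ^ (-s) with hP_def
  have hP : |(Algebra.norm ℚ (y + x) : ℝ)| ^ (-s) = P * Real.exp t := by
    rw [hP_def, absN_rpow hyx, absN_rpow hy, ← Real.exp_add]
    congr 1
    rw [ht_def]; ring
  have h6 : Fs c s (y + x) - Fs c s y =
      P * ((Real.exp t - 1) * wt c (y + x) + (wt c (y + x) - wt c y)) := by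
    unfold Fs
    rw [hP]; ring
  have hP0 : 0 ≤ P := Real.rpow_nonneg (abs_nonneg _) _
  have h7 : P ≤ Real.exp (2 * n * B) * nn y ^ (-n) := by
    refine (absN_rpow_le hB hy hw (by linarith : (0 : ℝ) ≤ s)).trans ?_
    gcongr
    nlinarith
  rw [h6]
  refine (final_real hP0 (wt_nonneg c _) (wt_le_one c _) h5 h3 h7 hδ0 hn0.le hA0).trans
    (le_of_eq ?_)
  rw [Real.rpow_sub_one hny.ne', hδ]
  ring


/-! ### global estimates on algebraic integers -/

theorem Fs_nonneg (c : Coef K) (s : ℝ) (y : K) : 0 ≤ Fs c s y :=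
  mul_nonneg (Real.rpow_nonneg (abs_nonneg _) _) (wt_nonneg c y)

theorem Fs_zero (c : Coef K) {s : ℝ} (hs : s ≠ 0) : Fs c s (0 : K) = 0 := by
  unfold Fs
  rw [Algebra.norm_zero, Rat.cast_zero, abs_zero, Real.zero_rpow (neg_ne_zero.mpr hs), zero_mul]

theorem Fs_eq_zero_of_wt {c : Coef K} {s : ℝ} {y : K} (h : wt c y = 0) : Fs c s y = 0 := by
  unfold Fs
  rw [h, mul_zero]

theorem one_le_absN {z : 𝓞 K} (hz : z ≠ 0) : 1 ≤ |(Algebra.norm ℚ (z : K) : ℝ)| := by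
  rw [← Algebra.coe_norm_int]
  have h : Algebra.norm ℤ z ≠ 0 := Algebra.norm_ne_zero_iff.mpr hz
  exact_mod_cast Int.one_le_abs h

theorem Fs_le_one (c : Coef K) {s : ℝ} (hs : 0 < s) (z : 𝓞 K) : Fs c s (z : K) ≤ 1 := by
  by_cases hz : z = 0
  · subst hz
    rw [show ((0 : 𝓞 K) : K) = 0 from rfl, Fs_zero c hs.ne']
    exact zero_le_one
  · unfold Fs
    calc _ ≤ (1 : ℝ) * 1 :=
          mul_le_mul (Real.rpow_le_one_of_one_le_of_nonpos (one_le_absN hz) (by linarith))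
            (wt_le_one c _) (wt_nonneg c _) zero_le_one
      _ = 1 := one_mul 1

theorem abs_Fs_sub_le_one (c : Coef K) {s : ℝ} (hs : 0 < s) (z z' : 𝓞 K) :
    |Fs c s (z : K) - Fs c s (z' : K)| ≤ 1 := by
  rw [abs_le]
  constructor <;>
    linarith [Fs_nonneg c s (z : K), Fs_nonneg c s (z' : K), Fs_le_one c hs z, Fs_le_one c hs z']

theorem rpow_neg_half {a b m : ℝ} (ha : 0 < a) (hb : a / 2 ≤ b) (hm : 0 ≤ m) :
    b ^ (-m) ≤ 2 ^ m * a ^ (-m) := by
  calc b ^ (-m) ≤ (a / 2) ^ (-m) :=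
        Real.rpow_le_rpow_of_nonpos (by linarith) hb (by linarith)
    _ = 2 ^ m * a ^ (-m) := by
        rw [Real.div_rpow ha.le (by norm_num), Real.rpow_neg (by norm_num : (0 : ℝ) ≤ 2) m]
        field_simp

theorem one_le_mul_rpow_neg {a R m : ℝ} (ha : 0 < a) (haR : a ≤ R) (hm : 0 ≤ m) :
    1 ≤ R ^ m * a ^ (-m) := by
  have h1 : a ^ m ≤ R ^ m := Real.rpow_le_rpow ha.le haR hm
  have h2 : 0 < a ^ m := Real.rpow_pos_of_pos ha m
  rw [Real.rpow_neg ha.le, ← div_eq_mul_inv, le_div_iff₀ h2, one_mul]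
  exact h1

theorem global_estimate (c : Coef K) (B : ℝ) (hB : IsBalanced c B) (x : 𝓞 K) :
    ∃ C : ℝ, 0 ≤ C ∧ ∀ y : 𝓞 K, y ≠ 0 → ∀ s : ℝ, 1 ≤ s → s ≤ 2 →
      |Fs c s ((y + x : 𝓞 K) : K) - Fs c s (y : K)| ≤
        C * nn (y : K) ^ (-((finrank ℚ K : ℝ) + 1)) := by
  obtain ⟨R₁, C₁, hR₁, hC₁, h₁⟩ := key_estimate c B hB (x : K)
  obtain ⟨R₂, C₂, hR₂, hC₂, h₂⟩ := key_estimate c B hB (-(x : K))
  have hn0 := finrank_pos_real (K := K)
  obtain ⟨m, hm⟩ : ∃ m : ℝ, m = (finrank ℚ K : ℝ) + 1 := ⟨_, rfl⟩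
  have hm0 : 0 ≤ m := by rw [hm]; linarith
  have hexp : -(finrank ℚ K : ℝ) - 1 = -m := by rw [hm]; ring
  rw [hexp] at h₁ h₂
  rw [← hm]
  obtain ⟨R₃, hR₃⟩ : ∃ R₃ : ℝ, R₃ = R₁ + 2 * R₂ + 2 * nn (x : K) := ⟨_, rfl⟩
  have hx0 := nn_nonneg (x : K)
  have hR₃0 : 0 ≤ R₃ := by rw [hR₃]; linarith
  have h2m : (0 : ℝ) ≤ 2 ^ m := Real.rpow_nonneg (by norm_num) m
  have hRm : (0 : ℝ) ≤ R₃ ^ m := Real.rpow_nonneg hR₃0 m
  refine ⟨C₁ + 2 ^ m * C₂ + R₃ ^ m, by positivity, ?_⟩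
  intro y hy s hs1 hs2
  have hyK : (y : K) ≠ 0 := by
    simpa using hy
  have hny : 0 < nn (y : K) := nn_pos hyK
  have hpow : 0 ≤ nn (y : K) ^ (-m) := Real.rpow_nonneg hny.le _
  have e1 : 0 ≤ C₁ * nn (y : K) ^ (-m) := mul_nonneg hC₁ hpow
  have e2 : 0 ≤ 2 ^ m * C₂ * nn (y : K) ^ (-m) := mul_nonneg (mul_nonneg h2m hC₂) hpow
  have e3 : 0 ≤ R₃ ^ m * nn (y : K) ^ (-m) := mul_nonneg hRm hpow
  have hsplit : (C₁ + 2 ^ m * C₂ + R₃ ^ m) * nn (y : K) ^ (-m) =
      C₁ * nn (y : K) ^ (-m) + 2 ^ m * C₂ * nn (y : K) ^ (-m) + R₃ ^ m * nn (y : K) ^ (-m) := by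
    ring
  rw [hsplit, show ((y + x : 𝓞 K) : K) = (y : K) + (x : K) from rfl]
  by_cases hbig : R₃ ≤ nn (y : K)
  · by_cases hw : wt c (y : K) = 0
    · by_cases hw' : wt c ((y : K) + (x : K)) = 0
      · rw [Fs_eq_zero_of_wt hw, Fs_eq_zero_of_wt hw', sub_zero, abs_zero]
        linarith
      · have hhalf : nn (y : K) / 2 ≤ nn ((y : K) + (x : K)) := by
          have h3 : nn (y : K) ≤ nn ((y : K) + (x : K)) + nn (x : K) := by
            have := nn_add_le ((y : K) + (x : K)) (-(x : K))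
            rwa [add_neg_cancel_right, nn_neg] at this
          linarith
        have hR2 : R₂ ≤ nn ((y : K) + (x : K)) := by linarith
        have hyx : (y : K) + (x : K) ≠ 0 := by
          intro h0
          rw [h0, (nn_eq_zero_iff (0 : K)).mpr rfl] at hR2
          linarith
        have h4 := h₂ _ hyx hw' hR2 s hs1 hs2
        rw [add_neg_cancel_right, abs_sub_comm] at h4
        have h5 := rpow_neg_half hny hhalf hm0
        have h6 : C₂ * nn ((y : K) + (x : K)) ^ (-m) ≤ 2 ^ m * C₂ * nn (y : K) ^ (-m) := by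
          calc C₂ * nn ((y : K) + (x : K)) ^ (-m) ≤ C₂ * (2 ^ m * nn (y : K) ^ (-m)) :=
                mul_le_mul_of_nonneg_left h5 hC₂
            _ = _ := by ring
        linarith
    · have h4 := h₁ _ hyK hw (by linarith) s hs1 hs2
      linarith
  · have h4 : |Fs c s (((y + x : 𝓞 K) : 𝓞 K) : K) - Fs c s (y : K)| ≤ 1 :=
      abs_Fs_sub_le_one c (by linarith) (y + x) y
    rw [show ((y + x : 𝓞 K) : K) = (y : K) + (x : K) from rfl] at h4
    have h5 := one_le_mul_rpow_neg hny (not_le.mp hbig).le hm0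
    linarith

end Shift

open Shift in
/-- (D2-d0) summability. -/
theorem summable_Fs (c : Coef K) (B : ℝ) (hB : IsBalanced c B)
    (D : (Ideal (𝓞 K))⁰) (x : 𝓞 K) {s : ℝ} (hs : 1 < s) :
    Summable fun β : (D : Ideal (𝓞 K)) => Fs c s (((β : 𝓞 K) + x : 𝓞 K) : K) := by
  have hn0 := finrank_pos_real (K := K)
  have h0 : Summable fun z : 𝓞 K => Fs c s (z : K) := by
    refine Summable.of_nonneg_of_le (fun z => Fs_nonneg c s _) (fun z => ?_)
      ((summable_nn_rpow (K := K) (-(s * (finrank ℚ K : ℝ))) (by nlinarith)).mul_left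
        (Real.exp (s * (finrank ℚ K : ℝ) * B)))
    have hpos : 0 ≤ Real.exp (s * (finrank ℚ K : ℝ) * B) *
        nn (z : K) ^ (-(s * (finrank ℚ K : ℝ))) :=
      mul_nonneg (Real.exp_pos _).le (Real.rpow_nonneg (nn_nonneg _) _)
    by_cases hz : (z : K) = 0
    · rw [hz, Fs_zero c (by linarith)]
      rw [hz] at hpos
      exact hpos
    by_cases hw : wt c (z : K) = 0
    · rw [Fs_eq_zero_of_wt hw]
      exact hpos
    · unfold Fs
      calc _ ≤ |(Algebra.norm ℚ (z : K) : ℝ)| ^ (-s) * 1 :=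
            mul_le_mul_of_nonneg_left (wt_le_one c _) (Real.rpow_nonneg (abs_nonneg _) _)
        _ ≤ _ := by
            rw [mul_one]
            exact absN_rpow_le hB hz hw (by linarith)
  exact h0.comp_injective (i := fun β : (D : Ideal (𝓞 K)) => (β : 𝓞 K) + x)
    (fun a b h => Subtype.ext (add_right_cancel h))

open Shift in
/-- (D2-d) shift invariance up to `O(1)`. -/
theorem shift_bounded (c : Coef K) (B : ℝ) (hB : IsBalanced c B)
    (D : (Ideal (𝓞 K))⁰) (x : 𝓞 K) :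
    ∃ M : ℝ, ∀ s : ℝ, 1 < s → s ≤ 2 →
      |∑' β : (D : Ideal (𝓞 K)), Fs c s (((β : 𝓞 K) + x : 𝓞 K) : K)
        - Tsum c (D : Ideal (𝓞 K)) s| ≤ M := by
  obtain ⟨C, hC, h⟩ := global_estimate c B hB x
  have hg1 : Summable fun β : (D : Ideal (𝓞 K)) =>
      C * nn ((β : 𝓞 K) : K) ^ (-((finrank ℚ K : ℝ) + 1)) :=
    ((summable_nn_rpow (K := K) (-((finrank ℚ K : ℝ) + 1)) (by linarith)).comp_injective
      (i := fun β : (D : Ideal (𝓞 K)) => (β : 𝓞 K)) Subtype.val_injective).mul_left C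
  have hg2 : Summable fun β : (D : Ideal (𝓞 K)) => if β = 0 then (1 : ℝ) else 0 :=
    (hasSum_ite_eq (0 : (D : Ideal (𝓞 K))) (1 : ℝ)).summable
  have hg := hg1.add hg2
  refine ⟨∑' β : (D : Ideal (𝓞 K)), (C * nn ((β : 𝓞 K) : K) ^ (-((finrank ℚ K : ℝ) + 1)) +
    if β = 0 then (1 : ℝ) else 0), fun s hs1 hs2 => ?_⟩
  have hx := summable_Fs c B hB D x hs1
  have h0 : Summable fun β : (D : Ideal (𝓞 K)) => Fs c s ((β : 𝓞 K) : K) := by
    simpa using summable_Fs c B hB D 0 hs1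
  unfold Tsum
  rw [← hx.tsum_sub h0]
  have hle : ∀ β : (D : Ideal (𝓞 K)),
      ‖Fs c s (((β : 𝓞 K) + x : 𝓞 K) : K) - Fs c s ((β : 𝓞 K) : K)‖ ≤
        C * nn ((β : 𝓞 K) : K) ^ (-((finrank ℚ K : ℝ) + 1)) + if β = 0 then (1 : ℝ) else 0 := by
    intro β
    rw [Real.norm_eq_abs]
    by_cases hβ : β = 0
    · rw [if_pos hβ]
      have h1 := abs_Fs_sub_le_one c (by linarith : (0 : ℝ) < s) ((β : 𝓞 K) + x) (β : 𝓞 K)
      have h2 : 0 ≤ C * nn ((β : 𝓞 K) : K) ^ (-((finrank ℚ K : ℝ) + 1)) :=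
        mul_nonneg hC (Real.rpow_nonneg (nn_nonneg _) _)
      linarith
    · rw [if_neg hβ, add_zero]
      exact h (β : 𝓞 K) (fun h0 => hβ (Subtype.ext h0)) s hs1.le hs2
  have hsn : Summable fun β : (D : Ideal (𝓞 K)) =>
      ‖Fs c s (((β : 𝓞 K) + x : 𝓞 K) : K) - Fs c s ((β : 𝓞 K) : K)‖ :=
    Summable.of_nonneg_of_le (fun _ => norm_nonneg _) hle hg
  rw [← Real.norm_eq_abs]
  exact (norm_tsum_le_tsum_norm hsn).trans (hsn.tsum_le_tsum hle hg)


end Fermat.Agent.S14.An
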