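import Fermat.Agent.S14.An.D2Defs

/-!
# S14, block (An-D2-b): the tent partition of unity over the unit group
-/

set_option autoImplicit false

namespace Fermat.Agent.S14.An

open NumberField IsDedekindDomain Filter Topology Module
open scoped nonZeroDivisors

variable {K : Type*} [Field K] [NumberField K]

theorem tent_nonneg (u : ℝ) : 0 ≤ tent u := le_max_left _ _

theorem tent_le_one (u : ℝ) : tent u ≤ 1 := by
  unfold tent
  exact max_le zero_le_one (by linarith [abs_nonneg u])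

theorem tent_eq_zero {u : ℝ} (hu : 1 ≤ |u|) : tent u = 0 := by
  unfold tent
  exact max_eq_left (by linarith)

theorem tent_of_abs_le {u : ℝ} (hu : |u| ≤ 1) : tent u = 1 - |u| := by
  unfold tent
  exact max_eq_right (by linarith)

theorem abs_lt_one_of_tent_ne_zero {u : ℝ} (hu : tent u ≠ 0) : |u| < 1 := by
  by_contra h
  exact hu (tent_eq_zero (not_lt.mp h))

theorem hasSum_tent (u : ℝ) : HasSum (fun k : ℤ => tent (u + k)) 1 := by
  have hsupp : ∀ k ∉ ({-⌊u⌋, -⌊u⌋ - 1} : Finset ℤ), tent (u + k) = 0 := by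
    intro k hk
    simp only [Finset.mem_insert, Finset.mem_singleton, not_or] at hk
    obtain ⟨h1, h2⟩ := hk
    apply tent_eq_zero
    have hf0 := Int.fract_nonneg u
    have hf1 := Int.fract_lt_one u
    have hu : u = ⌊u⌋ + Int.fract u := (Int.floor_add_fract u).symm
    rcases lt_trichotomy (k + ⌊u⌋) (-1) with h | h | h
    · have : (k + ⌊u⌋ : ℤ) ≤ -2 := by omega
      have h' : ((k : ℝ) + (⌊u⌋ : ℝ)) ≤ -2 := by exact_mod_cast this
      rw [le_abs]
      right
      linarith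
    · exfalso; apply h2; omega
    · have : (1 : ℤ) ≤ k + ⌊u⌋ := by
        rcases eq_or_ne (k + ⌊u⌋) 0 with h0 | h0
        · exfalso; apply h1; omega
        · omega
      have h' : (1 : ℝ) ≤ ((k : ℝ) + (⌊u⌋ : ℝ)) := by exact_mod_cast this
      rw [le_abs]
      left
      linarith
  have h : HasSum (fun k : ℤ => tent (u + k))
      (∑ k ∈ ({-⌊u⌋, -⌊u⌋ - 1} : Finset ℤ), tent (u + k)) := hasSum_sum_of_ne_finset_zero hsupp
  have hne : (-⌊u⌋ : ℤ) ≠ -⌊u⌋ - 1 := by omega
  rw [Finset.sum_pair hne] at h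
  convert h using 1
  have hf0 := Int.fract_nonneg u
  have hf1 := Int.fract_lt_one u
  have e1 : u + ((-⌊u⌋ : ℤ) : ℝ) = Int.fract u := by
    push_cast; rw [Int.fract]; ring
  have e2 : u + ((-⌊u⌋ - 1 : ℤ) : ℝ) = Int.fract u - 1 := by
    push_cast; rw [Int.fract]; ring
  rw [e1, e2, tent_of_abs_le, tent_of_abs_le, abs_of_nonneg hf0, abs_of_nonpos (by linarith)]
  · ring
  · rw [abs_of_nonpos (by linarith)]; linarith
  · rw [abs_of_nonneg hf0]; linarith

theorem tent_lipschitz (u v : ℝ) : |tent u - tent v| ≤ |u - v| := by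
  unfold tent
  calc |max 0 (1 - |u|) - max 0 (1 - |v|)| ≤ max |(0 : ℝ) - 0| |(1 - |u|) - (1 - |v|)| :=
        abs_max_sub_max_le_max _ _ _ _
    _ = |(|v| - |u|)| := by
        rw [sub_self, abs_zero, max_eq_right (abs_nonneg _)]
        congr 1; ring
    _ ≤ |v - u| := abs_abs_sub_abs_le _ _
    _ = |u - v| := abs_sub_comm _ _

/-- the (finite) support of `k ↦ tent (u + k)` -/
noncomputable def tentSupp (u : ℝ) : Finset ℤ := {-⌊u⌋, -⌊u⌋ - 1}

theorem tent_add_eq_zero_of_notMem (u : ℝ) {k : ℤ} (hk : k ∉ tentSupp u) : tent (u + k) = 0 := by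
  by_contra hne
  have hlt := abs_lt_one_of_tent_ne_zero hne
  rw [abs_lt] at hlt
  have hf0 := Int.fract_nonneg u
  have hf1 := Int.fract_lt_one u
  have hu : u = ⌊u⌋ + Int.fract u := (Int.floor_add_fract u).symm
  have h1 : ((-2 : ℤ) : ℝ) < ((k + ⌊u⌋ : ℤ) : ℝ) := by push_cast; linarith
  have h2 : ((k + ⌊u⌋ : ℤ) : ℝ) < ((1 : ℤ) : ℝ) := by push_cast; linarith
  rw [Int.cast_lt] at h1 h2
  apply hk
  simp only [tentSupp, Finset.mem_insert, Finset.mem_singleton]
  omega

theorem sum_tentSupp (u : ℝ) : ∑ k ∈ tentSupp u, tent (u + k) = 1 := by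
  have h : HasSum (fun k : ℤ => tent (u + k)) (∑ k ∈ tentSupp u, tent (u + k)) :=
    hasSum_sum_of_ne_finset_zero fun k hk => tent_add_eq_zero_of_notMem u hk
  exact h.unique (hasSum_tent u)

/-- product of tents: partition of unity for `ℤ^ι ⊆ ℝ^ι`. -/
theorem hasSum_prod_tent {ι : Type*} [Fintype ι] [DecidableEq ι] (τ : ι → ℝ) :
    HasSum (fun e : ι → ℤ => ∏ i, tent (τ i + e i)) 1 := by
  have hsupp : ∀ e ∉ Fintype.piFinset (fun i => tentSupp (τ i)), ∏ i, tent (τ i + e i) = 0 := by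
    intro e he
    rw [Fintype.mem_piFinset, not_forall] at he
    obtain ⟨i, hi⟩ := he
    exact Finset.prod_eq_zero (Finset.mem_univ i) (tent_add_eq_zero_of_notMem _ hi)
  have h : HasSum (fun e : ι → ℤ => ∏ i, tent (τ i + e i))
      (∑ e ∈ Fintype.piFinset (fun i => tentSupp (τ i)), ∏ i, tent (τ i + e i)) :=
    hasSum_sum_of_ne_finset_zero hsupp
  rw [← Finset.prod_univ_sum (fun i => tentSupp (τ i)) (fun i (k : ℤ) => tent (τ i + k))] at h
  simpa [sum_tentSupp] using h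

/-! ### `ell` on units -/

theorem ell_mul (c : Coef K) (i : Fin (Units.rank K)) {x y : K} (hx : x ≠ 0) (hy : y ≠ 0) :
    ell c i (x * y) = ell c i x + ell c i y := by
  unfold ell
  rw [← Finset.sum_add_distrib]
  refine Finset.sum_congr rfl fun w _ => ?_
  rw [map_mul, Real.log_mul ((map_ne_zero w).mpr hx) ((map_ne_zero w).mpr hy), mul_add]

omit [NumberField K] in
theorem unit_coe_ne_zero (u : (𝓞 K)ˣ) : (((u : 𝓞 K)) : K) ≠ 0 :=
  Units.coe_ne_zero u

/-- `ell c i` as an additive homomorphism on the units. -/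
noncomputable def ellHom (c : Coef K) (i : Fin (Units.rank K)) : Additive (𝓞 K)ˣ →+ ℝ :=
  AddMonoidHom.mk' (fun u => ell c i (((u.toMul : (𝓞 K)ˣ) : 𝓞 K) : K)) (by
    intro a b
    have h : ((((a + b).toMul : (𝓞 K)ˣ) : 𝓞 K) : K) =
        (((a.toMul : (𝓞 K)ˣ) : 𝓞 K) : K) * (((b.toMul : (𝓞 K)ˣ) : 𝓞 K) : K) := by
      rw [toMul_add, Units.val_mul]; push_cast; rfl
    rw [h]
    exact ell_mul c i (unit_coe_ne_zero _) (unit_coe_ne_zero _))

theorem ellHom_apply (c : Coef K) (i : Fin (Units.rank K)) (u : (𝓞 K)ˣ) :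
    ellHom c i (Additive.ofMul u) = ell c i ((u : 𝓞 K) : K) := rfl

theorem ell_torsion (c : Coef K) (i : Fin (Units.rank K)) {ζ : (𝓞 K)ˣ}
    (hζ : ζ ∈ Units.torsion K) : ell c i ((ζ : 𝓞 K) : K) = 0 := by
  unfold ell
  refine Finset.sum_eq_zero fun w _ => ?_
  rw [(Units.mem_torsion K).mp hζ w, Real.log_one, mul_zero]

theorem ell_unit_eq (c : Coef K) (hc : IsDualCoef c) (i : Fin (Units.rank K))
    (ζ : Units.torsion K) (e : Fin (Units.rank K) → ℤ) :
    ell c i ((((ζ : (𝓞 K)ˣ) * ∏ j, (Units.fundSystem K j) ^ (e j) : (𝓞 K)ˣ) : 𝓞 K) : K) = e i := by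
  rw [← ellHom_apply, ofMul_mul, map_add, ofMul_prod, map_sum, ellHom_apply,
    ell_torsion c i ζ.2, zero_add]
  simp_rw [ofMul_zpow, map_zsmul, ellHom_apply, hc i]
  simp

/-- Dirichlet's unit theorem as an equivalence. -/
noncomputable def unitsEquivProd :
    Units.torsion K × (Fin (Units.rank K) → ℤ) ≃ (𝓞 K)ˣ :=
  Equiv.ofBijective
    (fun ζe => (ζe.1 : (𝓞 K)ˣ) * ∏ j, (Units.fundSystem K j) ^ (ζe.2 j)) (by
      constructor
      · intro a b hab
        obtain ⟨z, _, hz⟩ := Units.exist_unique_eq_mul_prod K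
          ((a.1 : (𝓞 K)ˣ) * ∏ j, (Units.fundSystem K j) ^ (a.2 j))
        rw [hz a rfl, hz b hab]
      · intro u
        obtain ⟨z, hz, _⟩ := Units.exist_unique_eq_mul_prod K u
        exact ⟨z, hz.symm⟩)

theorem unitsEquivProd_apply (ζe : Units.torsion K × (Fin (Units.rank K) → ℤ)) :
    unitsEquivProd ζe = (ζe.1 : (𝓞 K)ˣ) * ∏ j, (Units.fundSystem K j) ^ (ζe.2 j) := rfl

theorem hasSum_snd_of_finite {T E : Type*} [Finite T] {g : E → ℝ} (hg0 : ∀ e, 0 ≤ g e) {a : ℝ}
    (hg : HasSum g a) : HasSum (fun x : T × E => g x.2) ((Nat.card T : ℝ) * a) := by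
  have := Fintype.ofFinite T
  have h0 : HasSum (fun _ : T => (1 : ℝ)) (Nat.card T : ℝ) := by
    have := hasSum_fintype (fun _ : T => (1 : ℝ))
    simpa [Nat.card_eq_fintype_card] using this
  have hsum : Summable fun x : T × E => (fun _ : T => (1 : ℝ)) x.1 * g x.2 :=
    Summable.mul_of_nonneg h0.summable hg.summable (fun _ => zero_le_one) hg0
  have h2 := h0.mul hg hsum
  simpa using h2

/-- (D2-b) partition of unity. -/
theorem hasSum_units_wt (c : Coef K) (hc : IsDualCoef c) (x : K) (hx : x ≠ 0) :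
    HasSum (fun u : (𝓞 K)ˣ => wt c (((u : 𝓞 K) : K) * x)) (Units.torsionOrder K) := by
  classical
  rw [← (unitsEquivProd (K := K)).hasSum_iff]
  have hfun : ((fun u : (𝓞 K)ˣ => wt c (((u : 𝓞 K) : K) * x)) ∘ (unitsEquivProd (K := K))) =
      fun ζe : Units.torsion K × (Fin (Units.rank K) → ℤ) =>
        ∏ i, tent (ell c i x + (ζe.2 i : ℤ)) := by
    funext ζe
    simp only [Function.comp_apply, wt, unitsEquivProd_apply]
    refine Finset.prod_congr rfl fun i _ => ?_
    rw [ell_mul c i (unit_coe_ne_zero _) hx, ell_unit_eq c hc, add_comm]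
  rw [hfun]
  have h1 := hasSum_prod_tent (fun i => ell c i x)
  have h2 := hasSum_snd_of_finite (T := Units.torsion K)
    (fun e => Finset.prod_nonneg fun i _ => tent_nonneg _) h1
  rw [mul_one] at h2
  exact h2

end Fermat.Agent.S14.An
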