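import Fermat.Agent.S14.An.D2Coef
import Fermat.Agent.S14.An.D2Tent
import Fermat.Agent.S14.An.D2Orbit
import Fermat.Agent.S14.An.D2Shift
import Fermat.Agent.S14.An.Zeta

/-!
# S14, block (An-D2), package D2-e: partial zeta functions differ by `O(1)` as `s → 1+`
-/

set_option autoImplicit false

namespace Fermat.Agent.S14.An

open NumberField IsDedekindDomain Filter Topology Module
open scoped nonZeroDivisors

/-- decomposition of a sum over a subgroup `J` into sums over the cosets of `D ≤ J`. -/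
theorem D2e_tsum_cosets {G : Type*} [AddCommGroup G] (J D : AddSubgroup G) (hDJ : D ≤ J)
    (hfin : D.relIndex J ≠ 0) :
    ∃ R : Finset G, R.card = D.relIndex J ∧ ∀ f : G → ℝ, (∀ g, 0 ≤ f g) →
      (∀ x : G, Summable fun h : D => f ((h : G) + x)) →
      ∑' g : J, f (g : G) = ∑ x ∈ R, ∑' h : D, f ((h : G) + x) := by
  classical
  set H : AddSubgroup J := D.addSubgroupOf J with hH
  have hidx : H.index ≠ 0 := hfin
  have : H.FiniteIndex := ⟨hidx⟩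
  have : Finite (J ⧸ H) := AddSubgroup.finite_quotient_of_finiteIndex
  have : Fintype (J ⧸ H) := Fintype.ofFinite _
  let rep : J ⧸ H → G := fun q => ((Quotient.out q : J) : G)
  have hrep : Function.Injective rep := by
    intro q₁ q₂ h
    have h' : (Quotient.out q₁ : J) = Quotient.out q₂ := Subtype.ext h
    have := congrArg (fun a : J => (QuotientAddGroup.mk a : J ⧸ H)) h'
    simpa using this
  let e : (J ⧸ H) × D ≃ J :=
    { toFun := fun p => ⟨(p.2 : G) + rep p.1, J.add_mem (hDJ p.2.2) (Quotient.out p.1 : J).2⟩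
      invFun := fun a => (QuotientAddGroup.mk a,
        ⟨(a : G) - rep (QuotientAddGroup.mk a), by
          have h1 : (QuotientAddGroup.mk (Quotient.out (QuotientAddGroup.mk a : J ⧸ H)) : J ⧸ H)
              = QuotientAddGroup.mk a := QuotientAddGroup.out_eq' _
          rw [QuotientAddGroup.eq] at h1
          have h2 : ((-(Quotient.out (QuotientAddGroup.mk a : J ⧸ H)) + a : J) : G) ∈ D := h1
          have h3 : ((-(Quotient.out (QuotientAddGroup.mk a : J ⧸ H)) + a : J) : G)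
              = (a : G) - rep (QuotientAddGroup.mk a) := by
            simp only [rep, AddSubgroup.coe_add, AddSubgroup.coe_neg]
            abel
          rwa [h3] at h2⟩)
      left_inv := by
        rintro ⟨q, d⟩
        have hq : (QuotientAddGroup.mk
            (⟨(d : G) + rep q, J.add_mem (hDJ d.2) (Quotient.out q : J).2⟩ : J) : J ⧸ H) = q := by
          conv_rhs => rw [← QuotientAddGroup.out_eq' q]
          rw [eq_comm, QuotientAddGroup.eq]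
          show ((-(Quotient.out q) + (⟨(d : G) + rep q, _⟩ : J) : J) : G) ∈ D
          have : ((-(Quotient.out q) + (⟨(d : G) + rep q,
              J.add_mem (hDJ d.2) (Quotient.out q : J).2⟩ : J) : J) : G) = d := by
            simp only [rep, AddSubgroup.coe_add, AddSubgroup.coe_neg]
            abel
          rw [this]
          exact d.2
        ext
        · exact hq
        · simp only [hq]
          abel
      right_inv := by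
        intro a
        ext
        simp }
  refine ⟨Finset.univ.image rep, ?_, ?_⟩
  · rw [Finset.card_image_of_injective _ hrep, Finset.card_univ, ← Nat.card_eq_fintype_card]
    rfl
  · intro f hf hs
    rw [Finset.sum_image (fun a _ b _ h => hrep h), ← e.tsum_eq (fun g : J => f (g : G))]
    have hsum : Summable fun p : (J ⧸ H) × D => f ((e p : J) : G) := by
      rw [summable_prod_of_nonneg (fun p => hf _)]
      exact ⟨fun q => hs (rep q), Summable.of_finite⟩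
    rw [hsum.tsum_prod' (fun q => hs (rep q)), tsum_fintype]
    rfl

theorem D2e_rpow_sub_one_bounds {n t : ℝ} (hn : 1 ≤ n) (ht0 : 0 ≤ t) (ht1 : t ≤ 1) :
    1 ≤ n ^ t ∧ n ^ t ≤ 1 + t * n := by
  refine ⟨Real.one_le_rpow hn ht0, ?_⟩
  have h := rpow_one_add_le_one_add_mul_self (s := n - 1) (by linarith) ht0 ht1
  have h2 : (1 + (n - 1)) = n := by ring
  rw [h2] at h
  nlinarith

theorem D2e_core {w n₁ n₂ M₁ M₂ C0 t T₁ T₂ TD Z₁ Z₂ y u₁ u₂ : ℝ} (hw : 0 < w) (h1 : 1 ≤ n₁)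
    (h2 : 1 ≤ n₂) (ht : 0 < t)
    (hZ1 : Z₁ = n₁ * u₁ * T₁ / w) (hZ2 : Z₂ = n₂ * u₂ * T₂ / w) (hTD : TD = w * y)
    (hy0 : 0 ≤ y) (hyle : y ≤ C0 / t)
    (hu1l : 1 ≤ u₁) (hu1u : u₁ ≤ 1 + t * n₁) (ha1le : n₁ * u₁ ≤ n₁ ^ 2)
    (hu2l : 1 ≤ u₂) (hu2u : u₂ ≤ 1 + t * n₂) (ha2le : n₂ * u₂ ≤ n₂ ^ 2)
    (b1 : |T₁ - n₂ * TD| ≤ M₁) (b2 : |T₂ - n₁ * TD| ≤ M₂) :
    |Z₁ - Z₂| ≤ (n₁ ^ 2 * M₁ + n₂ ^ 2 * M₂) / w + C0 * (n₁ * n₂ * (n₁ + n₂)) := by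
  have hn1 : 0 < n₁ := by linarith
  have hn2 : 0 < n₂ := by linarith
  have hu1 : 0 < u₁ := by linarith
  have hu2 : 0 < u₂ := by linarith
  have hM1 : 0 ≤ M₁ := (abs_nonneg _).trans b1
  have hM2 : 0 ≤ M₂ := (abs_nonneg _).trans b2
  have hdecomp : Z₁ - Z₂ = (n₁ * u₁ * (T₁ - n₂ * TD) - n₂ * u₂ * (T₂ - n₁ * TD)) / w
      + y * (n₁ * n₂ * (u₁ - u₂)) := by
    rw [hZ1, hZ2, hTD]; field_simp; ring
  have hA : |(n₁ * u₁ * (T₁ - n₂ * TD) - n₂ * u₂ * (T₂ - n₁ * TD)) / w|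
      ≤ (n₁ ^ 2 * M₁ + n₂ ^ 2 * M₂) / w := by
    rw [abs_div, abs_of_pos hw]
    apply div_le_div_of_nonneg_right _ hw.le
    calc |n₁ * u₁ * (T₁ - n₂ * TD) - n₂ * u₂ * (T₂ - n₁ * TD)|
        ≤ |n₁ * u₁ * (T₁ - n₂ * TD)| + |n₂ * u₂ * (T₂ - n₁ * TD)| := abs_sub _ _
      _ = n₁ * u₁ * |T₁ - n₂ * TD| + n₂ * u₂ * |T₂ - n₁ * TD| := by
          rw [abs_mul (n₁ * u₁), abs_mul (n₂ * u₂), abs_of_pos (by positivity : 0 < n₁ * u₁),
            abs_of_pos (by positivity : 0 < n₂ * u₂)]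
      _ ≤ n₁ ^ 2 * M₁ + n₂ ^ 2 * M₂ :=
          add_le_add (mul_le_mul ha1le b1 (abs_nonneg _) (by positivity))
            (mul_le_mul ha2le b2 (abs_nonneg _) (by positivity))
  have hu : |u₁ - u₂| ≤ t * (n₁ + n₂) := by
    rw [abs_le]
    constructor <;> nlinarith
  have hB : |y * (n₁ * n₂ * (u₁ - u₂))| ≤ C0 * (n₁ * n₂ * (n₁ + n₂)) := by
    rw [abs_mul y, abs_mul (n₁ * n₂), abs_of_nonneg hy0, abs_of_pos (by positivity : 0 < n₁ * n₂)]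
    calc y * (n₁ * n₂ * |u₁ - u₂|)
        ≤ (C0 / t) * (n₁ * n₂ * (t * (n₁ + n₂))) := by
          apply mul_le_mul hyle _ (by positivity) (hy0.trans hyle)
          exact mul_le_mul_of_nonneg_left hu (by positivity)
      _ = C0 * (n₁ * n₂ * (n₁ + n₂)) := by field_simp
  rw [hdecomp]
  exact (abs_add_le _ _).trans (add_le_add hA hB)

theorem D2e_real {w n₁ n₂ M₁ M₂ C0 s T₁ T₂ TD Z₁ Z₂ ZD : ℝ} (hw : 0 < w) (h1 : 1 ≤ n₁)
    (h2 : 1 ≤ n₂) (hs : 1 < s) (hs2 : s ≤ 2)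
    (e1 : T₁ = w * n₁ ^ (-s) * Z₁) (e2 : T₂ = w * n₂ ^ (-s) * Z₂)
    (eD : TD = w * (n₁ * n₂) ^ (-s) * ZD) (hZD0 : 0 ≤ ZD) (hZD : ZD ≤ C0 / (s - 1))
    (b1 : |T₁ - n₂ * TD| ≤ M₁) (b2 : |T₂ - n₁ * TD| ≤ M₂) :
    |Z₁ - Z₂| ≤ (n₁ ^ 2 * M₁ + n₂ ^ 2 * M₂) / w + C0 * (n₁ * n₂ * (n₁ + n₂)) := by
  have hn1 : 0 < n₁ := by linarith
  have hn2 : 0 < n₂ := by linarith
  have hs1 : 0 < s - 1 := by linarith
  have hau : ∀ n : ℝ, 0 < n → n ^ s = n * n ^ (s - 1) := by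
    intro n hn
    rw [Real.rpow_sub_one hn.ne']; field_simp
  have hale : ∀ n : ℝ, 1 ≤ n → n * n ^ (s - 1) ≤ n ^ 2 := by
    intro n hn
    rw [← hau n (by linarith)]
    have := Real.rpow_le_rpow_of_exponent_le hn hs2
    rwa [Real.rpow_two] at this
  obtain ⟨hu1l, hu1u⟩ := D2e_rpow_sub_one_bounds h1 hs1.le (by linarith : s - 1 ≤ 1)
  obtain ⟨hu2l, hu2u⟩ := D2e_rpow_sub_one_bounds h2 hs1.le (by linarith : s - 1 ≤ 1)
  have hZ : ∀ n T Z : ℝ, 0 < n → T = w * n ^ (-s) * Z → Z = n * n ^ (s - 1) * T / w := by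
    intro n T Z hn e
    have hpos : 0 < n ^ s := Real.rpow_pos_of_pos hn s
    rw [← hau n hn, e, Real.rpow_neg hn.le]; field_simp
  have hp1 : (n₁ * n₂) ^ (-s) ≤ 1 :=
    Real.rpow_le_one_of_one_le_of_nonpos (by nlinarith) (by linarith)
  have hp0 : 0 ≤ (n₁ * n₂) ^ (-s) := Real.rpow_nonneg (by positivity) _
  refine D2e_core (y := (n₁ * n₂) ^ (-s) * ZD) hw h1 h2 hs1 (hZ _ _ _ hn1 e1) (hZ _ _ _ hn2 e2)
    (by rw [eD]; ring) (mul_nonneg hp0 hZD0) ?_ hu1l hu1u (hale _ h1) hu2l hu2u (hale _ h2) b1 b2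
  calc (n₁ * n₂) ^ (-s) * ZD ≤ 1 * ZD := mul_le_mul_of_nonneg_right hp1 hZD0
    _ = ZD := one_mul _
    _ ≤ _ := hZD

variable {K : Type*} [Field K] [NumberField K]

theorem D2e_Fs_nonneg (c : Coef K) (s : ℝ) (x : K) : 0 ≤ Fs c s x := by
  unfold Fs wt tent
  exact mul_nonneg (Real.rpow_nonneg (abs_nonneg _) _)
    (Finset.prod_nonneg fun i _ => le_max_left _ _)

theorem D2e_absNorm_pos (J : (Ideal (𝓞 K))⁰) : 0 < Ideal.absNorm (J : Ideal (𝓞 K)) := by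
  rw [Nat.pos_iff_ne_zero, Ne, Ideal.absNorm_eq_zero_iff]
  exact nonZeroDivisors.coe_ne_zero J

/-- `T(J,s) = N(J') T(J J',s) + O(1)`. -/
theorem D2e_Tsum_sub_bounded (c : Coef K) (B : ℝ) (hB : IsBalanced c B)
    (J J' : (Ideal (𝓞 K))⁰) :
    ∃ M : ℝ, ∀ s : ℝ, 1 < s → s ≤ 2 →
      |Tsum c (J : Ideal (𝓞 K)) s - (Ideal.absNorm (J' : Ideal (𝓞 K)) : ℝ) *
        Tsum c ((J * J' : (Ideal (𝓞 K))⁰) : Ideal (𝓞 K)) s| ≤ M := by
  classical
  set D : (Ideal (𝓞 K))⁰ := J * J' with hD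
  have hDJ : (D : Ideal (𝓞 K)) ≤ J := by
    rw [hD, Submonoid.coe_mul]
    exact Ideal.mul_le_left (I := (J : Ideal (𝓞 K))) (J := (J' : Ideal (𝓞 K)))
  have hDJ' : (D : Ideal (𝓞 K)).toAddSubgroup ≤ (J : Ideal (𝓞 K)).toAddSubgroup := hDJ
  have hidx : ∀ I : Ideal (𝓞 K), I.toAddSubgroup.index = Ideal.absNorm I := fun I => rfl
  have hrel : (D : Ideal (𝓞 K)).toAddSubgroup.relIndex (J : Ideal (𝓞 K)).toAddSubgroup
      = Ideal.absNorm (J' : Ideal (𝓞 K)) := by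
    have h1 := AddSubgroup.relIndex_mul_index hDJ'
    rw [hidx, hidx, hD, Submonoid.coe_mul, map_mul, mul_comm] at h1
    exact Nat.eq_of_mul_eq_mul_left (D2e_absNorm_pos J) h1
  obtain ⟨R, hRcard, hR⟩ := D2e_tsum_cosets _ _ hDJ' (by rw [hrel]; exact (D2e_absNorm_pos J').ne')
  choose M hM using fun x : 𝓞 K => shift_bounded c B hB D x
  refine ⟨∑ x ∈ R, M x, fun s hs hs2 => ?_⟩
  have h1 : Tsum c (J : Ideal (𝓞 K)) s
      = ∑ x ∈ R, ∑' β : (D : Ideal (𝓞 K)), Fs c s (((β : 𝓞 K) + x : 𝓞 K) : K) :=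
    hR (fun y : 𝓞 K => Fs c s (y : K)) (fun y => D2e_Fs_nonneg c s _)
      (fun x => summable_Fs c B hB D x hs)
  have h2 : (Ideal.absNorm (J' : Ideal (𝓞 K)) : ℝ) * Tsum c (D : Ideal (𝓞 K)) s
      = ∑ x ∈ R, Tsum c (D : Ideal (𝓞 K)) s := by
    rw [Finset.sum_const, hRcard, hrel, nsmul_eq_mul]
  rw [h1, h2, ← Finset.sum_sub_distrib]
  exact (Finset.abs_sum_le_sum_abs _ _).trans (Finset.sum_le_sum fun x _ => hM x s hs hs2)

/-- (D2-c) orbit decomposition (wiring of `Tsum_eq_of`). -/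
theorem Tsum_eq (c : Coef K) (hc : IsDualCoef c) (J : (Ideal (𝓞 K))⁰) {s : ℝ} (hs : 1 < s) :
    Tsum c (J : Ideal (𝓞 K)) s =
      (Units.torsionOrder K : ℝ) * nrm K s (J : Ideal (𝓞 K)) *
        partialZeta K (ClassGroup.mk0 J)⁻¹ s :=
  Tsum_eq_of c (hasSum_units_wt c hc) J (by linarith) (summable_nrm hs)

theorem D2e_partialZeta_nonneg (C : ClassGroup (𝓞 K)) (s : ℝ) : 0 ≤ partialZeta K C s :=
  tsum_nonneg fun _ => Real.rpow_nonneg (Nat.cast_nonneg _) _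

theorem D2e_partialZeta_le_idealZeta (C : ClassGroup (𝓞 K)) {s : ℝ} (hs : 1 < s) :
    partialZeta K C s ≤ idealZeta K s :=
  (summable_nrm (K := K) hs).tsum_subtype_le _ {I : (Ideal (𝓞 K))⁰ | ClassGroup.mk0 I = C}
    (fun _ => Real.rpow_nonneg (Nat.cast_nonneg _) _)

variable (K) in
/-- (D2-e) assembly -/
theorem partialZeta_sub_bounded (C₁ C₂ : ClassGroup (𝓞 K)) : ∃ B : ℝ, ∀ s : ℝ, 1 < s → s ≤ 2 →
    |partialZeta K C₁ s - partialZeta K C₂ s| ≤ B := by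
  obtain ⟨c, B, hc, hB⟩ := exists_coef K
  obtain ⟨J₁, hJ₁⟩ := ClassGroup.mk0_surjective C₁⁻¹
  obtain ⟨J₂, hJ₂⟩ := ClassGroup.mk0_surjective C₂⁻¹
  obtain ⟨M₁, hM₁⟩ := D2e_Tsum_sub_bounded c B hB J₁ J₂
  obtain ⟨M₂, hM₂⟩ := D2e_Tsum_sub_bounded c B hB J₂ J₁
  obtain ⟨c0, C0, -, -, hZ⟩ := idealZeta_bounds K
  have hw : (0 : ℝ) < (Units.torsionOrder K : ℝ) := by
    exact_mod_cast Units.torsionOrder_pos K
  have h1 : (1 : ℝ) ≤ (Ideal.absNorm (J₁ : Ideal (𝓞 K)) : ℝ) := by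
    exact_mod_cast D2e_absNorm_pos J₁
  have h2 : (1 : ℝ) ≤ (Ideal.absNorm (J₂ : Ideal (𝓞 K)) : ℝ) := by
    exact_mod_cast D2e_absNorm_pos J₂
  refine ⟨((Ideal.absNorm (J₁ : Ideal (𝓞 K)) : ℝ) ^ 2 * M₁
      + (Ideal.absNorm (J₂ : Ideal (𝓞 K)) : ℝ) ^ 2 * M₂) / (Units.torsionOrder K : ℝ)
      + C0 * ((Ideal.absNorm (J₁ : Ideal (𝓞 K)) : ℝ) * (Ideal.absNorm (J₂ : Ideal (𝓞 K)) : ℝ)
        * ((Ideal.absNorm (J₁ : Ideal (𝓞 K)) : ℝ) + (Ideal.absNorm (J₂ : Ideal (𝓞 K)) : ℝ))),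
    fun s hs hs2 => ?_⟩
  have e1 := Tsum_eq c hc J₁ hs
  have e2 := Tsum_eq c hc J₂ hs
  have eD := Tsum_eq c hc (J₁ * J₂) hs
  rw [hJ₁, inv_inv] at e1
  rw [hJ₂, inv_inv] at e2
  have hnD : nrm K s ((J₁ * J₂ : (Ideal (𝓞 K))⁰) : Ideal (𝓞 K))
      = ((Ideal.absNorm (J₁ : Ideal (𝓞 K)) : ℝ) * (Ideal.absNorm (J₂ : Ideal (𝓞 K)) : ℝ)) ^ (-s) := by
    rw [nrm, Submonoid.coe_mul, map_mul, Nat.cast_mul]
  rw [hnD] at eD
  have b1 := hM₁ s hs hs2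
  have b2 := hM₂ s hs hs2
  rw [mul_comm J₂ J₁] at b2
  exact D2e_real hw h1 h2 hs hs2 e1 e2 eD (D2e_partialZeta_nonneg _ s)
    ((D2e_partialZeta_le_idealZeta _ hs).trans (hZ s hs hs2).2) b1 b2

end Fermat.Agent.S14.An
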