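import Fermat.Agent.S14.An.KernelCore
import Fermat.Agent.S14.An.Zeta
import Fermat.Agent.S14.An.EulerCor
import Fermat.Agent.S14.An.D2Main

/-!
# S14, analytic block (An-Ker): primes in the kernel of a class group character of order `p`
(wiring of `KernelCore.lean` with the packages An-Z, An-EP2, D2-e)
-/

set_option autoImplicit false

namespace Fermat.Agent.S14.An

open NumberField IsDedekindDomain Filter Topology
open scoped nonZeroDivisors

variable {K : Type*} [Field K] [NumberField K]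

theorem LChar_bounded (χ : ClassGroup (𝓞 K) →* ℂˣ) (hχ : χ ≠ 1) :
    ∃ B : ℝ, ∀ s : ℝ, 1 < s → s ≤ 2 → ‖LChar χ s‖ ≤ B :=
  Ker.LChar_bounded_of (fun _ hs => summable_nrm hs) (partialZeta_sub_bounded K) χ hχ

theorem primeSum_ker_le {p : ℕ} [Fact p.Prime]
    (lam : ClassGroup (𝓞 K) →* Multiplicative (ZMod p)) (hlam : lam ≠ 1) :
    ∃ C : ℝ, ∀ s : ℝ, 1 < s → s ≤ 2 →
      primeSum {v : HeightOneSpectrum (𝓞 K) | lam (ClassGroup.mk0 (primeNZ v)) = 1} s
        ≤ (1 / p : ℝ) * Real.log (1 / (s - 1)) + C :=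
  Ker.primeSum_ker_le_of (fun _ hs => summable_nrm hs) (idealZeta_bounds K)
    exp_primeSum_le_norm_LChar LChar_bounded lam hlam

end Fermat.Agent.S14.An
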