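import Fermat.Agent.S14.An.Defs

/-!
# S14, analytic block (An-EP2): consequences of the Euler product

Core statements, with the two black boxes (`summable_nrm` from An-Z and `eulerProduct_tendsto`
from An-EP1) passed as hypotheses `SummableNrm K`, `EulerProd K`.
-/

set_option autoImplicit false

namespace Fermat.Agent.S14.An.EP2

open NumberField IsDedekindDomain Filter Topology
open scoped nonZeroDivisors

variable {K : Type*} [Field K] [NumberField K]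

variable (K) in
/-- black box An-Z -/
def SummableNrm : Prop :=
  ∀ s : ℝ, 1 < s → Summable fun I : (Ideal (𝓞 K))⁰ => nrm K s (I : Ideal (𝓞 K))

variable (K) in
/-- black box An-EP1 -/
def EulerProd : Prop :=
  ∀ f : (Ideal (𝓞 K))⁰ →* ℂ, (Summable fun I => ‖f I‖) →
    Tendsto (fun T : Finset (HeightOneSpectrum (𝓞 K)) => ∏ v ∈ T, (1 - f (primeNZ v))⁻¹) atTop
      (𝓝 (∑' I, f I))

/-! ### basic facts on `nrm` -/

lemma nrm_nonneg (s : ℝ) (I : Ideal (𝓞 K)) : 0 ≤ nrm K s I :=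
  Real.rpow_nonneg (Nat.cast_nonneg _) _

lemma nrm_mul (s : ℝ) (I J : Ideal (𝓞 K)) : nrm K s (I * J) = nrm K s I * nrm K s J := by
  unfold nrm
  rw [map_mul, Nat.cast_mul, Real.mul_rpow (Nat.cast_nonneg _) (Nat.cast_nonneg _)]

lemma nrm_one (s : ℝ) : nrm K s (1 : Ideal (𝓞 K)) = 1 := by
  simp [nrm]

lemma two_le_absNorm_prime (v : HeightOneSpectrum (𝓞 K)) : 2 ≤ Ideal.absNorm v.asIdeal := by
  have h0 : Ideal.absNorm v.asIdeal ≠ 0 := by
    rw [Ne, Ideal.absNorm_eq_zero_iff]; exact v.ne_bot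
  have h1 : Ideal.absNorm v.asIdeal ≠ 1 := by
    rw [Ne, Ideal.absNorm_eq_one_iff]; exact v.isPrime.ne_top
  omega

lemma nrm_prime_pos (s : ℝ) (v : HeightOneSpectrum (𝓞 K)) : 0 < nrm K s v.asIdeal := by
  have := two_le_absNorm_prime v
  exact Real.rpow_pos_of_pos (by exact_mod_cast (by omega : 0 < Ideal.absNorm v.asIdeal)) _

lemma nrm_prime_le_half {s : ℝ} (hs : 1 < s) (v : HeightOneSpectrum (𝓞 K)) :
    nrm K s v.asIdeal ≤ 1 / 2 := by
  have h2 : (2 : ℝ) ≤ (Ideal.absNorm v.asIdeal : ℝ) := by exact_mod_cast two_le_absNorm_prime v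
  calc nrm K s v.asIdeal ≤ (2 : ℝ) ^ (-s) :=
        Real.rpow_le_rpow_of_nonpos (by norm_num) h2 (by linarith)
    _ ≤ (2 : ℝ) ^ (-1 : ℝ) := Real.rpow_le_rpow_of_exponent_le (by norm_num) (by linarith)
    _ = 1 / 2 := by rw [Real.rpow_neg_one]; norm_num

lemma nrm_prime_sq_le {s : ℝ} (hs : 1 < s) (v : HeightOneSpectrum (𝓞 K)) :
    nrm K s v.asIdeal ^ 2 ≤ nrm K 2 v.asIdeal := by
  have h2 : (2 : ℝ) ≤ (Ideal.absNorm v.asIdeal : ℝ) := by exact_mod_cast two_le_absNorm_prime v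
  unfold nrm
  rw [← Real.rpow_natCast, ← Real.rpow_mul (by linarith)]
  exact Real.rpow_le_rpow_of_exponent_le (by linarith) (by push_cast; linarith)

omit [NumberField K] in
lemma primeNZ_injective : Function.Injective (primeNZ : HeightOneSpectrum (𝓞 K) → (Ideal (𝓞 K))⁰) := by
  intro v w h
  have : v.asIdeal = w.asIdeal := congrArg (fun I : (Ideal (𝓞 K))⁰ => (I : Ideal (𝓞 K))) h
  exact HeightOneSpectrum.ext this

lemma summable_nrm_prime (hZ : SummableNrm K) {s : ℝ} (hs : 1 < s) :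
    Summable fun v : HeightOneSpectrum (𝓞 K) => nrm K s v.asIdeal := by
  have h := hZ s hs
  have h2 := Summable.comp_injective h (primeNZ_injective (K := K))
  exact h2

/-! ### elementary inequalities -/

lemma exp_le_one_sub_inv {x : ℝ} (hx : x < 1) : Real.exp x ≤ (1 - x)⁻¹ := by
  have h1 : 0 < 1 - x := by linarith
  rw [le_inv_comm₀ (Real.exp_pos _) h1, ← Real.exp_neg]
  exact Real.one_sub_le_exp_neg x

lemma one_sub_inv_le_exp {x : ℝ} (hx0 : 0 ≤ x) (hx : x ≤ 1 / 2) :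
    (1 - x)⁻¹ ≤ Real.exp (x + 2 * x ^ 2) := by
  have h1 : 0 < 1 - x := by linarith
  have h2 : (1 - x)⁻¹ = x / (1 - x) + 1 := by field_simp; ring
  have h3 : x / (1 - x) ≤ x + 2 * x ^ 2 := by
    rw [div_le_iff₀ h1]
    nlinarith [mul_nonneg hx0 hx0, mul_nonneg (mul_nonneg hx0 hx0) (by linarith : 0 ≤ 1 / 2 - x)]
  calc (1 - x)⁻¹ = x / (1 - x) + 1 := h2
    _ ≤ Real.exp (x / (1 - x)) := Real.add_one_le_exp _
    _ ≤ Real.exp (x + 2 * x ^ 2) := Real.exp_le_exp.mpr h3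

lemma exp_le_norm_one_sub_inv {z : ℂ} (hz : ‖z‖ < 1) :
    Real.exp (z.re - ‖z‖ ^ 2) ≤ ‖(1 - z)⁻¹‖ := by
  have hne : 1 - z ≠ 0 := by
    intro h
    have : z = 1 := by linear_combination -h
    rw [this] at hz; simp at hz
  have hpos : 0 < ‖1 - z‖ := norm_pos_iff.mpr hne
  rw [norm_inv, le_inv_comm₀ (Real.exp_pos _) hpos, ← Real.exp_neg]
  have hsq : ‖1 - z‖ ^ 2 = 1 - 2 * z.re + ‖z‖ ^ 2 := by
    rw [← Complex.normSq_eq_norm_sq, ← Complex.normSq_eq_norm_sq, Complex.normSq_apply,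
      Complex.normSq_apply]
    simp; ring
  have h1 : ‖1 - z‖ ^ 2 ≤ Real.exp (-(z.re - ‖z‖ ^ 2)) ^ 2 := by
    rw [← Real.exp_nat_mul, hsq]
    have := Real.add_one_le_exp (-2 * z.re + ‖z‖ ^ 2)
    have h2 : Real.exp (-2 * z.re + ‖z‖ ^ 2) ≤ Real.exp (((2 : ℕ) : ℝ) * -(z.re - ‖z‖ ^ 2)) := by
      apply Real.exp_le_exp.mpr
      push_cast
      nlinarith [sq_nonneg ‖z‖]
    linarith
  exact le_of_sq_le_sq h1 (Real.exp_pos _).le

/-! ### the multiplicative functions -/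

/-- The monoid hom `I ↦ χ(I) N(I)^(-s)`. -/
noncomputable def charHom (χ : ClassGroup (𝓞 K) →* ℂˣ) (s : ℝ) : (Ideal (𝓞 K))⁰ →* ℂ where
  toFun I := ((χ (ClassGroup.mk0 I) : ℂˣ) : ℂ) * ((nrm K s (I : Ideal (𝓞 K)) : ℝ) : ℂ)
  map_one' := by
    have h : nrm K s (((1 : (Ideal (𝓞 K))⁰) : Ideal (𝓞 K))) = 1 := nrm_one s
    rw [h]; simp
  map_mul' I J := by
    simp only [map_mul, Units.val_mul, Submonoid.coe_mul, nrm_mul, Complex.ofReal_mul]
    ring

lemma charHom_apply (χ : ClassGroup (𝓞 K) →* ℂˣ) (s : ℝ) (I : (Ideal (𝓞 K))⁰) :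
    charHom χ s I = ((χ (ClassGroup.mk0 I) : ℂˣ) : ℂ) * ((nrm K s (I : Ideal (𝓞 K)) : ℝ) : ℂ) := rfl

lemma LChar_eq_tsum_charHom (χ : ClassGroup (𝓞 K) →* ℂˣ) (s : ℝ) :
    LChar χ s = ∑' I, charHom χ s I := rfl

lemma norm_charHom {χ : ClassGroup (𝓞 K) →* ℂˣ} (hχ : ∀ c, ‖((χ c : ℂˣ) : ℂ)‖ = 1) (s : ℝ)
    (I : (Ideal (𝓞 K))⁰) : ‖charHom χ s I‖ = nrm K s (I : Ideal (𝓞 K)) := by
  rw [charHom_apply, norm_mul, hχ, one_mul, Complex.norm_real, Real.norm_eq_abs,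
    abs_of_nonneg (nrm_nonneg _ _)]

lemma re_charHom (χ : ClassGroup (𝓞 K) →* ℂˣ) (s : ℝ) (I : (Ideal (𝓞 K))⁰) :
    (charHom χ s I).re = ((χ (ClassGroup.mk0 I) : ℂˣ) : ℂ).re * nrm K s (I : Ideal (𝓞 K)) := by
  rw [charHom_apply, Complex.re_mul_ofReal]

/-- consequence 1: lower bound for `‖L‖`. -/
theorem exp_primeSum_le_norm_LChar_of (hZ : SummableNrm K) (hE : EulerProd K) :
    ∃ C : ℝ, ∀ (χ : ClassGroup (𝓞 K) →* ℂˣ), (∀ c, ‖((χ c : ℂˣ) : ℂ)‖ = 1) →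
    ∀ s : ℝ, 1 < s → s ≤ 2 →
    Real.exp ((∑' v : HeightOneSpectrum (𝓞 K),
      (((χ (ClassGroup.mk0 (primeNZ v)) : ℂˣ) : ℂ)).re * nrm K s v.asIdeal) - C) ≤ ‖LChar χ s‖ := by
  refine ⟨∑' v : HeightOneSpectrum (𝓞 K), nrm K 2 v.asIdeal, fun χ hχ s hs _ => ?_⟩
  set C := ∑' v : HeightOneSpectrum (𝓞 K), nrm K 2 v.asIdeal with hC
  have hsum2 := summable_nrm_prime hZ (K := K) (s := 2) (by norm_num)
  have hsums := summable_nrm_prime hZ (K := K) hs
  have hf : Summable fun I => ‖charHom χ s I‖ := by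
    simp only [norm_charHom hχ]
    exact hZ s hs
  have hT := (hE (charHom χ s) hf).norm
  rw [← LChar_eq_tsum_charHom] at hT
  -- summability of the real parts
  have hre : Summable fun v : HeightOneSpectrum (𝓞 K) =>
      (((χ (ClassGroup.mk0 (primeNZ v)) : ℂˣ) : ℂ)).re * nrm K s v.asIdeal := by
    refine Summable.of_norm_bounded hsums (fun v => ?_)
    rw [norm_mul, Real.norm_eq_abs, Real.norm_eq_abs, abs_of_nonneg (nrm_nonneg _ _)]
    have h1 : |(((χ (ClassGroup.mk0 (primeNZ v)) : ℂˣ) : ℂ)).re| ≤ 1 := by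
      rw [← hχ (ClassGroup.mk0 (primeNZ v))]
      exact Complex.abs_re_le_norm _
    nlinarith [nrm_nonneg (K := K) s v.asIdeal]
  have hS : Tendsto (fun T : Finset (HeightOneSpectrum (𝓞 K)) =>
      Real.exp ((∑ v ∈ T, (((χ (ClassGroup.mk0 (primeNZ v)) : ℂˣ) : ℂ)).re * nrm K s v.asIdeal) - C))
      atTop (𝓝 (Real.exp ((∑' v : HeightOneSpectrum (𝓞 K),
      (((χ (ClassGroup.mk0 (primeNZ v)) : ℂˣ) : ℂ)).re * nrm K s v.asIdeal) - C))) :=
    (Real.continuous_exp.tendsto _).comp (hre.hasSum.sub_const C)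
  refine le_of_tendsto_of_tendsto' hS hT (fun T => ?_)
  rw [norm_prod]
  have h1 : ∑ v ∈ T, nrm K s v.asIdeal ^ 2 ≤ C :=
    (Finset.sum_le_sum fun v _ => nrm_prime_sq_le hs v).trans
      (hsum2.sum_le_tsum T fun v _ => nrm_nonneg _ _)
  calc Real.exp ((∑ v ∈ T, (((χ (ClassGroup.mk0 (primeNZ v)) : ℂˣ) : ℂ)).re * nrm K s v.asIdeal) - C)
      ≤ Real.exp (∑ v ∈ T, ((((χ (ClassGroup.mk0 (primeNZ v)) : ℂˣ) : ℂ)).re * nrm K s v.asIdeal
          - nrm K s v.asIdeal ^ 2)) := by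
        apply Real.exp_le_exp.mpr
        rw [Finset.sum_sub_distrib]
        linarith
    _ = ∏ v ∈ T, Real.exp ((((χ (ClassGroup.mk0 (primeNZ v)) : ℂˣ) : ℂ)).re * nrm K s v.asIdeal
          - nrm K s v.asIdeal ^ 2) := Real.exp_sum _ _
    _ ≤ ∏ v ∈ T, ‖(1 - charHom χ s (primeNZ v))⁻¹‖ := by
        refine Finset.prod_le_prod (fun v _ => (Real.exp_pos _).le) (fun v _ => ?_)
        have hn : ‖charHom χ s (primeNZ v)‖ = nrm K s v.asIdeal := norm_charHom hχ s (primeNZ v)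
        have hlt : ‖charHom χ s (primeNZ v)‖ < 1 := by
          rw [hn]; linarith [nrm_prime_le_half hs v]
        have := exp_le_norm_one_sub_inv hlt
        rwa [hn, re_charHom] at this

/-- the real Euler product of the zeta function. -/
lemma real_eulerProduct (hZ : SummableNrm K) (hE : EulerProd K) {s : ℝ} (hs : 1 < s) :
    Tendsto (fun T : Finset (HeightOneSpectrum (𝓞 K)) => ∏ v ∈ T, (1 - nrm K s v.asIdeal)⁻¹) atTop
      (𝓝 (idealZeta K s)) := by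
  have hχ : ∀ c, ‖(((1 : ClassGroup (𝓞 K) →* ℂˣ) c : ℂˣ) : ℂ)‖ = 1 := fun c => by simp
  have hf : Summable fun I => ‖charHom (1 : ClassGroup (𝓞 K) →* ℂˣ) s I‖ := by
    simp only [norm_charHom hχ]
    exact hZ s hs
  have hT := (Complex.continuous_re.tendsto _).comp (hE (charHom 1 s) hf)
  have h1 : (∑' I, charHom (1 : ClassGroup (𝓞 K) →* ℂˣ) s I).re = idealZeta K s := by
    have : ∀ I, charHom (1 : ClassGroup (𝓞 K) →* ℂˣ) s I = ((nrm K s (I : Ideal (𝓞 K)) : ℝ) : ℂ) :=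
      fun I => by simp [charHom_apply]
    simp only [this]
    rw [← Complex.ofReal_tsum, Complex.ofReal_re]
    rfl
  rw [h1] at hT
  refine hT.congr (fun T => ?_)
  have : ∀ v, (1 - charHom (1 : ClassGroup (𝓞 K) →* ℂˣ) s (primeNZ v))⁻¹
      = (((1 - nrm K s v.asIdeal)⁻¹ : ℝ) : ℂ) := fun v => by
    simp [charHom_apply]
  simp only [Function.comp, this]
  rw [← Complex.ofReal_prod, Complex.ofReal_re]

lemma exp_tsum_le_idealZeta (hZ : SummableNrm K) (hE : EulerProd K) {s : ℝ} (hs : 1 < s) :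
    Real.exp (∑' v : HeightOneSpectrum (𝓞 K), nrm K s v.asIdeal) ≤ idealZeta K s := by
  have hsums := summable_nrm_prime hZ (K := K) hs
  have hS : Tendsto (fun T : Finset (HeightOneSpectrum (𝓞 K)) =>
      Real.exp (∑ v ∈ T, nrm K s v.asIdeal)) atTop
      (𝓝 (Real.exp (∑' v : HeightOneSpectrum (𝓞 K), nrm K s v.asIdeal))) :=
    (Real.continuous_exp.tendsto _).comp hsums.hasSum
  refine le_of_tendsto_of_tendsto' hS (real_eulerProduct hZ hE hs) (fun T => ?_)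
  rw [Real.exp_sum]
  refine Finset.prod_le_prod (fun v _ => (Real.exp_pos _).le) (fun v _ => ?_)
  exact exp_le_one_sub_inv (by linarith [nrm_prime_le_half hs v])

lemma idealZeta_pos_of (hZ : SummableNrm K) (hE : EulerProd K) {s : ℝ} (hs : 1 < s) :
    0 < idealZeta K s :=
  (Real.exp_pos _).trans_le (exp_tsum_le_idealZeta hZ hE hs)

lemma primeSum_univ (s : ℝ) :
    primeSum (Set.univ : Set (HeightOneSpectrum (𝓞 K))) s
      = ∑' v : HeightOneSpectrum (𝓞 K), nrm K s v.asIdeal :=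
  tsum_univ (fun v : HeightOneSpectrum (𝓞 K) => nrm K s v.asIdeal)

/-- consequence 2: `log ζ_K(s) ≤ ∑_𝔭 N𝔭^(-s) + C`. -/
theorem log_idealZeta_le_of (hZ : SummableNrm K) (hE : EulerProd K) :
    ∃ C : ℝ, ∀ s : ℝ, 1 < s → s ≤ 2 →
    Real.log (idealZeta K s) ≤ primeSum (Set.univ : Set (HeightOneSpectrum (𝓞 K))) s + C := by
  refine ⟨2 * ∑' v : HeightOneSpectrum (𝓞 K), nrm K 2 v.asIdeal, fun s hs _ => ?_⟩
  have hsum2 := summable_nrm_prime hZ (K := K) (s := 2) (by norm_num)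
  have hsums := summable_nrm_prime hZ (K := K) hs
  rw [primeSum_univ, Real.log_le_iff_le_exp (idealZeta_pos_of hZ hE hs)]
  refine le_of_tendsto' (real_eulerProduct hZ hE hs) (fun T => ?_)
  have h1 : ∑ v ∈ T, nrm K s v.asIdeal ^ 2 ≤ ∑' v : HeightOneSpectrum (𝓞 K), nrm K 2 v.asIdeal :=
    (Finset.sum_le_sum fun v _ => nrm_prime_sq_le hs v).trans
      (hsum2.sum_le_tsum T fun v _ => nrm_nonneg _ _)
  have h2 : ∑ v ∈ T, nrm K s v.asIdeal ≤ ∑' v : HeightOneSpectrum (𝓞 K), nrm K s v.asIdeal :=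
    hsums.sum_le_tsum T fun v _ => nrm_nonneg _ _
  calc ∏ v ∈ T, (1 - nrm K s v.asIdeal)⁻¹
      ≤ ∏ v ∈ T, Real.exp (nrm K s v.asIdeal + 2 * nrm K s v.asIdeal ^ 2) := by
        refine Finset.prod_le_prod (fun v _ => ?_) (fun v _ => ?_)
        · exact inv_nonneg.mpr (by linarith [nrm_prime_le_half hs v])
        · exact one_sub_inv_le_exp (nrm_nonneg _ _) (nrm_prime_le_half hs v)
    _ = Real.exp (∑ v ∈ T, (nrm K s v.asIdeal + 2 * nrm K s v.asIdeal ^ 2)) := (Real.exp_sum _ _).symm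
    _ ≤ _ := by
        apply Real.exp_le_exp.mpr
        rw [Finset.sum_add_distrib, ← Finset.mul_sum]
        linarith

/-- consequence 3: `∑_{𝔭 ∈ S} N𝔭^(-s) ≤ log ζ_K(s)`. -/
theorem primeSum_le_log_idealZeta_of (hZ : SummableNrm K) (hE : EulerProd K)
    (S : Set (HeightOneSpectrum (𝓞 K))) {s : ℝ} (hs : 1 < s) :
    primeSum S s ≤ Real.log (idealZeta K s) := by
  have hsums := summable_nrm_prime hZ (K := K) hs
  have h1 : primeSum S s ≤ ∑' v : HeightOneSpectrum (𝓞 K), nrm K s v.asIdeal :=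
    Summable.tsum_subtype_le (fun v : HeightOneSpectrum (𝓞 K) => nrm K s v.asIdeal) S
      (fun v => nrm_nonneg _ _) hsums
  refine h1.trans ?_
  rw [Real.le_log_iff_exp_le (idealZeta_pos_of hZ hE hs)]
  exact exp_tsum_le_idealZeta hZ hE hs

end Fermat.Agent.S14.An.EP2
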