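import Fermat.Agent.S14.An.Zeta
import Fermat.Agent.S14.An.EulerProduct
import Fermat.Agent.S14.An.EP2Core

/-!
# S14, analytic block (An-KS): Kummer splitting and the zeta function of `K(η^(1/p))`
-/

set_option autoImplicit false

namespace Fermat.Agent.S14.An

open NumberField IsDedekindDomain Filter Topology Polynomial
open scoped nonZeroDivisors Pointwise

namespace KS

variable {K : Type*} [Field K] [NumberField K]
variable {M : Type*} [Field M] [NumberField M] [Algebra K M] [IsGalois K M]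

/-- a `p`-th root of unity `≠ 1` which is `≡ 1` modulo a prime ideal forces `p` into the ideal -/
lemma natCast_mem_of_sub_one_mem {R : Type*} [CommRing R] [IsDomain R] {p : ℕ} (P : Ideal R)
    {μ : R} (hμ : μ ^ p = 1) (hμ1 : μ ≠ 1) (hmem : μ - 1 ∈ P) : (p : R) ∈ P := by
  have hgeom : ∑ i ∈ Finset.range p, μ ^ i = 0 := by
    have h := mul_geom_sum μ p
    rw [hμ, sub_self] at h
    exact (mul_eq_zero.mp h).resolve_left (sub_ne_zero.mpr hμ1)
  have h2 : (p : R) = - ∑ i ∈ Finset.range p, (μ ^ i - 1) := by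
    rw [Finset.sum_sub_distrib, hgeom]
    simp
  rw [h2]
  refine P.neg_mem (P.sum_mem fun i _ => ?_)
  have : μ - 1 ∣ μ ^ i - 1 := by simpa using sub_dvd_pow_sub_pow μ 1 i
  exact Ideal.mem_of_dvd P this hmem

/-- the decomposition group of a prime over a good `v` is trivial -/
lemma stabilizer_eq_bot {p : ℕ} [Fact p.Prime] {ζ : 𝓞 K} (hζ : IsPrimitiveRoot ζ p)
    (η : 𝓞 K) (y : 𝓞 M) (hy : y ^ p = algebraMap (𝓞 K) (𝓞 M) η)
    (hgen : ∀ τ : Gal(M/K), τ • y = y → τ = 1)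
    (v : Ideal (𝓞 K)) (hvp : (p : 𝓞 K) ∉ v) (hvη : η ∉ v)
    (z : 𝓞 K) (hz : η - z ^ p ∈ v) (P : Ideal (𝓞 M)) [P.IsPrime] [P.LiesOver v] :
    MulAction.stabilizer Gal(M/K) P = ⊥ := by
  have hp0 : 0 < p := (Fact.out : p.Prime).pos
  have hinj : Function.Injective (algebraMap (𝓞 K) (𝓞 M)) :=
    FaithfulSMul.algebraMap_injective _ _
  have hζ' : IsPrimitiveRoot (algebraMap (𝓞 K) (𝓞 M) ζ) p := hζ.map_of_injective hinj
  have hmem : ∀ a : 𝓞 K, algebraMap (𝓞 K) (𝓞 M) a ∈ P ↔ a ∈ v := by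
    intro a
    rw [Ideal.LiesOver.over (p := v) (P := P), Ideal.mem_comap]
  -- some `y - ζ^i z ∈ P`
  have hprod : ∏ μ ∈ nthRootsFinset p (1 : 𝓞 M), (y - μ * algebraMap (𝓞 K) (𝓞 M) z) ∈ P := by
    rw [← hζ'.pow_sub_pow_eq_prod_sub_mul _ _ hp0, hy, ← map_pow, ← map_sub, hmem]
    exact hz
  obtain ⟨μ, hμ, hμP⟩ := (Ideal.IsPrime.prod_mem_iff (hp := inferInstance)).mp hprod
  rw [mem_nthRootsFinset hp0] at hμ
  obtain ⟨i, -, rfl⟩ := hζ'.eq_pow_of_pow_eq_one hμ
  rw [eq_bot_iff]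
  intro τ hτ
  rw [MulAction.mem_stabilizer_iff] at hτ
  rw [Subgroup.mem_bot]
  apply hgen
  by_contra hne
  -- `τ y - ζ^i z ∈ P`
  have h1 : τ • (y - algebraMap (𝓞 K) (𝓞 M) ζ ^ i * algebraMap (𝓞 K) (𝓞 M) z) ∈ P := by
    rw [← hτ]
    exact Ideal.smul_mem_pointwise_smul _ _ _ hμP
  rw [← map_pow, ← map_mul, smul_sub, smul_algebraMap] at h1
  rw [← map_pow, ← map_mul] at hμP
  have h2 : τ • y - y ∈ P := by
    have := P.sub_mem h1 hμP
    simpa using this
  -- `τ y = μ' y`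
  have hy0 : y ≠ 0 := by
    intro h0
    rw [h0, zero_pow hp0.ne'] at hy
    apply hvη
    rw [← hmem, ← hy]
    exact P.zero_mem
  have hτy : (τ • y) ^ p = y ^ p := by
    rw [← smul_pow', hy, smul_algebraMap]
  have hprod2 : ∏ μ ∈ nthRootsFinset p (1 : 𝓞 M), (τ • y - μ * y) = 0 := by
    rw [← hζ'.pow_sub_pow_eq_prod_sub_mul _ _ hp0, hτy, sub_self]
  obtain ⟨μ, hμ, hμy⟩ := Finset.prod_eq_zero_iff.mp hprod2
  rw [mem_nthRootsFinset hp0] at hμ
  have hμ1 : μ ≠ 1 := by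
    rintro rfl
    apply hne
    rw [one_mul] at hμy
    exact sub_eq_zero.mp hμy
  have h3 : (μ - 1) * y ∈ P := by
    have : (μ - 1) * y = τ • y - y := by
      rw [sub_eq_zero.mp hμy]; ring
    rw [this]; exact h2
  rcases (Ideal.IsPrime.mem_or_mem inferInstance h3) with h4 | h4
  · apply hvp
    rw [← hmem, map_natCast]
    exact natCast_mem_of_sub_one_mem P hμ hμ1 h4
  · apply hvη
    rw [← hmem, ← hy]
    exact Ideal.pow_mem_of_mem P h4 p hp0

/-- a good prime splits completely -/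
lemma splits {p : ℕ} [Fact p.Prime] (hdeg : Module.finrank K M = p)
    {ζ : 𝓞 K} (hζ : IsPrimitiveRoot ζ p)
    (η : 𝓞 K) (y : 𝓞 M) (hy : y ^ p = algebraMap (𝓞 K) (𝓞 M) η)
    (hgen : ∀ τ : Gal(M/K), τ • y = y → τ = 1)
    (v : Ideal (𝓞 K)) [v.IsPrime] (hv0 : v ≠ ⊥) (hvp : (p : 𝓞 K) ∉ v) (hvη : η ∉ v)
    (z : 𝓞 K) (hz : η - z ^ p ∈ v) :
    (v.primesOver (𝓞 M)).ncard = p ∧
      ∀ P ∈ v.primesOver (𝓞 M), Ideal.absNorm P = Ideal.absNorm v := by
  have hmax : v.IsMaximal := Ideal.IsPrime.isMaximal inferInstance hv0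
  have hfin : Finite (𝓞 K ⧸ v) := Ideal.finiteQuotientOfFreeOfNeBot v hv0
  have hfin2 : Finite v.ResidueField := inferInstance
  have key : ∀ P ∈ v.primesOver (𝓞 M), Nat.card (Ideal.inertia Gal(M/K) P) = 1 ∧
      P.inertiaDeg (𝓞 K) = 1 := by
    rintro P ⟨hP1, hP2⟩
    have h1 := Ideal.card_stabilizer_eq_card_inertia_mul_finrank (G := Gal(M/K)) v P
    rw [stabilizer_eq_bot hζ η y hy hgen v hvp hvη z hz P, Subgroup.card_bot] at h1
    exact mul_eq_one.mp h1.symm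
  constructor
  · obtain ⟨⟨P, hP⟩⟩ := (inferInstance : Nonempty (v.primesOver (𝓞 M)))
    have hP1 := hP.1
    have hP2 := hP.2
    have h2 := Ideal.ncard_primesOver_mul_card_inertia_mul_finrank (G := Gal(M/K)) v P
    rw [(key P hP).1, (key P hP).2, mul_one, mul_one, IsGalois.card_aut_eq_finrank, hdeg] at h2
    exact h2
  · intro P hP
    have hP1 := hP.1
    have hP2 := hP.2
    have h3 := Ideal.absNorm_pow_inertiaDeg v P
    rw [(key P hP).2, pow_one] at h3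
    exact h3.symm

lemma primeNZ_injective : Function.Injective (primeNZ (K := K)) := by
  intro v w h
  have := congrArg (fun I : (Ideal (𝓞 K))⁰ => (I : Ideal (𝓞 K))) h
  exact HeightOneSpectrum.ext this

lemma summable_nrm_prime {s : ℝ} (hs : 1 < s) :
    Summable fun w : HeightOneSpectrum (𝓞 K) => nrm K s w.asIdeal := by
  have h := (summable_nrm (K := K) hs).comp_injective primeNZ_injective
  simpa only [Function.comp_def, coe_primeNZ] using h

lemma nrm_nonneg (s : ℝ) (I : Ideal (𝓞 K)) : 0 ≤ nrm K s I := by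
  unfold nrm; positivity

lemma nrm_le_one {s : ℝ} (hs : 0 ≤ s) (v : HeightOneSpectrum (𝓞 K)) : nrm K s v.asIdeal ≤ 1 := by
  unfold nrm
  apply Real.rpow_le_one_of_one_le_of_nonpos _ (by linarith)
  have : Ideal.absNorm v.asIdeal ≠ 0 := by
    rw [Ne, Ideal.absNorm_eq_zero_iff]; exact v.ne_bot
  exact_mod_cast Nat.one_le_iff_ne_zero.mpr this

/-- the primes of `M` over `v` -/
def ovr (M : Type*) [Field M] [NumberField M] [Algebra K M] (v : HeightOneSpectrum (𝓞 K)) :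
    Set (HeightOneSpectrum (𝓞 M)) :=
  {w | w.asIdeal ∈ v.asIdeal.primesOver (𝓞 M)}

lemma image_ovr (v : HeightOneSpectrum (𝓞 K)) :
    HeightOneSpectrum.asIdeal '' (ovr M v) = v.asIdeal.primesOver (𝓞 M) := by
  ext P
  constructor
  · rintro ⟨w, hw, rfl⟩; exact hw
  · intro hP
    have hP1 := hP.1
    have hP2 := hP.2
    exact ⟨⟨P, hP.1, Ideal.ne_bot_of_liesOver_of_ne_bot v.ne_bot P⟩, hP, rfl⟩

lemma ncard_ovr (v : HeightOneSpectrum (𝓞 K)) :
    (ovr M v).ncard = (v.asIdeal.primesOver (𝓞 M)).ncard := by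
  rw [← image_ovr, Set.ncard_image_of_injective _ (fun a b h => HeightOneSpectrum.ext h)]

lemma ovr_disjoint {v v' : HeightOneSpectrum (𝓞 K)} (h : v ≠ v') :
    Disjoint (ovr M v) (ovr M v') := by
  rw [Set.disjoint_left]
  intro w hw hw'
  apply h
  apply HeightOneSpectrum.ext
  rw [hw.2.over, hw'.2.over]

lemma primeSum_univ (s : ℝ) :
    primeSum (Set.univ : Set (HeightOneSpectrum (𝓞 K))) s
      = ∑' w : HeightOneSpectrum (𝓞 K), nrm K s w.asIdeal := by
  unfold primeSum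
  exact tsum_univ (fun w : HeightOneSpectrum (𝓞 K) => nrm K s w.asIdeal)

lemma mul_sum_le {p : ℕ} [Fact p.Prime] (hdeg : Module.finrank K M = p)
    {ζ : 𝓞 K} (hζ : IsPrimitiveRoot ζ p)
    (η : 𝓞 K) (y : 𝓞 M) (hy : y ^ p = algebraMap (𝓞 K) (𝓞 M) η)
    (hgen : ∀ τ : Gal(M/K), τ • y = y → τ = 1) {s : ℝ} (hs : 1 < s)
    (T : Finset (HeightOneSpectrum (𝓞 K)))
    (hT : ∀ v ∈ T, (p : 𝓞 K) ∉ v.asIdeal ∧ η ∉ v.asIdeal ∧ ∃ z : 𝓞 K, η - z ^ p ∈ v.asIdeal) :
    (p : ℝ) * ∑ v ∈ T, nrm K s v.asIdeal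
      ≤ primeSum (Set.univ : Set (HeightOneSpectrum (𝓞 M))) s := by
  classical
  have hp0 : p ≠ 0 := (Fact.out : p.Prime).ne_zero
  have hsp : ∀ v ∈ T, (ovr M v).ncard = p ∧
      ∀ w ∈ ovr M v, Ideal.absNorm w.asIdeal = Ideal.absNorm v.asIdeal := by
    intro v hv
    obtain ⟨h1, h2, z, hz⟩ := hT v hv
    have := splits (M := M) hdeg hζ η y hy hgen v.asIdeal v.ne_bot h1 h2 z hz
    exact ⟨by rw [ncard_ovr, this.1], fun w hw => this.2 _ hw⟩
  let F : HeightOneSpectrum (𝓞 K) → Finset (HeightOneSpectrum (𝓞 M)) := fun v =>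
    if h : (ovr M v).Finite then h.toFinset else ∅
  have hF : ∀ v ∈ T, ∀ w, w ∈ F v ↔ w ∈ ovr M v := by
    intro v hv w
    have hfin : (ovr M v).Finite := Set.finite_of_ncard_ne_zero (by rw [(hsp v hv).1]; exact hp0)
    simp only [F, dif_pos hfin, Set.Finite.mem_toFinset]
  have hFcard : ∀ v ∈ T, (F v).card = p := by
    intro v hv
    have hfin : (ovr M v).Finite := Set.finite_of_ncard_ne_zero (by rw [(hsp v hv).1]; exact hp0)
    simp only [F, dif_pos hfin]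
    rw [← Set.ncard_eq_toFinset_card _ hfin, (hsp v hv).1]
  have h1 : ∀ v ∈ T, ∑ w ∈ F v, nrm M s w.asIdeal = (p : ℝ) * nrm K s v.asIdeal := by
    intro v hv
    rw [Finset.sum_congr rfl (g := fun _ => nrm K s v.asIdeal), Finset.sum_const, hFcard v hv,
      nsmul_eq_mul]
    intro w hw
    unfold nrm
    rw [(hsp v hv).2 w ((hF v hv w).mp hw)]
  have hdisj : Set.PairwiseDisjoint (T : Set (HeightOneSpectrum (𝓞 K))) F := by
    intro v hv v' hv' hne
    rw [Function.onFun, Finset.disjoint_left]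
    intro w hw hw'
    exact Set.disjoint_left.mp (ovr_disjoint (M := M) hne) ((hF v hv w).mp hw)
      ((hF v' hv' w).mp hw')
  rw [Finset.mul_sum, ← Finset.sum_congr rfl h1, ← Finset.sum_biUnion hdisj, primeSum_univ]
  exact (summable_nrm_prime hs).sum_le_tsum _ (fun w _ => nrm_nonneg s _)

lemma primeSum_le_of_field {p : ℕ} [Fact p.Prime] (hdeg : Module.finrank K M = p)
    {ζ : 𝓞 K} (hζ : IsPrimitiveRoot ζ p)
    (η : 𝓞 K) (hη0 : η ≠ 0) (y : 𝓞 M) (hy : y ^ p = algebraMap (𝓞 K) (𝓞 M) η)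
    (hgen : ∀ τ : Gal(M/K), τ • y = y → τ = 1) :
    ∃ C : ℝ, ∀ s : ℝ, 1 < s → s ≤ 2 →
      primeSum {v : HeightOneSpectrum (𝓞 K) | ∃ z : 𝓞 K, η - z ^ p ∈ v.asIdeal} s
        ≤ (1 / p : ℝ) * Real.log (1 / (s - 1)) + C := by
  classical
  have hp0 : p ≠ 0 := (Fact.out : p.Prime).ne_zero
  have hpR : (0 : ℝ) < p := by exact_mod_cast Nat.pos_of_ne_zero hp0
  have hne : Ideal.span {(p : 𝓞 K) * η} ≠ 0 := by
    rw [Ne, Ideal.zero_eq_bot, Ideal.span_singleton_eq_bot]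
    exact mul_ne_zero (by exact_mod_cast hp0) hη0
  have hbadfin : {v : HeightOneSpectrum (𝓞 K) | v.asIdeal ∣ Ideal.span {(p : 𝓞 K) * η}}.Finite :=
    Ideal.finite_factors hne
  set bad := hbadfin.toFinset with hbad
  have hgood : ∀ v : HeightOneSpectrum (𝓞 K), v ∉ bad →
      (p : 𝓞 K) ∉ v.asIdeal ∧ η ∉ v.asIdeal := by
    intro v hv
    rw [hbad, Set.Finite.mem_toFinset, Set.mem_ofPred_eq, Ideal.dvd_span_singleton] at hv
    exact ⟨fun h => hv (Ideal.mul_mem_right _ _ h), fun h => hv (Ideal.mul_mem_left _ _ h)⟩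
  obtain ⟨c, C', hc, hC', hb⟩ := idealZeta_bounds M
  refine ⟨bad.card + (1 / p : ℝ) * Real.log C', fun s hs hs2 => ?_⟩
  have hs1 : 0 < s - 1 := by linarith
  have hM : primeSum (Set.univ : Set (HeightOneSpectrum (𝓞 M))) s
      ≤ Real.log C' + Real.log (1 / (s - 1)) := by
    refine (EP2.primeSum_le_log_idealZeta_of (fun s hs => summable_nrm hs)
      (fun f hf => eulerProduct_tendsto f hf) _ hs).trans ?_
    rw [← Real.log_mul hC'.ne' (by positivity), mul_one_div]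
    exact Real.log_le_log (lt_of_lt_of_le (by positivity) (hb s hs hs2).1) (hb s hs hs2).2
  unfold primeSum
  refine ((summable_nrm_prime hs).subtype _).tsum_le_of_sum_le fun T' => ?_
  simp only [Function.comp_def]
  have hsum : ∑ x ∈ T', nrm K s (x : HeightOneSpectrum (𝓞 K)).asIdeal
      = ∑ v ∈ T'.map (Function.Embedding.subtype _), nrm K s v.asIdeal := by
    rw [Finset.sum_map]; rfl
  rw [hsum]
  set T := T'.map (Function.Embedding.subtype _) with hTdef
  have hTmem : ∀ v ∈ T, ∃ z : 𝓞 K, η - z ^ p ∈ v.asIdeal := by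
    intro v hv
    rw [hTdef, Finset.mem_map] at hv
    obtain ⟨w, -, rfl⟩ := hv
    exact w.2
  rw [← Finset.sum_filter_add_sum_filter_not T (fun v => v ∈ bad)]
  have h1 : ∑ v ∈ T with v ∈ bad, nrm K s v.asIdeal ≤ bad.card := by
    calc ∑ v ∈ T with v ∈ bad, nrm K s v.asIdeal ≤ ∑ v ∈ T with v ∈ bad, (1 : ℝ) :=
          Finset.sum_le_sum fun v _ => nrm_le_one (by linarith) v
      _ = ((T.filter (fun v => v ∈ bad)).card : ℝ) := by simp
      _ ≤ bad.card := by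
          exact_mod_cast Finset.card_le_card fun v hv => (Finset.mem_filter.mp hv).2
  have h2 := mul_sum_le (M := M) hdeg hζ η y hy hgen hs (T.filter (fun v => v ∉ bad))
    (fun v hv => by
      obtain ⟨hv1, hv2⟩ := Finset.mem_filter.mp hv
      exact ⟨(hgood v hv2).1, (hgood v hv2).2, hTmem v hv1⟩)
  have h3 : ∑ v ∈ T with v ∉ bad, nrm K s v.asIdeal
      ≤ (1 / p : ℝ) * (Real.log C' + Real.log (1 / (s - 1))) := by
    rw [one_div, ← div_eq_inv_mul, le_div_iff₀ hpR, mul_comm]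
    exact h2.trans hM
  linarith

end KS

variable {K : Type*} [Field K] [NumberField K]

theorem primeSum_residue_le {p : ℕ} [Fact p.Prime] {ζ : K} (hζ : IsPrimitiveRoot ζ p)
    (η : 𝓞 K) (hη : ¬ ∃ x : K, x ^ p = (η : K)) :
    ∃ C : ℝ, ∀ s : ℝ, 1 < s → s ≤ 2 →
      primeSum {v : HeightOneSpectrum (𝓞 K) | ∃ z : 𝓞 K, η - z ^ p ∈ v.asIdeal} s
        ≤ (1 / p : ℝ) * Real.log (1 / (s - 1)) + C := by
  have hpp : p.Prime := Fact.out
  have hp0 : 0 < p := hpp.pos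
  have : NeZero p := ⟨hp0.ne'⟩
  have hη0 : η ≠ 0 := by
    rintro rfl
    exact hη ⟨0, by simp [hp0.ne']⟩
  have hirr : Irreducible (X ^ p - C (η : K)) :=
    X_pow_sub_C_irreducible_of_prime hpp (fun b hb => hη ⟨b, hb⟩)
  have : Fact (Irreducible (X ^ p - C (η : K))) := ⟨hirr⟩
  have hprim : (primitiveRoots p K).Nonempty := ⟨ζ, (mem_primitiveRoots hp0).mpr hζ⟩
  let M := AdjoinRoot (X ^ p - C (η : K))
  have : Polynomial.IsSplittingField K M (X ^ p - C (η : K)) :=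
    isSplittingField_AdjoinRoot_X_pow_sub_C hprim hirr
  have : IsGalois K M := isGalois_of_isSplittingField_X_pow_sub_C hprim hirr M
  have : FiniteDimensional K M :=
    Polynomial.IsSplittingField.finiteDimensional M (X ^ p - C (η : K))
  have : NumberField M := NumberField.of_module_finite K M
  have hdeg : Module.finrank K M = p := finrank_of_isSplittingField_X_pow_sub_C hprim hirr M
  have hroot : (AdjoinRoot.root (X ^ p - C (η : K)) : M) ^ p = algebraMap K M (η : K) := by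
    have h := AdjoinRoot.eval₂_root (X ^ p - C (η : K))
    simp only [eval₂_sub, eval₂_pow, eval₂_X, eval₂_C] at h
    exact sub_eq_zero.mp h
  have hint : IsIntegral ℤ (AdjoinRoot.root (X ^ p - C (η : K)) : M) := by
    refine IsIntegral.of_pow hp0 ?_
    rw [hroot]
    exact (RingOfIntegers.isIntegral_coe η).algebraMap
  let y : 𝓞 M := ⟨AdjoinRoot.root (X ^ p - C (η : K)), hint⟩
  have hy : y ^ p = algebraMap (𝓞 K) (𝓞 M) η := by
    apply RingOfIntegers.ext
    exact hroot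
  have hgen : ∀ τ : Gal(M/K), τ • y = y → τ = 1 := by
    intro τ hτ
    have h1 : τ (AdjoinRoot.root (X ^ p - C (η : K))) = AdjoinRoot.root (X ^ p - C (η : K)) :=
      congrArg (fun x : 𝓞 M => (x : M)) hτ
    have h2 : (τ : M →ₐ[K] M) = AlgHom.id K M := AdjoinRoot.algHom_ext h1
    ext x
    exact congrArg (fun f : M →ₐ[K] M => f x) h2
  exact KS.primeSum_le_of_field (M := M) hdeg hζ.toInteger_isPrimitiveRoot η hη0 y hy hgen

end Fermat.Agent.S14.An
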