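import Fermat.Agent.S14.An.FinalCore
import Fermat.Agent.S14.An.Zeta
import Fermat.Agent.S14.An.EulerCor
import Fermat.Agent.S14.An.Degree
import Fermat.Agent.S14.An.KummerSplit
import Fermat.Agent.S14.An.Kernel

/-!
# S14, analytic block (An-Fin): existence of a prime of degree one, outside the kernel of a class
group character of order `p`, modulo which `η` is not a `p`-th power
-/

set_option autoImplicit false

namespace Fermat.Agent.S14.An

open NumberField IsDedekindDomain Filter Topology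
open scoped nonZeroDivisors

variable {K : Type*} [Field K] [NumberField K]

theorem exists_prime_nonresidue' {p : ℕ} [Fact p.Prime]
    (hp : p ≠ 2) {ζ : K} (hζ : IsPrimitiveRoot ζ p)
    (lam : ClassGroup (𝓞 K) →* Multiplicative (ZMod p)) (hlam : lam ≠ 1)
    (η : 𝓞 K) (hη : ¬ ∃ x : K, x ^ p = (η : K)) :
    ∃ v : HeightOneSpectrum (𝓞 K), (Ideal.absNorm v.asIdeal).Prime ∧ Ideal.absNorm v.asIdeal ≠ p ∧
      lam (ClassGroup.mk0 (primeNZ v)) ≠ 1 ∧ ¬ ∃ z : 𝓞 K, η - z ^ p ∈ v.asIdeal :=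
  exists_prime_nonresidue_core hp lam η (fun _ hs => summable_nrm hs) (idealZeta_bounds K)
    (log_idealZeta_le K) (primeSum_not_prime_norm_le K) (primeSum_residue_le hζ η hη)
    (primeSum_ker_le lam hlam)

end Fermat.Agent.S14.An

namespace Fermat.Agent.S14

open NumberField IsDedekindDomain
open scoped nonZeroDivisors

theorem exists_prime_nonresidue {K : Type*} [Field K] [NumberField K] {p : ℕ} [Fact p.Prime]
    (hp : p ≠ 2) {ζ : K} (hζ : IsPrimitiveRoot ζ p)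
    (lam : ClassGroup (𝓞 K) →* Multiplicative (ZMod p)) (hlam : lam ≠ 1)
    (η : 𝓞 K) (hη : ¬ ∃ x : K, x ^ p = (η : K)) :
    ∃ 𝔯 : (Ideal (𝓞 K))⁰, (𝔯 : Ideal (𝓞 K)).IsPrime ∧
      (Ideal.absNorm (𝔯 : Ideal (𝓞 K))).Prime ∧ Ideal.absNorm (𝔯 : Ideal (𝓞 K)) ≠ p ∧
      lam (ClassGroup.mk0 𝔯) ≠ 1 ∧ ¬ ∃ z : 𝓞 K, η - z ^ p ∈ (𝔯 : Ideal (𝓞 K)) := by
  obtain ⟨v, h1, h2, h3, h4⟩ := An.exists_prime_nonresidue' hp hζ lam hlam η hη
  exact ⟨An.primeNZ v, v.isPrime, h1, h2, h3, h4⟩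

end Fermat.Agent.S14
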