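import Fermat.Agent.S14.An.D2Defs

/-!
# S14, block (An-D2-a): good coordinates from Dirichlet's unit theorem

The vectors `u_j = (log w(ε_j))_w` (`ε_j` the fundamental system of units) together with
`𝟙 = (1,...,1)` form a basis of `ℝ^Pl`; the coefficients are those of the dual basis.
-/

set_option autoImplicit false

namespace Fermat.Agent.S14.An

open NumberField IsDedekindDomain Module NumberField.InfinitePlace NumberField.Units
open scoped nonZeroDivisors

variable {K : Type*} [Field K] [NumberField K]

/-- the vector of logarithms of the absolute values -/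
noncomputable def logVec (x : K) : InfinitePlace K → ℝ := fun w => Real.log (w x)

variable (K) in
/-- the functional `y ↦ ∑ mult(w) y_w` -/
noncomputable def multFun : (InfinitePlace K → ℝ) →ₗ[ℝ] ℝ :=
  ∑ w : InfinitePlace K, (mult w : ℝ) • LinearMap.proj w

theorem multFun_apply (y : InfinitePlace K → ℝ) :
    multFun K y = ∑ w : InfinitePlace K, (mult w : ℝ) * y w := by
  simp [multFun, LinearMap.sum_apply]

theorem multFun_logVec_unit (u : (𝓞 K)ˣ) : multFun K (logVec ((u : 𝓞 K) : K)) = 0 := by
  rw [multFun_apply]
  exact sum_mult_mul_log u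

theorem multFun_one : multFun K (fun _ => 1) = (finrank ℚ K : ℝ) := by
  rw [multFun_apply]
  simp only [mul_one]
  exact_mod_cast sum_mult_eq (K := K)

theorem multFun_logVec {x : K} (hx : x ≠ 0) :
    multFun K (logVec x) = Real.log (abs (Algebra.norm ℚ x : ℝ)) := by
  rw [multFun_apply, ← Rat.cast_abs, ← prod_eq_abs_norm x, Real.log_prod]
  · apply Finset.sum_congr rfl
    intro w _
    rw [Real.log_pow, logVec]
  · intro w _
    exact pow_ne_zero _ ((map_ne_zero w).2 hx)

/-- the family `u_j`. -/
noncomputable def unitVec (j : Fin (Units.rank K)) : InfinitePlace K → ℝ :=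
  logVec (((fundSystem K j : (𝓞 K)ˣ) : 𝓞 K) : K)

theorem linearIndependent_unitVec : LinearIndependent ℝ (unitVec (K := K)) := by
  classical
  let R : (InfinitePlace K → ℝ) →ₗ[ℝ] dirichletUnitTheorem.logSpace K :=
    LinearMap.pi fun w => (mult w.1 : ℝ) • LinearMap.proj w.1
  apply LinearIndependent.of_comp R
  have h : R ∘ unitVec (K := K) = ((basisUnitLattice K).ofZLatticeBasis ℝ (unitLattice K)) := by
    funext j
    rw [Basis.ofZLatticeBasis_apply, ← logEmbedding_fundSystem]
    funext w
    simp [R, unitVec, logVec]
  rw [h]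
  exact Basis.linearIndependent _

/-- the extended family `𝟙, u_j`. -/
noncomputable def extVec : Option (Fin (Units.rank K)) → InfinitePlace K → ℝ :=
  fun o => Option.casesOn' o (fun _ => 1) (unitVec (K := K))

theorem linearIndependent_extVec : LinearIndependent ℝ (extVec (K := K)) := by
  apply LinearIndependent.option linearIndependent_unitVec
  intro h
  have hle : Submodule.span ℝ (Set.range (unitVec (K := K))) ≤ LinearMap.ker (multFun K) := by
    rw [Submodule.span_le]
    rintro _ ⟨j, rfl⟩
    exact multFun_logVec_unit _
  have h1 : multFun K (fun _ => 1) = 0 := hle h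
  rw [multFun_one] at h1
  have : (0 : ℝ) < (finrank ℚ K : ℝ) := by exact_mod_cast finrank_pos
  exact this.ne' h1

theorem card_option_rank :
    Fintype.card (Option (Fin (Units.rank K))) = finrank ℝ (InfinitePlace K → ℝ) := by
  rw [Fintype.card_option, Fintype.card_fin, Module.finrank_fintype_fun_eq_card, Units.rank]
  have : 0 < Fintype.card (InfinitePlace K) := Fintype.card_pos
  omega

variable (K) in
/-- the basis `𝟙, u_j` of `ℝ^Pl`. -/
noncomputable def extBasis : Basis (Option (Fin (Units.rank K))) ℝ (InfinitePlace K → ℝ) :=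
  basisOfLinearIndependentOfCardEqFinrank linearIndependent_extVec card_option_rank

theorem extBasis_some (j : Fin (Units.rank K)) : extBasis K (some j) = unitVec j := by
  simp [extBasis, extVec]

theorem extBasis_none : extBasis K none = fun _ => 1 := by
  simp [extBasis, extVec]

variable (K) in
/-- the good coefficients -/
noncomputable def goodCoef : Coef K := by
  classical
  exact fun i w => (extBasis K).coord (some i) (fun j => if w = j then 1 else 0)

theorem ell_goodCoef (i : Fin (Units.rank K)) (x : K) :
    ell (goodCoef K) i x = (extBasis K).coord (some i) (logVec x) := by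
  classical
  rw [LinearMap.pi_apply_eq_sum_univ ((extBasis K).coord (some i)) (logVec x), ell]
  apply Finset.sum_congr rfl
  intro w _
  rw [smul_eq_mul, mul_comm]
  rfl

theorem isDualCoef_goodCoef : IsDualCoef (goodCoef K) := by
  intro i j
  rw [ell_goodCoef]
  change (extBasis K).coord (some i) (unitVec j) = _
  rw [← extBasis_some, Basis.coord_apply, Basis.repr_self, Finsupp.single_apply]
  simp [eq_comm]

theorem logVec_eq (x : K) (hx : x ≠ 0) (w : InfinitePlace K) :
    Real.log (w x) - (1 / (finrank ℚ K : ℝ)) * Real.log (abs (Algebra.norm ℚ x : ℝ))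
      = ∑ i, ell (goodCoef K) i x * unitVec i w := by
  have hn : (0 : ℝ) < (finrank ℚ K : ℝ) := by exact_mod_cast finrank_pos
  have h1 : logVec x = ∑ i, ell (goodCoef K) i x • unitVec i
      + (extBasis K).coord none (logVec x) • (fun _ => (1 : ℝ)) := by
    conv_lhs => rw [← (extBasis K).sum_repr (logVec x)]
    rw [Fintype.sum_option, add_comm]
    congr 1
    · apply Finset.sum_congr rfl
      intro i _
      rw [ell_goodCoef, extBasis_some, Basis.coord_apply]
    · rw [extBasis_none, Basis.coord_apply]
  have h2 : multFun K (logVec x) = (extBasis K).coord none (logVec x) * (finrank ℚ K : ℝ) := by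
    conv_lhs => rw [h1]
    rw [map_add, map_sum, map_smul, multFun_one, smul_eq_mul]
    rw [Finset.sum_eq_zero, zero_add]
    intro i _
    rw [map_smul, unitVec, multFun_logVec_unit, smul_zero]
  rw [multFun_logVec hx] at h2
  have h3 := congrFun h1 w
  rw [h2]
  simp only [Pi.add_apply, Finset.sum_apply, Pi.smul_apply, smul_eq_mul, mul_one] at h3
  change Real.log (w x) = _ at h3
  rw [h3]
  field_simp
  ring

variable (K) in
/-- (D2-a) good coordinates exist (Dirichlet's unit theorem). -/
theorem exists_coef : ∃ (c : Coef K) (B : ℝ), IsDualCoef c ∧ IsBalanced c B := by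
  refine ⟨goodCoef K, ∑ w : InfinitePlace K, ∑ i, |unitVec i w|, isDualCoef_goodCoef, ?_⟩
  intro x hx hell w
  rw [logVec_eq x hx w]
  calc |∑ i, ell (goodCoef K) i x * unitVec i w|
      ≤ ∑ i, |ell (goodCoef K) i x * unitVec i w| := Finset.abs_sum_le_sum_abs _ _
    _ ≤ ∑ i, |unitVec i w| := by
        apply Finset.sum_le_sum
        intro i _
        rw [abs_mul]
        calc |ell (goodCoef K) i x| * |unitVec i w| ≤ 1 * |unitVec i w| :=
              mul_le_mul_of_nonneg_right (hell i) (abs_nonneg _)
          _ = |unitVec i w| := one_mul _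
    _ ≤ ∑ w : InfinitePlace K, ∑ i, |unitVec i w| :=
        Finset.single_le_sum (f := fun w : InfinitePlace K => ∑ i, |unitVec i w|)
          (fun _ _ => Finset.sum_nonneg fun _ _ => abs_nonneg _) (Finset.mem_univ w)

end Fermat.Agent.S14.An
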