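import Fermat.Agent.S14.An.Defs

/-!
# S14, block (An-D2): definitions

Idea: `ζ(s, [J]⁻¹) = N(J)^s / w_K * T(J,s)`, `T(J,s) = ∑_{β ∈ J} F_s(β)`,
`F_s(β) = |N β|^(-s) * wt(β)` where `wt` is a Lipschitz partition of unity for the action of the
units (`∑_{u ∈ 𝓞ˣ} wt(u β) = w_K`).
-/

set_option autoImplicit false

namespace Fermat.Agent.S14.An

open NumberField IsDedekindDomain Module
open scoped nonZeroDivisors

variable (K : Type*) [Field K] [NumberField K]

/-- the tent function -/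
noncomputable def tent (u : ℝ) : ℝ := max 0 (1 - |u|)

/-- coordinates: a family of real coefficients -/
abbrev Coef : Type _ := Fin (Units.rank K) → InfinitePlace K → ℝ

variable {K}

/-- `ℓ_i(x) = ∑_w c_{i,w} log |x|_w` -/
noncomputable def ell (c : Coef K) (i : Fin (Units.rank K)) (x : K) : ℝ :=
  ∑ w : InfinitePlace K, c i w * Real.log (w x)

/-- the weight -/
noncomputable def wt (c : Coef K) (x : K) : ℝ := ∏ i, tent (ell c i x)

/-- `F_s(x) = |N x|^(-s) wt(x)`  (it is `0` at `x = 0` for `s ≠ 0` by `Real.zero_rpow`) -/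
noncomputable def Fs (c : Coef K) (s : ℝ) (x : K) : ℝ :=
  |(Algebra.norm ℚ x : ℝ)| ^ (-s) * wt c x

/-- `T(J,s)` -/
noncomputable def Tsum (c : Coef K) (J : Ideal (𝓞 K)) (s : ℝ) : ℝ :=
  ∑' β : J, Fs c s ((β : 𝓞 K) : K)

/-- the coefficients are dual to the fundamental system of units -/
def IsDualCoef (c : Coef K) : Prop :=
  ∀ i j, ell c i ((Units.fundSystem K j : (𝓞 K)ˣ) : 𝓞 K) = if i = j then 1 else 0

/-- on the support of the weight all absolute values are comparable -/
def IsBalanced (c : Coef K) (B : ℝ) : Prop :=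
  ∀ x : K, x ≠ 0 → (∀ i, |ell c i x| ≤ 1) → ∀ w : InfinitePlace K,
    |Real.log (w x) - (1 / (finrank ℚ K : ℝ)) * Real.log (abs (Algebra.norm ℚ x : ℝ))| ≤ B

end Fermat.Agent.S14.An
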