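import Mathlib

/-!
# S14, analytic block (An): definitions
-/

set_option autoImplicit false

namespace Fermat.Agent.S14.An

open NumberField IsDedekindDomain
open scoped nonZeroDivisors

variable (K : Type*) [Field K] [NumberField K]

/-- `N(I)^(-s)` as a real number. -/
noncomputable def nrm (s : ℝ) (I : Ideal (𝓞 K)) : ℝ := (Ideal.absNorm I : ℝ) ^ (-s)

/-- The Dedekind zeta function for real `s`, as a sum over nonzero ideals. -/
noncomputable def idealZeta (s : ℝ) : ℝ := ∑' I : (Ideal (𝓞 K))⁰, nrm K s (I : Ideal (𝓞 K))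

/-- The partial zeta function of an ideal class. -/
noncomputable def partialZeta (C : ClassGroup (𝓞 K)) (s : ℝ) : ℝ :=
  ∑' I : {I : (Ideal (𝓞 K))⁰ // ClassGroup.mk0 I = C}, nrm K s ((I : (Ideal (𝓞 K))⁰) : Ideal (𝓞 K))

variable {K}

/-- The `L`-series of a class group character, for real `s`. -/
noncomputable def LChar (χ : ClassGroup (𝓞 K) →* ℂˣ) (s : ℝ) : ℂ :=
  ∑' I : (Ideal (𝓞 K))⁰, ((χ (ClassGroup.mk0 I) : ℂˣ) : ℂ) * ((nrm K s (I : Ideal (𝓞 K)) : ℝ) : ℂ)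

/-- A maximal ideal as an element of `(Ideal (𝓞 K))⁰`. -/
def primeNZ (v : HeightOneSpectrum (𝓞 K)) : (Ideal (𝓞 K))⁰ :=
  ⟨v.asIdeal, mem_nonZeroDivisors_of_ne_zero v.ne_bot⟩

@[simp] lemma coe_primeNZ (v : HeightOneSpectrum (𝓞 K)) :
    ((primeNZ v : (Ideal (𝓞 K))⁰) : Ideal (𝓞 K)) = v.asIdeal := rfl

/-- `∑_{𝔭 ∈ S} N𝔭^(-s)`. -/
noncomputable def primeSum (S : Set (HeightOneSpectrum (𝓞 K))) (s : ℝ) : ℝ :=
  ∑' v : S, nrm K s (v : HeightOneSpectrum (𝓞 K)).asIdeal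

end Fermat.Agent.S14.An
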