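import Fermat.Agent.S14.An.Defs

/-!
# S14, analytic block (An-Fin): the final counting argument, with the analytic inputs as hypotheses

`exists_prime_nonresidue_core` is the statement `exists_prime_nonresidue'` of the blueprint where all
the other (An-*) results are hypotheses; `Fermat/Agent/S14/An/Final.lean` plugs them in.
-/

set_option autoImplicit false

namespace Fermat.Agent.S14.An

open NumberField IsDedekindDomain Filter Topology
open scoped nonZeroDivisors

variable {K : Type*} [Field K] [NumberField K]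

omit [NumberField K] in
theorem fin_primeNZ_injective : Function.Injective (primeNZ : HeightOneSpectrum (𝓞 K) → (Ideal (𝓞 K))⁰) := by
  intro v w h
  have h1 : v.asIdeal = w.asIdeal := congrArg (fun I : (Ideal (𝓞 K))⁰ => (I : Ideal (𝓞 K))) h
  exact HeightOneSpectrum.ext h1

theorem fin_nrm_nonneg (s : ℝ) (I : Ideal (𝓞 K)) : 0 ≤ nrm K s I :=
  Real.rpow_nonneg (Nat.cast_nonneg _) _

theorem fin_summable_nrm_prime {s : ℝ}
    (hsum : Summable fun I : (Ideal (𝓞 K))⁰ => nrm K s (I : Ideal (𝓞 K))) :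
    Summable fun v : HeightOneSpectrum (𝓞 K) => nrm K s v.asIdeal := by
  have h := Summable.comp_injective hsum (fin_primeNZ_injective (K := K))
  simpa only [Function.comp_def, coe_primeNZ] using h

theorem fin_primeSum_eq_tsum_indicator (S : Set (HeightOneSpectrum (𝓞 K))) (s : ℝ) :
    primeSum S s = ∑' v, S.indicator (fun v : HeightOneSpectrum (𝓞 K) => nrm K s v.asIdeal) v := by
  unfold primeSum
  exact tsum_subtype S (fun v : HeightOneSpectrum (𝓞 K) => nrm K s v.asIdeal)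

/-- `primeSum` is subadditive on covers by three sets. -/
theorem fin_primeSum_univ_le_of_cover {s : ℝ}
    (hsum : Summable fun I : (Ideal (𝓞 K))⁰ => nrm K s (I : Ideal (𝓞 K)))
    (A B C : Set (HeightOneSpectrum (𝓞 K))) (h : ∀ v, v ∈ A ∨ v ∈ B ∨ v ∈ C) :
    primeSum (Set.univ : Set (HeightOneSpectrum (𝓞 K))) s
      ≤ primeSum A s + primeSum B s + primeSum C s := by
  have hs := fin_summable_nrm_prime hsum
  simp only [fin_primeSum_eq_tsum_indicator]
  rw [← (hs.indicator A).tsum_add (hs.indicator B),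
    ← ((hs.indicator A).add (hs.indicator B)).tsum_add (hs.indicator C)]
  refine (hs.indicator _).tsum_le_tsum (fun v => ?_)
    (((hs.indicator A).add (hs.indicator B)).add (hs.indicator C))
  have hA := Set.indicator_nonneg (s := A) (f := fun v : HeightOneSpectrum (𝓞 K) => nrm K s v.asIdeal)
    (fun v _ => fin_nrm_nonneg s v.asIdeal) v
  have hB := Set.indicator_nonneg (s := B) (f := fun v : HeightOneSpectrum (𝓞 K) => nrm K s v.asIdeal)
    (fun v _ => fin_nrm_nonneg s v.asIdeal) v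
  have hC := Set.indicator_nonneg (s := C) (f := fun v : HeightOneSpectrum (𝓞 K) => nrm K s v.asIdeal)
    (fun v _ => fin_nrm_nonneg s v.asIdeal) v
  rw [Set.indicator_of_mem (Set.mem_univ v)]
  rcases h v with h | h | h
  · rw [Set.indicator_of_mem h] at hA ⊢
    linarith
  · rw [Set.indicator_of_mem h] at hB ⊢
    linarith
  · rw [Set.indicator_of_mem h] at hC ⊢
    linarith

/-- If `N(v) = p` then every element is a `p`-th power modulo `v`. -/
theorem fin_sub_pow_mem_of_absNorm_eq {p : ℕ} (v : HeightOneSpectrum (𝓞 K))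
    (hv : Ideal.absNorm v.asIdeal = p) (η : 𝓞 K) : η - η ^ p ∈ v.asIdeal := by
  have := v.isMaximal
  let _ : Field (𝓞 K ⧸ v.asIdeal) := Ideal.Quotient.field v.asIdeal
  have : Finite (𝓞 K ⧸ v.asIdeal) := Ideal.finiteQuotientOfFreeOfNeBot v.asIdeal v.ne_bot
  let _ : Fintype (𝓞 K ⧸ v.asIdeal) := Fintype.ofFinite _
  have hcard : Fintype.card (𝓞 K ⧸ v.asIdeal) = p := by
    rw [← hv, Ideal.absNorm_apply, Submodule.cardQuot_apply, Nat.card_eq_fintype_card]
  rw [← Ideal.Quotient.eq, map_pow]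
  have := FiniteField.pow_card (Ideal.Quotient.mk v.asIdeal η)
  rw [hcard] at this
  exact this.symm

/-- The final counting argument. -/
theorem exists_prime_nonresidue_core {p : ℕ} [Fact p.Prime] (hp : p ≠ 2)
    (lam : ClassGroup (𝓞 K) →* Multiplicative (ZMod p)) (η : 𝓞 K)
    (hsum : ∀ s : ℝ, 1 < s → Summable fun I : (Ideal (𝓞 K))⁰ => nrm K s (I : Ideal (𝓞 K)))
    (hzeta : ∃ c C : ℝ, 0 < c ∧ 0 < C ∧ ∀ s : ℝ, 1 < s → s ≤ 2 →
      c / (s - 1) ≤ idealZeta K s ∧ idealZeta K s ≤ C / (s - 1))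
    (hlog : ∃ C : ℝ, ∀ s : ℝ, 1 < s → s ≤ 2 →
      Real.log (idealZeta K s) ≤ primeSum (Set.univ : Set (HeightOneSpectrum (𝓞 K))) s + C)
    (hdeg : ∃ C : ℝ, ∀ s : ℝ, 1 < s →
      primeSum {v : HeightOneSpectrum (𝓞 K) | ¬ (Ideal.absNorm v.asIdeal).Prime} s ≤ C)
    (hres : ∃ C : ℝ, ∀ s : ℝ, 1 < s → s ≤ 2 →
      primeSum {v : HeightOneSpectrum (𝓞 K) | ∃ z : 𝓞 K, η - z ^ p ∈ v.asIdeal} s
        ≤ (1 / p : ℝ) * Real.log (1 / (s - 1)) + C)
    (hker : ∃ C : ℝ, ∀ s : ℝ, 1 < s → s ≤ 2 →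
      primeSum {v : HeightOneSpectrum (𝓞 K) | lam (ClassGroup.mk0 (primeNZ v)) = 1} s
        ≤ (1 / p : ℝ) * Real.log (1 / (s - 1)) + C) :
    ∃ v : HeightOneSpectrum (𝓞 K), (Ideal.absNorm v.asIdeal).Prime ∧ Ideal.absNorm v.asIdeal ≠ p ∧
      lam (ClassGroup.mk0 (primeNZ v)) ≠ 1 ∧ ¬ ∃ z : 𝓞 K, η - z ^ p ∈ v.asIdeal := by
  by_contra hcon
  push Not at hcon
  obtain ⟨c, C', hc, _, hzeta⟩ := hzeta
  obtain ⟨C0, hlog⟩ := hlog
  obtain ⟨C1, hdeg⟩ := hdeg
  obtain ⟨C2, hres⟩ := hres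
  obtain ⟨C3, hker⟩ := hker
  have hcover : ∀ v : HeightOneSpectrum (𝓞 K),
      v ∈ {v : HeightOneSpectrum (𝓞 K) | ¬ (Ideal.absNorm v.asIdeal).Prime} ∨
      v ∈ {v : HeightOneSpectrum (𝓞 K) | ∃ z : 𝓞 K, η - z ^ p ∈ v.asIdeal} ∨
      v ∈ {v : HeightOneSpectrum (𝓞 K) | lam (ClassGroup.mk0 (primeNZ v)) = 1} := by
    intro v
    simp only [Set.mem_ofPred_eq]
    by_cases h1 : (Ideal.absNorm v.asIdeal).Prime
    · by_cases h2 : Ideal.absNorm v.asIdeal = p
      · exact Or.inr (Or.inl ⟨η, fin_sub_pow_mem_of_absNorm_eq v h2 η⟩)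
      · by_cases h3 : lam (ClassGroup.mk0 (primeNZ v)) = 1
        · exact Or.inr (Or.inr h3)
        · exact Or.inr (Or.inl (hcon v h1 h2 h3))
    · exact Or.inl h1
  have hp3 : (3 : ℝ) ≤ p := by
    have h2 := (Fact.out : p.Prime).two_le
    have : 3 ≤ p := by omega
    exact_mod_cast this
  have hp0 : (0 : ℝ) < p := by linarith
  -- the key inequality
  have key : ∀ s : ℝ, 1 < s → s ≤ 2 →
      (1 - 2 / (p : ℝ)) * Real.log (1 / (s - 1)) ≤ C0 + C1 + C2 + C3 - Real.log c := by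
    intro s hs hs2
    have hs0 : 0 < s - 1 := by linarith
    have h1 := (hzeta s hs hs2).1
    have h2 : Real.log (c / (s - 1)) ≤ Real.log (idealZeta K s) :=
      Real.log_le_log (div_pos hc hs0) h1
    have h3 : Real.log (c / (s - 1)) = Real.log c + Real.log (1 / (s - 1)) := by
      rw [div_eq_mul_one_div, Real.log_mul hc.ne' (one_div_pos.mpr hs0).ne']
    have h4 := fin_primeSum_univ_le_of_cover (hsum s hs) _ _ _ hcover
    have h5 := hlog s hs hs2
    have h6 := hdeg s hs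
    have h7 := hres s hs hs2
    have h8 := hker s hs hs2
    have h9 : (1 - 2 / (p : ℝ)) * Real.log (1 / (s - 1)) =
        Real.log (1 / (s - 1)) - (1 / p : ℝ) * Real.log (1 / (s - 1))
          - (1 / p : ℝ) * Real.log (1 / (s - 1)) := by ring
    rw [h9]
    linarith
  set M : ℝ := C0 + C1 + C2 + C3 - Real.log c with hM
  have hδ : (1 : ℝ) / 3 ≤ 1 - 2 / (p : ℝ) := by
    have : 2 / (p : ℝ) ≤ 2 / 3 := by
      apply div_le_div_of_nonneg_left (by norm_num) (by norm_num) hp3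
    linarith
  set t : ℝ := 3 * |M| + 1 with ht
  have ht0 : 0 < t := by positivity
  have hs1 : 1 < 1 + Real.exp (-t) := by
    have := Real.exp_pos (-t)
    linarith
  have hs2 : 1 + Real.exp (-t) ≤ 2 := by
    have : Real.exp (-t) ≤ 1 := Real.exp_le_one_iff.mpr (by linarith)
    linarith
  have h := key _ hs1 hs2
  have hlogt : Real.log (1 / (1 + Real.exp (-t) - 1)) = t := by
    rw [add_sub_cancel_left, one_div, ← Real.exp_neg, neg_neg, Real.log_exp]
  rw [hlogt] at h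
  have h1 : (1 / 3 : ℝ) * t ≤ (1 - 2 / (p : ℝ)) * t := mul_le_mul_of_nonneg_right hδ ht0.le
  have h2 : M ≤ |M| := le_abs_self M
  rw [ht] at h h1
  linarith

end Fermat.Agent.S14.An
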