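import Fermat.Agent.S14.An.Defs

/-!
# S14, analytic block (An-Ker), core: the statements with the black boxes as hypotheses
-/

set_option autoImplicit false

namespace Fermat.Agent.S14.An.Ker

open NumberField IsDedekindDomain Filter Topology
open scoped nonZeroDivisors

variable {K : Type*} [Field K] [NumberField K]

theorem nrm_nonneg (s : ℝ) (I : Ideal (𝓞 K)) : 0 ≤ nrm K s I :=
  Real.rpow_nonneg (Nat.cast_nonneg _) _

/-- values of a class group character have norm one. -/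
theorem norm_classChar (χ : ClassGroup (𝓞 K) →* ℂˣ) (c : ClassGroup (𝓞 K)) :
    ‖((χ c : ℂˣ) : ℂ)‖ = 1 := by
  have h1 : ((χ c : ℂˣ) : ℂ) ^ Fintype.card (ClassGroup (𝓞 K)) = 1 := by
    rw [← Units.val_pow_eq_pow_val, ← map_pow, pow_card_eq_one, map_one, Units.val_one]
  exact Complex.norm_eq_one_of_pow_eq_one h1 Fintype.card_ne_zero

theorem summable_LChar_term
    (hsum : ∀ s : ℝ, 1 < s → Summable fun I : (Ideal (𝓞 K))⁰ => nrm K s (I : Ideal (𝓞 K)))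
    (χ : ClassGroup (𝓞 K) →* ℂˣ) {s : ℝ} (hs : 1 < s) :
    Summable fun I : (Ideal (𝓞 K))⁰ =>
      ((χ (ClassGroup.mk0 I) : ℂˣ) : ℂ) * ((nrm K s (I : Ideal (𝓞 K)) : ℝ) : ℂ) := by
  refine Summable.of_norm ?_
  refine (hsum s hs).congr fun I => ?_
  rw [norm_mul, norm_classChar, one_mul, Complex.norm_real, Real.norm_of_nonneg (nrm_nonneg _ _)]

/-- decomposition of the `L`-series into partial zeta functions. -/
theorem LChar_eq_sum_partialZeta
    (hsum : ∀ s : ℝ, 1 < s → Summable fun I : (Ideal (𝓞 K))⁰ => nrm K s (I : Ideal (𝓞 K)))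
    (χ : ClassGroup (𝓞 K) →* ℂˣ) {s : ℝ} (hs : 1 < s) :
    LChar χ s = ∑ C : ClassGroup (𝓞 K), ((χ C : ℂˣ) : ℂ) * ((partialZeta K C s : ℝ) : ℂ) := by
  have h1 := (summable_LChar_term hsum χ hs).hasSum.tsum_fiberwise
    (fun I : (Ideal (𝓞 K))⁰ => ClassGroup.mk0 I)
  have h2 := h1.tsum_eq
  rw [tsum_fintype] at h2
  rw [LChar, ← h2]
  refine Finset.sum_congr rfl fun C _ => ?_
  have h3 : ∀ I : ((fun I : (Ideal (𝓞 K))⁰ => ClassGroup.mk0 I) ⁻¹' {C}),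
      ((χ (ClassGroup.mk0 (I : (Ideal (𝓞 K))⁰)) : ℂˣ) : ℂ) *
        ((nrm K s ((I : (Ideal (𝓞 K))⁰) : Ideal (𝓞 K)) : ℝ) : ℂ) =
      ((χ C : ℂˣ) : ℂ) * ((nrm K s ((I : (Ideal (𝓞 K))⁰) : Ideal (𝓞 K)) : ℝ) : ℂ) := by
    intro I
    have : ClassGroup.mk0 (I : (Ideal (𝓞 K))⁰) = C := I.2
    rw [this]
  rw [tsum_congr h3, tsum_mul_left, partialZeta, Complex.ofReal_tsum]
  rfl

theorem LChar_bounded_of
    (hsum : ∀ s : ℝ, 1 < s → Summable fun I : (Ideal (𝓞 K))⁰ => nrm K s (I : Ideal (𝓞 K)))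
    (hpz : ∀ C₁ C₂ : ClassGroup (𝓞 K), ∃ B : ℝ, ∀ s : ℝ, 1 < s → s ≤ 2 →
      |partialZeta K C₁ s - partialZeta K C₂ s| ≤ B)
    (χ : ClassGroup (𝓞 K) →* ℂˣ) (hχ : χ ≠ 1) :
    ∃ B : ℝ, ∀ s : ℝ, 1 < s → s ≤ 2 → ‖LChar χ s‖ ≤ B := by
  choose B hB using fun C => hpz C 1
  refine ⟨∑ C, B C, fun s hs hs2 => ?_⟩
  have h0 : ∑ C : ClassGroup (𝓞 K), ((χ C : ℂˣ) : ℂ) = 0 := by
    have hne : (Units.coeHom ℂ).comp χ ≠ 1 := by
      intro h
      apply hχ
      ext c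
      have := DFunLike.congr_fun h c
      simpa using this
    exact sum_hom_units_eq_zero ((Units.coeHom ℂ).comp χ) hne
  have h1 : LChar χ s = ∑ C : ClassGroup (𝓞 K), ((χ C : ℂˣ) : ℂ) *
      (((partialZeta K C s - partialZeta K 1 s : ℝ)) : ℂ) := by
    rw [LChar_eq_sum_partialZeta hsum χ hs]
    have : ∑ C : ClassGroup (𝓞 K), ((χ C : ℂˣ) : ℂ) *
      (((partialZeta K C s - partialZeta K 1 s : ℝ)) : ℂ) =
      ∑ C : ClassGroup (𝓞 K), ((χ C : ℂˣ) : ℂ) * ((partialZeta K C s : ℝ) : ℂ) -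
      (∑ C : ClassGroup (𝓞 K), ((χ C : ℂˣ) : ℂ)) * ((partialZeta K 1 s : ℝ) : ℂ) := by
      rw [Finset.sum_mul, ← Finset.sum_sub_distrib]
      refine Finset.sum_congr rfl fun C _ => ?_
      push_cast
      ring
    rw [this, h0, zero_mul, sub_zero]
  rw [h1]
  refine (norm_sum_le _ _).trans (Finset.sum_le_sum fun C _ => ?_)
  rw [norm_mul, norm_classChar, one_mul, Complex.norm_real, Real.norm_eq_abs]
  exact hB C s hs hs2

omit [NumberField K] in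
theorem primeNZ_injective : Function.Injective (primeNZ : HeightOneSpectrum (𝓞 K) → _) := by
  intro v w h
  apply HeightOneSpectrum.ext
  exact congrArg (fun I : (Ideal (𝓞 K))⁰ => (I : Ideal (𝓞 K))) h

theorem summable_nrm_prime
    (hsum : ∀ s : ℝ, 1 < s → Summable fun I : (Ideal (𝓞 K))⁰ => nrm K s (I : Ideal (𝓞 K)))
    {s : ℝ} (hs : 1 < s) :
    Summable fun v : HeightOneSpectrum (𝓞 K) => nrm K s v.asIdeal := by
  have h := (hsum s hs).comp_injective (primeNZ_injective (K := K))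
  exact h

theorem LChar_one (s : ℝ) : LChar (1 : ClassGroup (𝓞 K) →* ℂˣ) s = ((idealZeta K s : ℝ) : ℂ) := by
  rw [LChar, idealZeta, Complex.ofReal_tsum]
  refine tsum_congr fun I => ?_
  simp

/-- the characters `ψ^j ∘ lam`. -/
noncomputable def kerChar {p : ℕ} [Fact p.Prime]
    (lam : ClassGroup (𝓞 K) →* Multiplicative (ZMod p)) (j : ZMod p) :
    ClassGroup (𝓞 K) →* ℂˣ :=
  (MonoidHom.toHomUnits ((AddChar.mulShift (ZMod.stdAddChar (N := p)) j).toMonoidHom)).comp lam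

omit [NumberField K] in
theorem kerChar_apply {p : ℕ} [Fact p.Prime]
    (lam : ClassGroup (𝓞 K) →* Multiplicative (ZMod p)) (j : ZMod p) (c : ClassGroup (𝓞 K)) :
    ((kerChar lam j c : ℂˣ) : ℂ) = ZMod.stdAddChar (N := p) (j * Multiplicative.toAdd (lam c)) := by
  simp [kerChar, MonoidHom.coe_toHomUnits, AddChar.mulShift_apply]

theorem kerChar_zero {p : ℕ} [Fact p.Prime]
    (lam : ClassGroup (𝓞 K) →* Multiplicative (ZMod p)) : kerChar lam 0 = 1 := by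
  ext c
  rw [kerChar_apply]
  simp

theorem kerChar_ne_one {p : ℕ} [Fact p.Prime]
    (lam : ClassGroup (𝓞 K) →* Multiplicative (ZMod p)) (hlam : lam ≠ 1) {j : ZMod p}
    (hj : j ≠ 0) : kerChar lam j ≠ 1 := by
  intro h
  apply hlam
  ext c
  have h1 : ((kerChar lam j c : ℂˣ) : ℂ) = 1 := by rw [h]; simp
  rw [kerChar_apply, ← (ZMod.stdAddChar (N := p)).map_zero_eq_one,
    ZMod.injective_stdAddChar.eq_iff] at h1
  have h2 : Multiplicative.toAdd (lam c) = 0 := (mul_eq_zero.mp h1).resolve_left hj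
  simpa using h2

theorem sum_kerChar {p : ℕ} [Fact p.Prime]
    (lam : ClassGroup (𝓞 K) →* Multiplicative (ZMod p)) (c : ClassGroup (𝓞 K)) :
    ∑ j : ZMod p, ((kerChar lam j c : ℂˣ) : ℂ) = if lam c = 1 then (p : ℂ) else 0 := by
  simp_rw [kerChar_apply]
  rw [AddChar.sum_mulShift _ (ZMod.isPrimitive_stdAddChar p)]
  simp only [ZMod.card]
  by_cases h : lam c = 1
  · simp [h]
  · have h' : Multiplicative.toAdd (lam c) ≠ 0 := by
      intro h0
      exact h (by simpa using h0)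
    simp [h, h']

theorem summable_re_mul_nrm
    (hsum : ∀ s : ℝ, 1 < s → Summable fun I : (Ideal (𝓞 K))⁰ => nrm K s (I : Ideal (𝓞 K)))
    (χ : ClassGroup (𝓞 K) →* ℂˣ) {s : ℝ} (hs : 1 < s) :
    Summable fun v : HeightOneSpectrum (𝓞 K) =>
      (((χ (ClassGroup.mk0 (primeNZ v)) : ℂˣ) : ℂ)).re * nrm K s v.asIdeal := by
  refine Summable.of_norm_bounded (summable_nrm_prime hsum hs) fun v => ?_
  rw [norm_mul, Real.norm_of_nonneg (nrm_nonneg _ _)]
  have h1 : ‖(((χ (ClassGroup.mk0 (primeNZ v)) : ℂˣ) : ℂ)).re‖ ≤ 1 := by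
    rw [Real.norm_eq_abs, ← norm_classChar χ (ClassGroup.mk0 (primeNZ v))]
    exact Complex.abs_re_le_norm _
  exact mul_le_of_le_one_left (nrm_nonneg _ _) h1

theorem sum_tsum_kerChar
    (hsum : ∀ s : ℝ, 1 < s → Summable fun I : (Ideal (𝓞 K))⁰ => nrm K s (I : Ideal (𝓞 K)))
    {p : ℕ} [Fact p.Prime] (lam : ClassGroup (𝓞 K) →* Multiplicative (ZMod p))
    {s : ℝ} (hs : 1 < s) :
    ∑ j : ZMod p, ∑' v : HeightOneSpectrum (𝓞 K),
      (((kerChar lam j (ClassGroup.mk0 (primeNZ v)) : ℂˣ) : ℂ)).re * nrm K s v.asIdeal =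
    (p : ℝ) * primeSum {v : HeightOneSpectrum (𝓞 K) | lam (ClassGroup.mk0 (primeNZ v)) = 1} s := by
  rw [← Summable.tsum_finsetSum fun j _ => summable_re_mul_nrm hsum (kerChar lam j) hs,
    primeSum, tsum_subtype {v : HeightOneSpectrum (𝓞 K) | lam (ClassGroup.mk0 (primeNZ v)) = 1}
      (fun v : HeightOneSpectrum (𝓞 K) => nrm K s v.asIdeal), ← tsum_mul_left]
  refine tsum_congr fun v => ?_
  rw [← Finset.sum_mul]
  have h1 : ∑ j : ZMod p, (((kerChar lam j (ClassGroup.mk0 (primeNZ v)) : ℂˣ) : ℂ)).re =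
      (∑ j : ZMod p, ((kerChar lam j (ClassGroup.mk0 (primeNZ v)) : ℂˣ) : ℂ)).re := by
    rw [Complex.re_sum]
  rw [h1, sum_kerChar]
  by_cases h : lam (ClassGroup.mk0 (primeNZ v)) = 1
  · rw [if_pos h, Set.indicator_of_mem (by exact h)]
    simp
  · rw [if_neg h, Set.indicator_of_notMem (by exact h)]
    simp

theorem primeSum_ker_le_of
    (hsum : ∀ s : ℝ, 1 < s → Summable fun I : (Ideal (𝓞 K))⁰ => nrm K s (I : Ideal (𝓞 K)))
    (hz : ∃ c C : ℝ, 0 < c ∧ 0 < C ∧ ∀ s : ℝ, 1 < s → s ≤ 2 →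
      c / (s - 1) ≤ idealZeta K s ∧ idealZeta K s ≤ C / (s - 1))
    (hexp : ∃ C : ℝ, ∀ (χ : ClassGroup (𝓞 K) →* ℂˣ), (∀ c, ‖((χ c : ℂˣ) : ℂ)‖ = 1) →
      ∀ s : ℝ, 1 < s → s ≤ 2 →
      Real.exp ((∑' v : HeightOneSpectrum (𝓞 K),
        (((χ (ClassGroup.mk0 (primeNZ v)) : ℂˣ) : ℂ)).re * nrm K s v.asIdeal) - C) ≤ ‖LChar χ s‖)
    (hL : ∀ χ : ClassGroup (𝓞 K) →* ℂˣ, χ ≠ 1 →
      ∃ B : ℝ, ∀ s : ℝ, 1 < s → s ≤ 2 → ‖LChar χ s‖ ≤ B)
    {p : ℕ} [Fact p.Prime]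
    (lam : ClassGroup (𝓞 K) →* Multiplicative (ZMod p)) (hlam : lam ≠ 1) :
    ∃ C : ℝ, ∀ s : ℝ, 1 < s → s ≤ 2 →
      primeSum {v : HeightOneSpectrum (𝓞 K) | lam (ClassGroup.mk0 (primeNZ v)) = 1} s
        ≤ (1 / p : ℝ) * Real.log (1 / (s - 1)) + C := by
  obtain ⟨c, Cz, hc, hCz, hz⟩ := hz
  obtain ⟨C0, hexp⟩ := hexp
  have hB' : ∀ j : ZMod p, ∃ B : ℝ, j ≠ 0 → ∀ s : ℝ, 1 < s → s ≤ 2 →
      ‖LChar (kerChar lam j) s‖ ≤ B := by
    intro j
    by_cases hj : j = 0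
    · exact ⟨0, fun h => absurd hj h⟩
    · obtain ⟨B, hB⟩ := hL _ (kerChar_ne_one lam hlam hj)
      exact ⟨B, fun _ => hB⟩
  choose B hB using hB'
  have hp : (0 : ℝ) < p := by exact_mod_cast (Fact.out : p.Prime).pos
  refine ⟨(1 / p : ℝ) * ∑ j : ZMod p, (C0 + if j = 0 then Real.log Cz else Real.log (B j)),
    fun s hs hs2 => ?_⟩
  have hs1 : 0 < s - 1 := sub_pos.mpr hs
  have key : ∀ j : ZMod p, ∑' v : HeightOneSpectrum (𝓞 K),
      (((kerChar lam j (ClassGroup.mk0 (primeNZ v)) : ℂˣ) : ℂ)).re * nrm K s v.asIdeal ≤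
      (C0 + if j = 0 then Real.log Cz else Real.log (B j)) +
        if j = 0 then Real.log (1 / (s - 1)) else 0 := by
    intro j
    have h1 := hexp (kerChar lam j) (norm_classChar _) s hs hs2
    by_cases hj : j = 0
    · subst hj
      rw [if_pos rfl, if_pos rfl]
      rw [kerChar_zero, LChar_one, Complex.norm_real] at h1
      have h2 : ‖idealZeta K s‖ ≤ Cz / (s - 1) := by
        have h0 : 0 ≤ idealZeta K s := tsum_nonneg fun I => nrm_nonneg _ _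
        rw [Real.norm_of_nonneg h0]
        exact (hz s hs hs2).2
      have h3 := Real.log_le_log (Real.exp_pos _) (h1.trans h2)
      rw [Real.log_exp, div_eq_mul_one_div, Real.log_mul hCz.ne' (one_div_pos.mpr hs1).ne'] at h3
      rw [kerChar_zero]
      linarith
    · rw [if_neg hj, if_neg hj]
      have h3 := Real.log_le_log (Real.exp_pos _) (h1.trans (hB j hj s hs hs2))
      rw [Real.log_exp] at h3
      linarith
  have hsumj := Finset.sum_le_sum fun j (_ : j ∈ (Finset.univ : Finset (ZMod p))) => key j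
  rw [sum_tsum_kerChar hsum lam hs, Finset.sum_add_distrib, Finset.sum_ite_eq'] at hsumj
  simp only [Finset.mem_univ, if_true] at hsumj
  have : primeSum {v : HeightOneSpectrum (𝓞 K) | lam (ClassGroup.mk0 (primeNZ v)) = 1} s =
      (1 / p : ℝ) * ((p : ℝ) *
        primeSum {v : HeightOneSpectrum (𝓞 K) | lam (ClassGroup.mk0 (primeNZ v)) = 1} s) := by
    field_simp
  rw [this, ← mul_add]
  refine mul_le_mul_of_nonneg_left ?_ (by positivity)
  linarith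

end Fermat.Agent.S14.An.Ker
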